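import Mathlib
import Fermat.Prelude.Def_FLTPrelim_Ramification

/-!
# S05, piece `Val`: valuation-theoretic facts about decomposition and inertia groups

For a valuation subring `A` of `L` (an algebraic extension of `K`):
* elements of the decomposition group preserve the valuation;
* elements of the inertia group move integral elements by elements of the maximal ideal;
* valuations of rational integers when `A` lies over a prime `q`.
-/

set_option autoImplicit false

namespace Fermat.Agent.S05

open scoped Pointwise

section Decomposition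

variable {K L : Type*} [Field K] [Field L] [Algebra K L]

/-- Elements of the decomposition group preserve membership in `A`. -/
theorem apply_mem_iff_of_mem_decompositionSubgroup (A : ValuationSubring L) {σ : L ≃ₐ[K] L}
    (hσ : σ ∈ A.decompositionSubgroup K) (x : L) : σ x ∈ A ↔ x ∈ A := by
  have h : σ • A = A := hσ
  constructor
  · intro hx
    have h1 : σ x ∈ σ • A := by rw [h]; exact hx
    exact (ValuationSubring.smul_mem_pointwise_smul_iff (g := σ) (S := A) (x := x)).mp h1
  · intro hx
    have h1 : σ • x ∈ σ • A := ValuationSubring.smul_mem_pointwise_smul σ x A hx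
    rw [h] at h1
    exact h1

/-- Elements of the decomposition group preserve the order of valuations. -/
theorem valuation_apply_le_iff (A : ValuationSubring L) {σ : L ≃ₐ[K] L}
    (hσ : σ ∈ A.decompositionSubgroup K) (x y : L) :
    A.valuation (σ x) ≤ A.valuation (σ y) ↔ A.valuation x ≤ A.valuation y := by
  by_cases hy : y = 0
  · subst hy
    simp
  · have hσy : σ y ≠ 0 := by simpa using hy
    have key : ∀ a b : L, b ≠ 0 → (A.valuation a ≤ A.valuation b ↔ a / b ∈ A) := by
      intro a b hb
      rw [← A.valuation_le_one_iff, map_div₀]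
      have hvb : A.valuation b ≠ 0 := (Valuation.ne_zero_iff _).mpr hb
      rw [div_le_one₀ (zero_lt_iff.mpr hvb)]
    rw [key _ _ hσy, key _ _ hy, ← map_div₀]
    exact apply_mem_iff_of_mem_decompositionSubgroup A hσ _

theorem valuation_apply_lt_iff (A : ValuationSubring L) {σ : L ≃ₐ[K] L}
    (hσ : σ ∈ A.decompositionSubgroup K) (x y : L) :
    A.valuation (σ x) < A.valuation (σ y) ↔ A.valuation x < A.valuation y := by
  rw [← not_le, ← not_le, valuation_apply_le_iff A hσ]

/-- Powers of an element of the decomposition group stay in it and compare valuations of the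
orbit. -/
theorem exists_pow_apply_eq_self (σ : L ≃ₐ[K] L) {x : L} (hx : IsAlgebraic K x) :
    ∃ m : ℕ, 0 < m ∧ (σ ^ m) x = x := by
  classical
  obtain ⟨f, hf0, hfx⟩ := hx
  have hfin : (f.rootSet L).Finite := Polynomial.rootSet_finite f L
  have hmem : ∀ n : ℕ, (σ ^ n) x ∈ f.rootSet L := by
    intro n
    rw [Polynomial.mem_rootSet]
    refine ⟨hf0, ?_⟩
    rw [← AlgEquiv.coe_toAlgHom, Polynomial.aeval_algHom_apply, hfx, map_zero]
  obtain ⟨i, j, hij, heq⟩ : ∃ i j : ℕ, i ≠ j ∧ (σ ^ i) x = (σ ^ j) x := by
    by_contra hcon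
    push Not at hcon
    have hinj : Function.Injective fun n : ℕ => (⟨(σ ^ n) x, hmem n⟩ : f.rootSet L) := by
      intro i j hij
      by_contra hne
      exact hcon i j hne (congrArg Subtype.val hij)
    have := hfin.to_subtype
    exact not_injective_infinite_finite _ hinj
  wlog hlt : i < j generalizing i j
  · exact this j i hij.symm heq.symm (lt_of_le_of_ne (not_lt.mp hlt) hij.symm)
  refine ⟨j - i, Nat.sub_pos_of_lt hlt, ?_⟩
  have h1 : (σ ^ i) ((σ ^ (j - i)) x) = (σ ^ i) x := by
    rw [← AlgEquiv.mul_apply, ← pow_add, Nat.add_sub_cancel' hlt.le, heq]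
  exact (σ ^ i).injective h1

/-- Elements of the decomposition group preserve the valuation (for algebraic extensions). -/
theorem valuation_apply_eq (A : ValuationSubring L) {σ : L ≃ₐ[K] L}
    (hσ : σ ∈ A.decompositionSubgroup K) {x : L} (hx : IsAlgebraic K x) :
    A.valuation (σ x) = A.valuation x := by
  obtain ⟨m, hm, hmx⟩ := exists_pow_apply_eq_self σ hx
  have hpow : ∀ n : ℕ, (σ ^ (n + 1)) x = σ ((σ ^ n) x) := by
    intro n
    rw [pow_succ', AlgEquiv.mul_apply]
  rcases lt_trichotomy (A.valuation (σ x)) (A.valuation x) with h | h | h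
  · exfalso
    have hdec : ∀ n : ℕ, A.valuation ((σ ^ (n + 1)) x) < A.valuation x := by
      intro n
      induction n with
      | zero => simpa using h
      | succ n ih =>
        rw [hpow (n + 1)]
        have h2 : A.valuation (σ ((σ ^ (n + 1)) x)) < A.valuation (σ x) :=
          (valuation_apply_lt_iff A hσ _ _).mpr ih
        exact h2.trans h
    have := hdec (m - 1)
    rw [Nat.sub_add_cancel hm, hmx] at this
    exact lt_irrefl _ this
  · exact h
  · exfalso
    have hinc : ∀ n : ℕ, A.valuation x < A.valuation ((σ ^ (n + 1)) x) := by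
      intro n
      induction n with
      | zero => simpa using h
      | succ n ih =>
        rw [hpow (n + 1)]
        have h2 : A.valuation (σ x) < A.valuation (σ ((σ ^ (n + 1)) x)) :=
          (valuation_apply_lt_iff A hσ _ _).mpr ih
        exact h.trans h2
    have := hinc (m - 1)
    rw [Nat.sub_add_cancel hm, hmx] at this
    exact lt_irrefl _ this

end Decomposition

section Inertia

variable {K L : Type*} [Field K] [Field L] [Algebra K L]

theorem mem_decompositionSubgroup_of_mem_inertiaSubgroupIn (A : ValuationSubring L)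
    {σ : L ≃ₐ[K] L} (hσ : σ ∈ A.inertiaSubgroupIn K) : σ ∈ A.decompositionSubgroup K := by
  obtain ⟨τ, -, rfl⟩ := hσ
  exact τ.2

/-- Elements of the inertia group move integral elements by elements of the maximal ideal. -/
theorem valuation_apply_sub_lt_one (A : ValuationSubring L) {σ : L ≃ₐ[K] L}
    (hσ : σ ∈ A.inertiaSubgroupIn K) {x : L} (hx : A.valuation x ≤ 1) :
    A.valuation (σ x - x) < 1 := by
  obtain ⟨τ, hτ, rfl⟩ := hσ
  have hxA : x ∈ A := (A.valuation_le_one_iff x).mp hx
  have hτ' : ∀ r : IsLocalRing.ResidueField A, τ • r = r := by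
    intro r
    have := (MonoidHom.mem_ker).mp hτ
    have h2 := congrArg (fun f : RingAut (IsLocalRing.ResidueField A) => f r) this
    simpa using h2
  have h1 : IsLocalRing.residue A (τ • (⟨x, hxA⟩ : A)) = IsLocalRing.residue A ⟨x, hxA⟩ := by
    rw [IsLocalRing.ResidueField.residue_smul, hτ']
  have h2 : (τ • (⟨x, hxA⟩ : A)) - ⟨x, hxA⟩ ∈ IsLocalRing.maximalIdeal A := by
    rw [← IsLocalRing.residue_eq_zero_iff, map_sub, h1, sub_self]
  exact (A.valuation_lt_one_iff _).mp h2

end Inertia

section IntCast

variable {L : Type*} [Field L]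

theorem valuation_intCast_le_one (A : ValuationSubring L) (n : ℤ) : A.valuation (n : L) ≤ 1 :=
  (A.valuation_le_one_iff _).mpr (intCast_mem A n)

theorem valuation_natCast_le_one (A : ValuationSubring L) (n : ℕ) : A.valuation (n : L) ≤ 1 :=
  (A.valuation_le_one_iff _).mpr (natCast_mem A n)

theorem valuation_intCast_lt_one_of_dvd (A : ValuationSubring L) {q : ℕ}
    (hA : A.LiesOverPrime q) {n : ℤ} (h : (q : ℤ) ∣ n) : A.valuation (n : L) < 1 := by
  have hq : A.valuation (q : L) < 1 := A.mem_nonunits_iff.mp hA
  obtain ⟨k, rfl⟩ := h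
  push_cast
  rw [map_mul]
  calc A.valuation (q : L) * A.valuation (k : L) ≤ A.valuation (q : L) * 1 := by
        gcongr
        exact valuation_intCast_le_one A k
    _ < 1 := by rwa [mul_one]

theorem valuation_intCast_eq_one_of_not_dvd (A : ValuationSubring L) {q : ℕ} (hqp : q.Prime)
    (hA : A.LiesOverPrime q) {n : ℤ} (h : ¬ (q : ℤ) ∣ n) : A.valuation (n : L) = 1 := by
  have hq : A.valuation (q : L) < 1 := A.mem_nonunits_iff.mp hA
  have hcop : IsCoprime (q : ℤ) n :=
    (Nat.prime_iff_prime_int.mp hqp).coprime_iff_not_dvd.mpr h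
  obtain ⟨u, w, huw⟩ := hcop
  refine le_antisymm (valuation_intCast_le_one A n) ?_
  by_contra hlt
  rw [not_le] at hlt
  have h1 : A.valuation ((u * q + w * n : ℤ) : L) < 1 := by
    push_cast
    refine lt_of_le_of_lt (A.valuation.map_add _ _) (max_lt ?_ ?_)
    · rw [map_mul]
      calc A.valuation (u : L) * A.valuation (q : L) ≤ 1 * A.valuation (q : L) := by
            gcongr
            exact valuation_intCast_le_one A u
        _ < 1 := by rwa [one_mul]
    · rw [map_mul]
      calc A.valuation (w : L) * A.valuation (n : L) ≤ 1 * A.valuation (n : L) := by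
            gcongr
            exact valuation_intCast_le_one A w
        _ < 1 := by rwa [one_mul]
  rw [huw] at h1
  simp at h1

theorem valuation_intCast_lt_one_iff (A : ValuationSubring L) {q : ℕ} (hqp : q.Prime)
    (hA : A.LiesOverPrime q) (n : ℤ) : A.valuation (n : L) < 1 ↔ (q : ℤ) ∣ n := by
  constructor
  · intro h
    by_contra hnd
    rw [valuation_intCast_eq_one_of_not_dvd A hqp hA hnd] at h
    exact lt_irrefl _ h
  · exact valuation_intCast_lt_one_of_dvd A hA

end IntCast

section Rat

/-- `AlgebraicClosure ℚ` is algebraic over `ℚ` for any `ℚ`-algebra structure. -/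
theorem isAlgebraic_rat_algebraicClosure [inst : Algebra ℚ (AlgebraicClosure ℚ)]
    (x : AlgebraicClosure ℚ) : IsAlgebraic ℚ x := by
  have h : inst = AlgebraicClosure.instAlgebra ℚ := Subsingleton.elim _ _
  subst h
  exact Algebra.IsAlgebraic.isAlgebraic x

/-- Inertia elements preserve the valuation on `AlgebraicClosure ℚ`. -/
theorem valuation_apply_eq_of_mem_inertia [inst : Algebra ℚ (AlgebraicClosure ℚ)]
    (A : ValuationSubring (AlgebraicClosure ℚ))
    {σ : AlgebraicClosure ℚ ≃ₐ[ℚ] AlgebraicClosure ℚ} (hσ : σ ∈ A.inertiaSubgroupIn ℚ)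
    (x : AlgebraicClosure ℚ) : A.valuation (σ x) = A.valuation x :=
  valuation_apply_eq A (mem_decompositionSubgroup_of_mem_inertiaSubgroupIn A hσ)
    (isAlgebraic_rat_algebraicClosure x)

/-- Sanity check: the generic-instance lemma applies with the instance found by default. -/
example (A : ValuationSubring (AlgebraicClosure ℚ))
    {σ : AlgebraicClosure ℚ ≃ₐ[ℚ] AlgebraicClosure ℚ} (hσ : σ ∈ A.inertiaSubgroupIn ℚ)
    (x : AlgebraicClosure ℚ) : A.valuation (σ x) = A.valuation x :=
  valuation_apply_eq_of_mem_inertia A hσ x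

end Rat

/-! ### Aliases under the names used in the S05 skeleton -/

section Aliases

variable {F L : Type*} [Field F] [Field L] [Algebra F L]

/-- NB: needs algebraicity of `L / F` (false in general otherwise). -/
theorem inertia_val_eq (A : ValuationSubring L) {σ : L ≃ₐ[F] L}
    (hσ : σ ∈ A.inertiaSubgroupIn F) (halg : ∀ x : L, IsAlgebraic F x) (x : L) :
    A.valuation (σ x) = A.valuation x :=
  valuation_apply_eq A (mem_decompositionSubgroup_of_mem_inertiaSubgroupIn A hσ) (halg x)

theorem inertia_sub_lt_one (A : ValuationSubring L) {σ : L ≃ₐ[F] L}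
    (hσ : σ ∈ A.inertiaSubgroupIn F) {x : L} (hx : A.valuation x ≤ 1) :
    A.valuation (σ x - x) < 1 :=
  valuation_apply_sub_lt_one A hσ hx

theorem val_intCast_le_one (A : ValuationSubring L) (n : ℤ) : A.valuation (n : L) ≤ 1 :=
  valuation_intCast_le_one A n

theorem val_intCast_eq_one (A : ValuationSubring L) {q : ℕ} (hq : q.Prime)
    (hA : A.LiesOverPrime q) {n : ℤ} (hn : ¬ (q : ℤ) ∣ n) : A.valuation (n : L) = 1 :=
  valuation_intCast_eq_one_of_not_dvd A hq hA hn

theorem val_intCast_lt_one (A : ValuationSubring L) {q : ℕ} (hA : A.LiesOverPrime q) {n : ℤ}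
    (hn : (q : ℤ) ∣ n) : A.valuation (n : L) < 1 :=
  valuation_intCast_lt_one_of_dvd A hA hn

end Aliases

end Fermat.Agent.S05
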