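import Fermat.Agent.S05.Defs

/-!
# S05 helper library: small integrality facts

* `y_integral`: the `y`-coordinate of a point with integral `x`-coordinate is integral.
* `partial_unit_of_disc_unit`: if the discriminant is a unit, then at every integral point one of
  the two partial derivatives of the Weierstrass equation is a unit.
-/

set_option autoImplicit false

namespace Fermat.Agent.S05

open WeierstrassCurve WeierstrassCurve.Affine

variable {K : Type*} [Field K] {Γ₀ : Type*} [LinearOrderedCommGroupWithZero Γ₀]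
variable {v : Valuation K Γ₀} {W : WeierstrassCurve K}

/-- the `y`-coordinate of a point with integral `x`-coordinate is integral -/
theorem y_integral (hW : IntegralCoeffs v W) {x y : K} (h : W.toAffine.Equation x y)
    (hx : v x ≤ 1) : v y ≤ 1 := by
  by_contra hy
  push Not at hy
  have heq := (equation_iff _ _).mp h
  have hy0 : v y ≠ 0 := fun h0 => by simp [h0] at hy
  -- `y ^ 2 = rhs - (a₁ x + a₃) y`
  have key : y * y = (x ^ 3 + W.a₂ * x ^ 2 + W.a₄ * x + W.a₆) - (W.a₁ * x + W.a₃) * y := by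
    linear_combination heq
  have hrhs : v (x ^ 3 + W.a₂ * x ^ 2 + W.a₄ * x + W.a₆) ≤ 1 := by
    refine Valuation.map_add_le v (Valuation.map_add_le v (Valuation.map_add_le v ?_ ?_) ?_) hW.a₆
    · rw [map_pow]; exact pow_le_one₀ zero_le hx
    · rw [map_mul, map_pow]; exact mul_le_one₀ hW.a₂ zero_le (pow_le_one₀ zero_le hx)
    · rw [map_mul]; exact mul_le_one₀ hW.a₄ zero_le hx
  have hlin : v (W.a₁ * x + W.a₃) ≤ 1 :=
    Valuation.map_add_le v (by rw [map_mul]; exact mul_le_one₀ hW.a₁ zero_le hx) hW.a₃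
  have h2 : v ((W.a₁ * x + W.a₃) * y) ≤ v y := by
    rw [map_mul]
    calc v (W.a₁ * x + W.a₃) * v y ≤ 1 * v y := by gcongr
      _ = v y := one_mul _
  have h3 : v (y * y) ≤ v y := by
    rw [key]
    exact Valuation.map_sub_le v (hrhs.trans hy.le) h2
  rw [map_mul] at h3
  have h4 : v y * 1 < v y * v y := mul_lt_mul_of_pos_left hy (zero_lt_iff.mpr hy0)
  rw [mul_one] at h4
  exact absurd h3 (not_le.mpr h4)

/-- The discriminant as an explicit combination of the two partial derivatives at a point of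
the curve. -/
theorem disc_eq_combination {x y : K} (h : W.toAffine.Equation x y) :
    ∃ A B : K,
      (∀ (O : Subring K), W.a₁ ∈ O → W.a₂ ∈ O → W.a₃ ∈ O → W.a₄ ∈ O → x ∈ O → y ∈ O →
        A ∈ O ∧ B ∈ O) ∧
      W.Δ = (W.a₁ * y - (3 * x ^ 2 + 2 * W.a₂ * x + W.a₄)) * A +
        (2 * y + W.a₁ * x + W.a₃) * B := by
  have heq := (equation_iff _ _).mp h
  have h6 : W.a₆ = y ^ 2 + W.a₁ * x * y + W.a₃ * y - (x ^ 3 + W.a₂ * x ^ 2 + W.a₄ * x) := by
    linear_combination -heq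
  -- notation: `s = F_y`, `w = -F_x`, `m = a₂ + 3 x`, `b = b₂' = a₁² + 4 m`
  refine ⟨-((W.a₁ ^ 2 + 4 * (W.a₂ + 3 * x)) ^ 2 *
        (-(W.a₁ * y - (3 * x ^ 2 + 2 * W.a₂ * x + W.a₄))) -
      16 * (2 * (-(W.a₁ * y - (3 * x ^ 2 + 2 * W.a₂ * x + W.a₄))) +
        W.a₁ * (2 * y + W.a₁ * x + W.a₃)) ^ 2),
    -(W.a₁ ^ 2 + 4 * (W.a₂ + 3 * x)) ^ 2 *
        (-W.a₁ * (-(W.a₁ * y - (3 * x ^ 2 + 2 * W.a₂ * x + W.a₄))) +
          (W.a₂ + 3 * x) * (2 * y + W.a₁ * x + W.a₃)) -
      27 * (2 * y + W.a₁ * x + W.a₃) ^ 3 +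
      9 * (W.a₁ ^ 2 + 4 * (W.a₂ + 3 * x)) *
        (2 * (-(W.a₁ * y - (3 * x ^ 2 + 2 * W.a₂ * x + W.a₄))) +
          W.a₁ * (2 * y + W.a₁ * x + W.a₃)) * (2 * y + W.a₁ * x + W.a₃) -
      8 * W.a₁ * (2 * (-(W.a₁ * y - (3 * x ^ 2 + 2 * W.a₂ * x + W.a₄))) +
        W.a₁ * (2 * y + W.a₁ * x + W.a₃)) ^ 2, ?_, ?_⟩
  · intro O h1 h2 h3 h4 hx hy
    have n2 : (2 : K) ∈ O := ofNat_mem O 2
    have n3 : (3 : K) ∈ O := ofNat_mem O 3
    have n4 : (4 : K) ∈ O := ofNat_mem O 4
    have n8 : (8 : K) ∈ O := ofNat_mem O 8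
    have n9 : (9 : K) ∈ O := ofNat_mem O 9
    have n16 : (16 : K) ∈ O := ofNat_mem O 16
    have n27 : (27 : K) ∈ O := ofNat_mem O 27
    constructor <;>
    repeat (first
      | assumption
      | apply Subring.add_mem
      | apply Subring.sub_mem
      | apply Subring.neg_mem
      | apply Subring.mul_mem
      | apply Subring.pow_mem)
  · simp only [WeierstrassCurve.Δ, b₂, b₄, b₆, b₈]
    rw [h6]
    ring

/-- unit discriminant: at an integral point one of the partial derivatives is a unit. -/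
theorem partial_unit_of_disc_unit (hW : IntegralCoeffs v W) (hΔ : v W.Δ = 1) {x y : K}
    (h : W.toAffine.Equation x y) (hx : v x ≤ 1) (hy : v y ≤ 1) :
    v (W.a₁ * y - (3 * x ^ 2 + 2 * W.a₂ * x + W.a₄)) = 1 ∨ v (2 * y + W.a₁ * x + W.a₃) = 1 := by
  obtain ⟨A, B, hAB, hΔeq⟩ := disc_eq_combination h
  obtain ⟨hA, hB⟩ := hAB v.integer hW.a₁ hW.a₂ hW.a₃ hW.a₄ hx hy
  have hA' : v A ≤ 1 := hA
  have hB' : v B ≤ 1 := hB
  have hFx : v (W.a₁ * y - (3 * x ^ 2 + 2 * W.a₂ * x + W.a₄)) ≤ 1 := by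
    have : (W.a₁ * y - (3 * x ^ 2 + 2 * W.a₂ * x + W.a₄)) ∈ v.integer := by
      have n2 : (2 : K) ∈ v.integer := ofNat_mem _ 2
      have n3 : (3 : K) ∈ v.integer := ofNat_mem _ 3
      have h1 : W.a₁ ∈ v.integer := hW.a₁
      have h2 : W.a₂ ∈ v.integer := hW.a₂
      have h4 : W.a₄ ∈ v.integer := hW.a₄
      have hx' : x ∈ v.integer := hx
      have hy' : y ∈ v.integer := hy
      repeat (first
        | assumption
        | apply Subring.add_mem
        | apply Subring.sub_mem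
        | apply Subring.neg_mem
        | apply Subring.mul_mem
        | apply Subring.pow_mem)
    exact this
  have hFy : v (2 * y + W.a₁ * x + W.a₃) ≤ 1 := by
    have : (2 * y + W.a₁ * x + W.a₃) ∈ v.integer := by
      have n2 : (2 : K) ∈ v.integer := ofNat_mem _ 2
      have h1 : W.a₁ ∈ v.integer := hW.a₁
      have h3 : W.a₃ ∈ v.integer := hW.a₃
      have hx' : x ∈ v.integer := hx
      have hy' : y ∈ v.integer := hy
      repeat (first
        | assumption
        | apply Subring.add_mem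
        | apply Subring.sub_mem
        | apply Subring.neg_mem
        | apply Subring.mul_mem
        | apply Subring.pow_mem)
    exact this
  by_contra hcon
  push Not at hcon
  obtain ⟨hx1, hy1⟩ := hcon
  have hx2 : v (W.a₁ * y - (3 * x ^ 2 + 2 * W.a₂ * x + W.a₄)) < 1 := lt_of_le_of_ne hFx hx1
  have hy2 : v (2 * y + W.a₁ * x + W.a₃) < 1 := lt_of_le_of_ne hFy hy1
  have hlt : v W.Δ < 1 := by
    rw [hΔeq]
    apply Valuation.map_add_lt
    · rw [map_mul]
      calc _ ≤ v (W.a₁ * y - (3 * x ^ 2 + 2 * W.a₂ * x + W.a₄)) * 1 := by gcongr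
        _ < 1 := by rw [mul_one]; exact hx2
    · rw [map_mul]
      calc _ ≤ v (2 * y + W.a₁ * x + W.a₃) * 1 := by gcongr
        _ < 1 := by rw [mul_one]; exact hy2
  rw [hΔ] at hlt
  exact lt_irrefl _ hlt

end Fermat.Agent.S05
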