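import Fermat.Agent.S05.Defs

/-!
# S05 helper library: the kernel of reduction

For a Weierstrass curve `W` with `v`-integral coefficients over a valued field `K`, the kernel of
reduction `InKer v W` (the point at infinity together with the affine points with non-integral
`x`-coordinate) is a subgroup of `W(K)` without `n`-torsion for every `n` with `v n = 1`.

The proof is by hand: for three collinear points we have the Vieta relations for the
`x`-coordinates, from which we get the ultrametric inequality for `v x` (so that the level sets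
`InLevel v W m` are subgroups) and the fact that the local parameter `z = x / y` is additive
modulo elements of valuation at most `m⁻¹` on the level-`m` subgroup.
-/

set_option autoImplicit false

namespace Fermat.Agent.S05.Kernel

open WeierstrassCurve WeierstrassCurve.Affine Polynomial

section Algebra

variable {K : Type*} [Field K] [DecidableEq K] (W : WeierstrassCurve.Affine K)

/-- Vieta relations for the chord/tangent construction. -/
theorem vieta_of_slope {x₁ x₂ y₁ y₂ : K} (h₁ : W.Equation x₁ y₁) (h₂ : W.Equation x₂ y₂)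
    (hxy : ¬(x₁ = x₂ ∧ y₁ = W.negY x₂ y₂)) :
    let ℓ := W.slope x₁ x₂ y₁ y₂
    let c := y₁ - ℓ * x₁
    let x₃ := W.addX x₁ x₂ ℓ
    x₁ + x₂ + x₃ = ℓ ^ 2 + W.a₁ * ℓ - W.a₂ ∧
    x₁ * x₂ + x₁ * x₃ + x₂ * x₃ = W.a₄ - 2 * ℓ * c - W.a₁ * c - W.a₃ * ℓ ∧
    x₁ * x₂ * x₃ = c ^ 2 + W.a₃ * c - W.a₆ := by
  intro ℓ c x₃
  have h := addPolynomial_slope h₁ h₂ hxy
  rw [addPolynomial_eq, neg_inj, Cubic.prod_X_sub_C_eq, Cubic.toPoly_injective] at h
  have hb := congrArg Cubic.b h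
  have hc := congrArg Cubic.c h
  have hd := congrArg Cubic.d h
  simp only at hb hc hd
  refine ⟨?_, ?_, ?_⟩
  · simp only [x₃, addX]; ring
  · show x₁ * x₂ + x₁ * (W.addX x₁ x₂ ℓ) + x₂ * (W.addX x₁ x₂ ℓ) = _
    rw [← hc]; simp only [c]; ring
  · show x₁ * x₂ * (W.addX x₁ x₂ ℓ) = _
    have : x₁ * x₂ * (W.addX x₁ x₂ ℓ) = - -(x₁ * x₂ * W.addX x₁ x₂ ℓ) := by ring
    rw [this, ← hd]; simp only [c]; ring

/-- Three affine points summing to zero are collinear, with the Vieta relations. -/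
theorem exists_line_of_add_add_eq_zero {x₁ y₁ x₂ y₂ x₃ y₃ : K} {h₁ : W.Nonsingular x₁ y₁}
    {h₂ : W.Nonsingular x₂ y₂} {h₃ : W.Nonsingular x₃ y₃}
    (hsum : Point.some _ _ h₁ + Point.some _ _ h₂ + Point.some _ _ h₃ = 0) :
    ∃ ℓ c : K, y₁ = ℓ * x₁ + c ∧ y₂ = ℓ * x₂ + c ∧ y₃ = ℓ * x₃ + c ∧
      x₁ + x₂ + x₃ = ℓ ^ 2 + W.a₁ * ℓ - W.a₂ ∧
      x₁ * x₂ + x₁ * x₃ + x₂ * x₃ = W.a₄ - 2 * ℓ * c - W.a₁ * c - W.a₃ * ℓ ∧
      x₁ * x₂ * x₃ = c ^ 2 + W.a₃ * c - W.a₆ := by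
  have hneg : Point.some _ _ h₁ + Point.some _ _ h₂ = -(Point.some _ _ h₃) :=
    eq_neg_of_add_eq_zero_left hsum
  have hxy : ¬(x₁ = x₂ ∧ y₁ = W.negY x₂ y₂) := by
    intro h
    rw [Point.add_of_Y_eq h.1 h.2] at hneg
    exact Point.some_ne_zero h₃ (neg_eq_zero.mp hneg.symm)
  rw [Point.add_some hxy, Point.neg_some, Point.some.injEq] at hneg
  obtain ⟨hx, hy⟩ := hneg
  obtain ⟨e1, e2, e3⟩ := vieta_of_slope W h₁.1 h₂.1 hxy
  rw [hx] at e1 e2 e3
  refine ⟨W.slope x₁ x₂ y₁ y₂, y₁ - W.slope x₁ x₂ y₁ y₂ * x₁, by ring, ?_, ?_, e1, e2, e3⟩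
  · by_cases hx12 : x₁ = x₂
    · have hy12 : y₁ = y₂ := Y_eq_of_Y_ne h₁.1 h₂.1 hx12 (fun h => hxy ⟨hx12, h⟩)
      rw [← hx12, ← hy12]; ring
    · rw [slope_of_X_ne hx12]
      have : x₁ - x₂ ≠ 0 := sub_ne_zero.mpr hx12
      field_simp
      ring
  · rw [addY, negY, negY, hx] at hy
    have hy3 : W.negAddY x₁ x₂ y₁ (W.slope x₁ x₂ y₁ y₂) = y₃ := by linear_combination -hy
    rw [negAddY, hx] at hy3
    rw [← hy3]; ring

end Algebra

section Val

variable {K : Type*} [Field K] {Γ₀ : Type*} [LinearOrderedCommGroupWithZero Γ₀]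
variable (v : Valuation K Γ₀)

theorem val_natCast_le (n : ℕ) : v (n : K) ≤ 1 := by
  induction n with
  | zero => simp
  | succ k ih => rw [Nat.cast_succ]; exact Valuation.map_add_le v ih (by simp)

theorem val_two_le : v (2 : K) ≤ 1 := by
  have := val_natCast_le v 2
  simpa using this

theorem val_three_le : v (3 : K) ≤ 1 := by
  have := val_natCast_le v 3
  simpa using this

theorem lt_sq_of_one_lt {g : Γ₀} (hg : 1 < g) : g < g ^ 2 := by
  have := pow_lt_pow_right₀ hg (show 1 < 2 by norm_num)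
  simpa using this

/-- A monic quadratic with integral coefficients, evaluated at a non-integral element. -/
theorem val_quad_eq {a b t : K} (ha : v a ≤ 1) (hb : v b ≤ 1) (ht : 1 < v t) :
    v (t ^ 2 + a * t + b) = v t ^ 2 := by
  have h1 : v t < v t ^ 2 := lt_sq_of_one_lt ht
  have h2 : v (a * t) < v (t ^ 2) := by
    rw [map_mul, map_pow]
    exact lt_of_le_of_lt (mul_le_of_le_one_left' ha) h1
  have h3 : v b < v (t ^ 2 + a * t) := by
    rw [Valuation.map_add_eq_of_lt_left v h2, map_pow]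
    exact lt_of_le_of_lt hb (ht.trans h1)
  rw [Valuation.map_add_eq_of_lt_left v h3, Valuation.map_add_eq_of_lt_left v h2, map_pow]

theorem val_quad_le_one {a b t : K} (ha : v a ≤ 1) (hb : v b ≤ 1) (ht : v t ≤ 1) :
    v (t ^ 2 + a * t + b) ≤ 1 := by
  apply Valuation.map_add_le v (Valuation.map_add_le v _ _) hb
  · rw [map_pow]; exact pow_le_one' ht 2
  · rw [map_mul]; exact mul_le_one' ha ht

theorem sq_le_of_quad_le {a b t : K} (ha : v a ≤ 1) (hb : v b ≤ 1) {M : Γ₀} (hM : 1 ≤ M)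
    (h : v (t ^ 2 + a * t + b) ≤ M) : v t ^ 2 ≤ M := by
  rcases le_or_gt (v t) 1 with ht | ht
  · exact le_trans (pow_le_one' ht 2) hM
  · rw [← val_quad_eq v ha hb ht]; exact h

theorem sq_lt_of_quad_lt {a b t : K} (ha : v a ≤ 1) (hb : v b ≤ 1) {M : Γ₀} (hM : 1 < M)
    (h : v (t ^ 2 + a * t + b) < M) : v t ^ 2 < M := by
  rcases le_or_gt (v t) 1 with ht | ht
  · exact lt_of_le_of_lt (pow_le_one' ht 2) hM
  · rw [← val_quad_eq v ha hb ht]; exact h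

theorem sq_eq_of_one_lt_quad {a b t : K} (ha : v a ≤ 1) (hb : v b ≤ 1)
    (h : 1 < v (t ^ 2 + a * t + b)) : v t ^ 2 = v (t ^ 2 + a * t + b) := by
  rcases le_or_gt (v t) 1 with ht | ht
  · exact absurd h (not_lt.mpr (val_quad_le_one v ha hb ht))
  · exact (val_quad_eq v ha hb ht).symm

theorem val_coeff_mul_le {a t : K} {g : Γ₀} (ha : v a ≤ 1) (ht : v t ≤ g) : v (a * t) ≤ g := by
  rw [map_mul]; exact (mul_le_of_le_one_left' ha).trans ht

theorem val_coeff_mul_lt {a t : K} {g : Γ₀} (ha : v a ≤ 1) (ht : v t < g) : v (a * t) < g := by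
  rw [map_mul]; exact (mul_le_of_le_one_left' ha).trans_lt ht

end Val

section Curve

variable {K : Type*} [Field K] {Γ₀ : Type*} [LinearOrderedCommGroupWithZero Γ₀]
variable {v : Valuation K Γ₀} {W : WeierstrassCurve K}

theorem val_cubic_eq (hW : IntegralCoeffs v W) {x : K} (hx : 1 < v x) :
    v (x ^ 3 + W.a₂ * x ^ 2 + W.a₄ * x + W.a₆) = v x ^ 3 := by
  have h12 : v x < v x ^ 2 := lt_sq_of_one_lt hx
  have h23 : v x ^ 2 < v x ^ 3 := pow_lt_pow_right₀ hx (by norm_num)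
  have t2 : v (W.a₂ * x ^ 2) < v (x ^ 3) := by
    rw [map_mul, map_pow, map_pow]
    exact lt_of_le_of_lt (mul_le_of_le_one_left' hW.a₂) h23
  have e2 : v (x ^ 3 + W.a₂ * x ^ 2) = v x ^ 3 := by
    rw [Valuation.map_add_eq_of_lt_left v t2, map_pow]
  have t4 : v (W.a₄ * x) < v (x ^ 3 + W.a₂ * x ^ 2) := by
    rw [e2, map_mul]
    exact lt_of_le_of_lt (mul_le_of_le_one_left' hW.a₄) (h12.trans h23)
  have e4 : v (x ^ 3 + W.a₂ * x ^ 2 + W.a₄ * x) = v x ^ 3 := by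
    rw [Valuation.map_add_eq_of_lt_left v t4, e2]
  have t6 : v W.a₆ < v (x ^ 3 + W.a₂ * x ^ 2 + W.a₄ * x) := by
    rw [e4]
    exact lt_of_le_of_lt hW.a₆ (hx.trans (h12.trans h23))
  rw [Valuation.map_add_eq_of_lt_left v t6, e4]

/-- On an integral Weierstrass curve, a point with non-integral `x` has `v y ^ 2 = v x ^ 3`. -/
theorem val_y_sq_eq (hW : IntegralCoeffs v W) {x y : K} (h : W.toAffine.Equation x y)
    (hx : 1 < v x) : v y ^ 2 = v x ^ 3 := by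
  have heq := (equation_iff _ _).mp h
  have hcub := val_cubic_eq hW hx
  have h12 : v x < v x ^ 2 := lt_sq_of_one_lt hx
  have h23 : v x ^ 2 < v x ^ 3 := pow_lt_pow_right₀ hx (by norm_num)
  have hlin : v (W.a₁ * x + W.a₃) ≤ v x := by
    apply Valuation.map_add_le v
    · rw [map_mul]; exact mul_le_of_le_one_left' hW.a₁
    · exact hW.a₃.trans hx.le
  have hfac : y ^ 2 + W.a₁ * x * y + W.a₃ * y = y * (y + (W.a₁ * x + W.a₃)) := by ring
  rw [← heq, hfac, map_mul] at hcub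
  rcases le_or_gt (v y) (v x) with hyx | hyx
  · exfalso
    have : v y * v (y + (W.a₁ * x + W.a₃)) ≤ v x * v x :=
      mul_le_mul' hyx (Valuation.map_add_le v hyx hlin)
    rw [hcub, ← pow_two] at this
    exact absurd h23 (not_lt.mpr this)
  · rw [Valuation.map_add_eq_of_lt_left v (lt_of_le_of_lt hlin hyx), ← pow_two] at hcub
    exact hcub

theorem val_y_pos (hW : IntegralCoeffs v W) {x y : K} (h : W.toAffine.Equation x y)
    (hx : 1 < v x) : 0 < v y := by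
  have h2 := val_y_sq_eq hW h hx
  have h3 : 0 < v x ^ 3 := pow_pos (zero_lt_one.trans hx) 3
  rw [← h2] at h3
  exact zero_lt_iff.mpr (fun h0 => by rw [h0] at h3; simp at h3)

theorem y_ne_zero (hW : IntegralCoeffs v W) {x y : K} (h : W.toAffine.Equation x y)
    (hx : 1 < v x) : y ≠ 0 := by
  intro h0
  have := val_y_pos hW h hx
  rw [h0, map_zero] at this
  exact lt_irrefl _ this

/-- The local parameter `x / y` is odd up to higher order terms. -/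
theorem val_div_add_div_negY_le (hW : IntegralCoeffs v W) {x y : K}
    (h : W.toAffine.Equation x y) (hx : 1 < v x) :
    v (x / y + x / W.toAffine.negY x y) ≤ (v x)⁻¹ := by
  have hX0 : 0 < v x := zero_lt_one.trans hx
  have hy0 : y ≠ 0 := y_ne_zero hW h hx
  have h' : W.toAffine.Equation x (W.toAffine.negY x y) := (equation_neg x y).mpr h
  have hy'0 := y_ne_zero hW h' hx
  have hY := val_y_sq_eq hW h hx
  have hY' := val_y_sq_eq hW h' hx
  have hYY : v (W.toAffine.negY x y) = v y := by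
    apply (pow_left_inj₀ zero_le zero_le two_ne_zero).mp
    rw [hY, hY']
  have hlin : v (W.a₁ * x + W.a₃) ≤ v x := by
    apply Valuation.map_add_le v
    · rw [map_mul]; exact mul_le_of_le_one_left' hW.a₁
    · exact hW.a₃.trans hx.le
  have hid : x / y + x / W.toAffine.negY x y
      = -(x * (W.a₁ * x + W.a₃)) / (y * W.toAffine.negY x y) := by
    rw [div_add_div _ _ hy0 hy'0]
    congr 1
    simp only [negY]; ring
  rw [hid, map_div₀, Valuation.map_neg, map_mul, map_mul, hYY, ← pow_two, hY,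
    div_le_iff₀ (pow_pos hX0 3)]
  have : (v x)⁻¹ * v x ^ 3 = v x * v x := by
    rw [pow_succ, pow_two, ← mul_assoc, ← mul_assoc, inv_mul_cancel₀ hX0.ne', one_mul]
  rw [this]
  exact mul_le_mul' le_rfl hlin

/-- The ultrametric inequality for the `x`-coordinates of three collinear points. -/
theorem le_val_third (hW : IntegralCoeffs v W) {x₁ x₂ x₃ ℓ c : K}
    (e1 : x₁ + x₂ + x₃ = ℓ ^ 2 + W.a₁ * ℓ - W.a₂)
    (e2 : x₁ * x₂ + x₁ * x₃ + x₂ * x₃ = W.a₄ - 2 * ℓ * c - W.a₁ * c - W.a₃ * ℓ)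
    (e3 : x₁ * x₂ * x₃ = c ^ 2 + W.a₃ * c - W.a₆)
    (h₁ : 1 < v x₁) (h₁₂ : v x₁ ≤ v x₂) : v x₁ ≤ v x₃ := by
  by_contra hcon
  rw [not_le] at hcon
  have h₂ : 1 < v x₂ := h₁.trans_le h₁₂
  have hX₁0 : 0 < v x₁ := zero_lt_one.trans h₁
  have hX₂0 : 0 < v x₂ := zero_lt_one.trans h₂
  have h32 : v x₃ < v x₂ := hcon.trans_le h₁₂
  have hB1 : 1 < v x₁ * v x₂ := h₁.trans_le (le_mul_of_one_le_right' h₂.le)
  have hL : v ℓ ^ 2 ≤ v x₂ := by
    apply sq_le_of_quad_le v hW.a₁ (show v (-W.a₂) ≤ 1 by rw [Valuation.map_neg]; exact hW.a₂)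
      h₂.le
    rw [← sub_eq_add_neg, ← e1]
    exact Valuation.map_add_le v (Valuation.map_add_le v h₁₂ le_rfl) h32.le
  have hC : v c ^ 2 < v x₁ * v x₂ * v x₁ := by
    apply sq_lt_of_quad_lt v hW.a₃ (show v (-W.a₆) ≤ 1 by rw [Valuation.map_neg]; exact hW.a₆)
    · exact hB1.trans_le (le_mul_of_one_le_right' h₁.le)
    · rw [← sub_eq_add_neg, ← e3, map_mul, map_mul]
      exact mul_lt_mul_of_pos_left hcon (mul_pos hX₁0 hX₂0)
  have t1 : v W.a₄ < v x₁ * v x₂ := lt_of_le_of_lt hW.a₄ hB1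
  have t2 : v (2 * ℓ * c) < v x₁ * v x₂ := by
    rw [mul_assoc]
    apply val_coeff_mul_lt v (val_two_le v)
    rw [map_mul]
    apply lt_of_pow_lt_pow_left₀ 2 zero_le
    rw [mul_pow]
    calc v ℓ ^ 2 * v c ^ 2 ≤ v x₂ * v c ^ 2 := mul_le_mul' hL le_rfl
      _ < v x₂ * (v x₁ * v x₂ * v x₁) := mul_lt_mul_of_pos_left hC hX₂0
      _ = (v x₁ * v x₂) ^ 2 := by rw [pow_two]; ac_rfl
  have t3 : v (W.a₁ * c) < v x₁ * v x₂ := by
    apply val_coeff_mul_lt v hW.a₁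
    apply lt_of_pow_lt_pow_left₀ 2 zero_le
    calc v c ^ 2 < v x₁ * v x₂ * v x₁ := hC
      _ ≤ v x₁ * v x₂ * (v x₁ * v x₂) := mul_le_mul' le_rfl (le_mul_of_one_le_right' h₂.le)
      _ = (v x₁ * v x₂) ^ 2 := (pow_two _).symm
  have t4 : v (W.a₃ * ℓ) < v x₁ * v x₂ := by
    apply val_coeff_mul_lt v hW.a₃
    apply lt_of_pow_lt_pow_left₀ 2 zero_le
    calc v ℓ ^ 2 ≤ v x₂ := hL
      _ ≤ v x₁ * v x₂ := le_mul_of_one_le_left' h₁.le
      _ < (v x₁ * v x₂) ^ 2 := lt_sq_of_one_lt hB1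
  have hR : v (W.a₄ - 2 * ℓ * c - W.a₁ * c - W.a₃ * ℓ) < v x₁ * v x₂ :=
    Valuation.map_sub_lt v (Valuation.map_sub_lt v (Valuation.map_sub_lt v t1 t2) t3) t4
  have hLHS : v (x₁ * x₂ + x₁ * x₃ + x₂ * x₃) = v x₁ * v x₂ := by
    have s1 : v (x₁ * x₃) < v (x₁ * x₂) := by
      rw [map_mul, map_mul]; exact mul_lt_mul_of_pos_left h32 hX₁0
    have s2 : v (x₂ * x₃) < v (x₁ * x₂ + x₁ * x₃) := by
      rw [Valuation.map_add_eq_of_lt_left v s1, map_mul, map_mul, mul_comm (v x₁)]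
      exact mul_lt_mul_of_pos_left hcon hX₂0
    rw [Valuation.map_add_eq_of_lt_left v s2, Valuation.map_add_eq_of_lt_left v s1, map_mul]
  rw [e2] at hLHS
  exact absurd hLHS hR.ne

/-- The algebraic identity behind the additivity of the local parameter. -/
theorem sum_mul_identity {a₁ a₂ a₃ a₄ a₆ x₁ x₂ x₃ ℓ c : K}
    (e1 : x₁ + x₂ + x₃ = ℓ ^ 2 + a₁ * ℓ - a₂)
    (e2 : x₁ * x₂ + x₁ * x₃ + x₂ * x₃ = a₄ - 2 * ℓ * c - a₁ * c - a₃ * ℓ)
    (e3 : x₁ * x₂ * x₃ = c ^ 2 + a₃ * c - a₆) :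
    x₁ * (ℓ * x₂ + c) * (ℓ * x₃ + c) + x₂ * (ℓ * x₁ + c) * (ℓ * x₃ + c)
      + x₃ * (ℓ * x₁ + c) * (ℓ * x₂ + c)
      = a₃ * (ℓ ^ 2 * c) - (3 * a₆) * ℓ ^ 2 + (2 * a₄) * (ℓ * c) - a₁ * (ℓ * c ^ 2)
        - a₂ * c ^ 2 := by
  linear_combination (3 * ℓ ^ 2) * e3 + (2 * ℓ * c) * e2 + c ^ 2 * e1

theorem mul_mul_le_pow_three {g a b d : Γ₀} (ha : a ≤ g) (hb : b ≤ g) (hd : d ≤ g) :
    a * b * d ≤ g ^ 3 := by
  calc a * b * d ≤ g * g * g := mul_le_mul' (mul_le_mul' ha hb) hd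
    _ = g ^ 3 := by rw [pow_succ, pow_two]

/-- The main estimate: for three collinear points in the kernel of reduction at level `m`,
the local parameters `x / y` sum to something of valuation at most `m⁻¹`. -/
theorem val_sum_div_le (hW : IntegralCoeffs v W) {x₁ y₁ x₂ y₂ x₃ y₃ ℓ c : K} {m : Γ₀}
    (hm : 1 < m)
    (h₁ : W.toAffine.Equation x₁ y₁) (h₂ : W.toAffine.Equation x₂ y₂)
    (h₃ : W.toAffine.Equation x₃ y₃)
    (hx₁ : m ≤ v x₁) (hx₂ : m ≤ v x₂) (hx₃ : m ≤ v x₃)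
    (hy₁ : y₁ = ℓ * x₁ + c) (hy₂ : y₂ = ℓ * x₂ + c) (hy₃ : y₃ = ℓ * x₃ + c)
    (e1 : x₁ + x₂ + x₃ = ℓ ^ 2 + W.a₁ * ℓ - W.a₂)
    (e2 : x₁ * x₂ + x₁ * x₃ + x₂ * x₃ = W.a₄ - 2 * ℓ * c - W.a₁ * c - W.a₃ * ℓ)
    (e3 : x₁ * x₂ * x₃ = c ^ 2 + W.a₃ * c - W.a₆) :
    v (x₁ / y₁ + x₂ / y₂ + x₃ / y₃) ≤ m⁻¹ := by
  have hm0 : 0 < m := zero_lt_one.trans hm
  have hX₁ : 1 < v x₁ := hm.trans_le hx₁
  have hX₂ : 1 < v x₂ := hm.trans_le hx₂
  have hX₃ : 1 < v x₃ := hm.trans_le hx₃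
  have hy₁0 := y_ne_zero hW h₁ hX₁
  have hy₂0 := y_ne_zero hW h₂ hX₂
  have hy₃0 := y_ne_zero hW h₃ hX₃
  have hY₁ := val_y_sq_eq hW h₁ hX₁
  have hY₂ := val_y_sq_eq hW h₂ hX₂
  have hY₃ := val_y_sq_eq hW h₃ hX₃
  -- the identity
  have hid : x₁ / y₁ + x₂ / y₂ + x₃ / y₃ =
      (W.a₃ * (ℓ ^ 2 * c) - (3 * W.a₆) * ℓ ^ 2 + (2 * W.a₄) * (ℓ * c) - W.a₁ * (ℓ * c ^ 2)
        - W.a₂ * c ^ 2) / (y₁ * y₂ * y₃) := by
    rw [eq_div_iff (mul_ne_zero (mul_ne_zero hy₁0 hy₂0) hy₃0)]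
    have h : (x₁ / y₁ + x₂ / y₂ + x₃ / y₃) * (y₁ * y₂ * y₃)
        = x₁ * y₂ * y₃ + x₂ * y₁ * y₃ + x₃ * y₁ * y₂ := by
      field_simp
    rw [h, ← sum_mul_identity e1 e2 e3, hy₁, hy₂, hy₃]
  -- valuations of `c` and `ℓ`
  have hmm : m * m ≤ v x₁ * v x₂ * v x₃ :=
    le_trans (le_mul_of_one_le_right' hm.le) (mul_le_mul' (mul_le_mul' hx₁ hx₂) hx₃)
  have hPi1 : 1 < v x₁ * v x₂ * v x₃ :=
    lt_of_lt_of_le (hm.trans_le (le_mul_of_one_le_right' hm.le)) hmm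
  have hc : v c ^ 2 = v x₁ * v x₂ * v x₃ := by
    have hb : v (-W.a₆) ≤ 1 := by rw [Valuation.map_neg]; exact hW.a₆
    have hq : v (c ^ 2 + W.a₃ * c + -W.a₆) = v x₁ * v x₂ * v x₃ := by
      rw [← sub_eq_add_neg, ← e3, map_mul, map_mul]
    rw [← hq]
    apply sq_eq_of_one_lt_quad v hW.a₃ hb
    rw [hq]; exact hPi1
  have hL : v ℓ ^ 2 ≤ v x₁ * v x₂ * v x₃ * (m * m)⁻¹ := by
    have hb : v (-W.a₂) ≤ 1 := by rw [Valuation.map_neg]; exact hW.a₂
    apply sq_le_of_quad_le v hW.a₁ hb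
    · rw [le_mul_inv_iff₀ (mul_pos hm0 hm0), one_mul]; exact hmm
    · rw [← sub_eq_add_neg, ← e1]
      refine Valuation.map_add_le v (Valuation.map_add_le v ?_ ?_) ?_ <;>
        rw [le_mul_inv_iff₀ (mul_pos hm0 hm0)]
      · rw [mul_assoc]; exact mul_le_mul' le_rfl (mul_le_mul' hx₂ hx₃)
      · calc v x₂ * (m * m) = m * v x₂ * m := by ac_rfl
          _ ≤ v x₁ * v x₂ * v x₃ := mul_le_mul' (mul_le_mul' hx₁ le_rfl) hx₃
      · calc v x₃ * (m * m) = m * m * v x₃ := by ac_rfl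
          _ ≤ v x₁ * v x₂ * v x₃ := mul_le_mul' (mul_le_mul' hx₁ hx₂) le_rfl
  have hLm : v ℓ * m ≤ v c := by
    apply le_of_pow_le_pow_left₀ two_ne_zero zero_le
    rw [mul_pow, hc, pow_two m]
    calc v ℓ ^ 2 * (m * m) ≤ v x₁ * v x₂ * v x₃ * (m * m)⁻¹ * (m * m) := mul_le_mul' hL le_rfl
      _ = v x₁ * v x₂ * v x₃ := by
        rw [mul_assoc, inv_mul_cancel₀ (mul_pos hm0 hm0).ne', mul_one]
  have hmC : m ≤ v c := by
    apply le_of_pow_le_pow_left₀ two_ne_zero zero_le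
    rw [hc, pow_two]; exact hmm
  have h1C : 1 ≤ v c := hm.le.trans hmC
  have hLC : v ℓ ≤ v c := le_trans (le_mul_of_one_le_right' hm.le) hLm
  have hC0 : 0 < v c := zero_lt_one.trans_le h1C
  have hΥ : v y₁ * v y₂ * v y₃ = v c ^ 3 := by
    apply (pow_left_inj₀ zero_le zero_le two_ne_zero).mp
    rw [mul_pow, mul_pow, hY₁, hY₂, hY₃, ← mul_pow, ← mul_pow, ← hc, ← pow_mul, ← pow_mul]
  -- the numerator
  have hN : v (W.a₃ * (ℓ ^ 2 * c) - (3 * W.a₆) * ℓ ^ 2 + (2 * W.a₄) * (ℓ * c)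
      - W.a₁ * (ℓ * c ^ 2) - W.a₂ * c ^ 2) ≤ v c ^ 3 * m⁻¹ := by
    have h3a₆ : v (3 * W.a₆) ≤ 1 := val_coeff_mul_le v (val_three_le v) hW.a₆
    have h2a₄ : v (2 * W.a₄) ≤ 1 := val_coeff_mul_le v (val_two_le v) hW.a₄
    refine Valuation.map_sub_le v (Valuation.map_sub_le v (Valuation.map_add_le v
      (Valuation.map_sub_le v ?_ ?_) ?_) ?_) ?_
    · apply val_coeff_mul_le v hW.a₃
      rw [le_mul_inv_iff₀ hm0, map_mul, map_pow, pow_two]
      calc v ℓ * v ℓ * v c * m = v ℓ * m * v ℓ * v c := by ac_rfl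
        _ ≤ v c ^ 3 := mul_mul_le_pow_three hLm hLC le_rfl
    · apply val_coeff_mul_le v h3a₆
      rw [le_mul_inv_iff₀ hm0, map_pow, pow_two]
      calc v ℓ * v ℓ * m = v ℓ * m * v ℓ * 1 := by rw [mul_one]; ac_rfl
        _ ≤ v c ^ 3 := mul_mul_le_pow_three hLm hLC h1C
    · apply val_coeff_mul_le v h2a₄
      rw [le_mul_inv_iff₀ hm0, map_mul]
      calc v ℓ * v c * m = v ℓ * m * v c * 1 := by rw [mul_one]; ac_rfl
        _ ≤ v c ^ 3 := mul_mul_le_pow_three hLm le_rfl h1C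
    · apply val_coeff_mul_le v hW.a₁
      rw [le_mul_inv_iff₀ hm0, map_mul, map_pow, pow_two]
      calc v ℓ * (v c * v c) * m = v ℓ * m * v c * v c := by ac_rfl
        _ ≤ v c ^ 3 := mul_mul_le_pow_three hLm le_rfl le_rfl
    · apply val_coeff_mul_le v hW.a₂
      rw [le_mul_inv_iff₀ hm0, map_pow, pow_two]
      calc v c * v c * m = m * v c * v c := by ac_rfl
        _ ≤ v c ^ 3 := mul_mul_le_pow_three hmC le_rfl le_rfl
  rw [hid, map_div₀, map_mul, map_mul, hΥ, div_le_iff₀ (pow_pos hC0 3), mul_comm m⁻¹]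
  exact hN

end Curve

section Points

variable {K : Type*} [Field K] [DecidableEq K] {Γ₀ : Type*} [LinearOrderedCommGroupWithZero Γ₀]
variable {v : Valuation K Γ₀} {W : WeierstrassCurve K}

/-- The level-`m` part of the kernel of reduction: the point at infinity together with the affine
points with `m ≤ v x`. -/
def InLevel (v : Valuation K Γ₀) (W : WeierstrassCurve K) (m : Γ₀) (P : W.toAffine.Point) : Prop :=
  P = 0 ∨ ∃ (x y : K) (h : W.toAffine.Nonsingular x y), P = Point.some x y h ∧ m ≤ v x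

/-- The local parameter `x / y` at the point at infinity. -/
noncomputable def zOf (W : WeierstrassCurve K) : W.toAffine.Point → K
  | .zero => 0
  | .some x y _ => x / y

omit [DecidableEq K] in
theorem zOf_zero : zOf W 0 = 0 := rfl

omit [DecidableEq K] in
theorem zOf_some {x y : K} (h : W.toAffine.Nonsingular x y) :
    zOf W (Point.some x y h) = x / y := rfl

theorem level_some_add_some (hW : IntegralCoeffs v W) {m : Γ₀} (hm : 1 < m) {x₁ y₁ x₂ y₂ : K}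
    (h₁ : W.toAffine.Nonsingular x₁ y₁) (h₂ : W.toAffine.Nonsingular x₂ y₂)
    (hx₁ : m ≤ v x₁) (hx₂ : m ≤ v x₂) :
    InLevel v W m (Point.some x₁ y₁ h₁ + Point.some x₂ y₂ h₂) ∧
      v (zOf W (Point.some x₁ y₁ h₁ + Point.some x₂ y₂ h₂) - x₁ / y₁ - x₂ / y₂) ≤ m⁻¹ := by
  have hm0 : 0 < m := zero_lt_one.trans hm
  by_cases hsum : Point.some x₁ y₁ h₁ + Point.some x₂ y₂ h₂ = 0
  · refine ⟨Or.inl hsum, ?_⟩
    have hneg : Point.some x₂ y₂ h₂ = -Point.some x₁ y₁ h₁ :=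
      (neg_eq_of_add_eq_zero_right hsum).symm
    rw [Point.neg_some, Point.some.injEq] at hneg
    obtain ⟨rfl, rfl⟩ := hneg
    rw [hsum, zOf_zero]
    have := val_div_add_div_negY_le hW h₁.1 (hm.trans_le hx₁)
    have e : (0 : K) - x₂ / y₁ - x₂ / W.toAffine.negY x₂ y₁
        = -(x₂ / y₁ + x₂ / W.toAffine.negY x₂ y₁) := by ring
    rw [e, Valuation.map_neg]
    exact this.trans (inv_anti₀ hm0 hx₁)
  · obtain ⟨x₃, y₃, h₃, hP₃⟩ : ∃ x₃ y₃ h₃,
        -(Point.some x₁ y₁ h₁ + Point.some x₂ y₂ h₂) = Point.some x₃ y₃ h₃ := by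
      cases hq : -(Point.some x₁ y₁ h₁ + Point.some x₂ y₂ h₂) with
      | zero => exact absurd (neg_eq_zero.mp hq) hsum
      | some x y h => exact ⟨x, y, h, rfl⟩
    have hsum0 : Point.some x₁ y₁ h₁ + Point.some x₂ y₂ h₂ + Point.some x₃ y₃ h₃ = 0 := by
      rw [← hP₃]; exact add_neg_cancel _
    obtain ⟨ℓ, c, hy₁, hy₂, hy₃, e1, e2, e3⟩ := exists_line_of_add_add_eq_zero W.toAffine hsum0
    have hX₁ := hm.trans_le hx₁
    have hX₂ := hm.trans_le hx₂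
    have hx₃ : m ≤ v x₃ := by
      rcases le_total (v x₁) (v x₂) with h12 | h21
      · exact hx₁.trans (le_val_third hW e1 e2 e3 hX₁ h12)
      · have e1' : x₂ + x₁ + x₃ = ℓ ^ 2 + W.a₁ * ℓ - W.a₂ := by rw [← e1]; ring
        have e2' : x₂ * x₁ + x₂ * x₃ + x₁ * x₃ = W.a₄ - 2 * ℓ * c - W.a₁ * c - W.a₃ * ℓ := by
          rw [← e2]; ring
        have e3' : x₂ * x₁ * x₃ = c ^ 2 + W.a₃ * c - W.a₆ := by rw [← e3]; ring
        exact hx₂.trans (le_val_third hW e1' e2' e3' hX₂ h21)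
    have hPQ : Point.some x₁ y₁ h₁ + Point.some x₂ y₂ h₂ = -Point.some x₃ y₃ h₃ := by
      rw [← hP₃, neg_neg]
    rw [hPQ, Point.neg_some]
    refine ⟨Or.inr ⟨_, _, _, rfl, hx₃⟩, ?_⟩
    rw [zOf_some]
    have main := val_sum_div_le hW hm h₁.1 h₂.1 h₃.1 hx₁ hx₂ hx₃ hy₁ hy₂ hy₃ e1 e2 e3
    have hneg := (val_div_add_div_negY_le hW h₃.1 (hm.trans_le hx₃)).trans (inv_anti₀ hm0 hx₃)
    have e : x₃ / W.toAffine.negY x₃ y₃ - x₁ / y₁ - x₂ / y₂
        = (x₃ / y₃ + x₃ / W.toAffine.negY x₃ y₃) - (x₁ / y₁ + x₂ / y₂ + x₃ / y₃) := by ring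
    rw [e]
    exact Valuation.map_sub_le v hneg main

theorem level_add (hW : IntegralCoeffs v W) {m : Γ₀} (hm : 1 < m) {P Q : W.toAffine.Point}
    (hP : InLevel v W m P) (hQ : InLevel v W m Q) :
    InLevel v W m (P + Q) ∧ v (zOf W (P + Q) - zOf W P - zOf W Q) ≤ m⁻¹ := by
  rcases hP with rfl | ⟨x₁, y₁, h₁, rfl, hx₁⟩
  · rw [zero_add, zOf_zero, sub_zero, sub_self, map_zero]
    exact ⟨hQ, zero_le⟩
  rcases hQ with rfl | ⟨x₂, y₂, h₂, rfl, hx₂⟩
  · rw [add_zero, zOf_zero, sub_zero, sub_self, map_zero]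
    exact ⟨Or.inr ⟨x₁, y₁, h₁, rfl, hx₁⟩, zero_le⟩
  exact level_some_add_some hW hm h₁ h₂ hx₁ hx₂

theorem level_nsmul (hW : IntegralCoeffs v W) {m : Γ₀} (hm : 1 < m) {P : W.toAffine.Point}
    (hP : InLevel v W m P) (k : ℕ) :
    InLevel v W m (k • P) ∧ v (zOf W (k • P) - (k : K) * zOf W P) ≤ m⁻¹ := by
  induction k with
  | zero =>
    rw [zero_smul, zOf_zero, Nat.cast_zero, zero_mul, sub_zero, map_zero]
    exact ⟨Or.inl rfl, zero_le⟩
  | succ k ih =>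
    obtain ⟨ih1, ih2⟩ := ih
    obtain ⟨h1, h2⟩ := level_add hW hm ih1 hP
    rw [succ_nsmul]
    refine ⟨h1, ?_⟩
    have e : zOf W (k • P + P) - ((k + 1 : ℕ) : K) * zOf W P
        = (zOf W (k • P + P) - zOf W (k • P) - zOf W P) + (zOf W (k • P) - (k : K) * zOf W P) := by
      push_cast; ring
    rw [e]
    exact Valuation.map_add_le v h2 ih2

end Points

end Fermat.Agent.S05.Kernel

namespace Fermat.Agent.S05

open WeierstrassCurve WeierstrassCurve.Affine Kernel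

variable {K : Type*} [Field K] [DecidableEq K] {Γ₀ : Type*} [LinearOrderedCommGroupWithZero Γ₀]
variable {v : Valuation K Γ₀} {W : WeierstrassCurve K}

set_option linter.unusedSectionVars false in
/-- The kernel of reduction is stable under negation. -/
theorem inKer_neg {P : W.toAffine.Point} (hP : InKer v W P) : InKer v W (-P) := by
  rcases hP with rfl | ⟨x, y, h, rfl, hx⟩
  · exact Or.inl rfl
  · exact Or.inr ⟨x, W.toAffine.negY x y, (nonsingular_neg ..).mpr h, rfl, hx⟩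

/-- The kernel of reduction is stable under addition. -/
theorem inKer_add (hW : IntegralCoeffs v W) {P Q : W.toAffine.Point}
    (hP : InKer v W P) (hQ : InKer v W Q) : InKer v W (P + Q) := by
  rcases hP with rfl | ⟨x₁, y₁, h₁, rfl, hx₁⟩
  · rw [zero_add]; exact hQ
  rcases hQ with rfl | ⟨x₂, y₂, h₂, rfl, hx₂⟩
  · rw [add_zero]; exact Or.inr ⟨x₁, y₁, h₁, rfl, hx₁⟩
  have hm : 1 < min (v x₁) (v x₂) := lt_min hx₁ hx₂
  rcases (level_some_add_some hW hm h₁ h₂ (min_le_left _ _) (min_le_right _ _)).1 with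
    h0 | ⟨x, y, h, hP, hx⟩
  · exact Or.inl h0
  · exact Or.inr ⟨x, y, h, hP, hm.trans_le hx⟩

/-- The kernel of reduction has no `n`-torsion for `n` a `v`-unit. -/
theorem eq_zero_of_inKer_of_nsmul_eq_zero (hW : IntegralCoeffs v W) {P : W.toAffine.Point}
    (hP : InKer v W P) {n : ℕ} (hn : v (n : K) = 1) (hnP : n • P = 0) : P = 0 := by
  rcases hP with rfl | ⟨x, y, h, rfl, hx⟩
  · rfl
  exfalso
  have hX0 : 0 < v x := zero_lt_one.trans hx
  have hlev : InLevel v W (v x) (Point.some x y h) := Or.inr ⟨x, y, h, rfl, le_rfl⟩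
  obtain ⟨-, h2⟩ := level_nsmul hW hx hlev n
  rw [hnP, zOf_zero, zOf_some, zero_sub, Valuation.map_neg, map_mul, hn, one_mul, map_div₀] at h2
  have hY : v y ^ 2 = v x ^ 3 := val_y_sq_eq hW h.1 hx
  have hY0 : 0 < v y := val_y_pos hW h.1 hx
  -- `v x * v x ≤ v y`
  have h3 : v x * v x ≤ v y := by
    rw [div_le_iff₀ hY0] at h2
    have := mul_le_mul' (le_refl (v x)) h2
    rwa [← mul_assoc, mul_inv_cancel₀ hX0.ne', one_mul] at this
  have h4 : (v x * v x) ^ 2 ≤ v x ^ 3 := by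
    rw [← hY]; exact pow_le_pow_left₀ zero_le h3 2
  have h5 : v x ^ 3 < (v x * v x) ^ 2 := by
    rw [← pow_two, ← pow_mul]
    exact pow_lt_pow_right₀ hx (by norm_num)
  exact absurd h5 (not_lt.mpr h4)

end Fermat.Agent.S05
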