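import Fermat.Agent.S05.Defs

/-!
# S05 helper library: the separation lemma (L2)

Two integral points congruent modulo the maximal ideal, at a point where the reduction is
nonsingular, differ by an element of the kernel of reduction.
-/

set_option autoImplicit false

namespace Fermat.Agent.S05

open WeierstrassCurve WeierstrassCurve.Affine

variable {K : Type*} [Field K] {Γ₀ : Type*} [LinearOrderedCommGroupWithZero Γ₀]

/-- If `1 < v ℓ` and the curve is integral, the `x`-coordinate `ℓ² + a₁ℓ - a₂ - x₁ - x₂` is
non-integral. -/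
theorem one_lt_addX {v : Valuation K Γ₀} {W : WeierstrassCurve K} (hW : IntegralCoeffs v W)
    {x₁ x₂ ℓ : K} (h₁ : v x₁ ≤ 1) (h₂ : v x₂ ≤ 1) (hℓ : 1 < v ℓ) :
    1 < v (W.toAffine.addX x₁ x₂ ℓ) := by
  have hℓ0 : v ℓ ≠ 0 := fun h => by simp [h] at hℓ
  have hℓℓ : v ℓ < v ℓ * v ℓ := by
    calc v ℓ = v ℓ * 1 := (mul_one _).symm
      _ < v ℓ * v ℓ := by
        exact mul_lt_mul_of_pos_left hℓ (zero_lt_iff.mpr hℓ0)
  have h1 : v (W.a₁ * ℓ) < v (ℓ ^ 2) := by
    rw [map_mul, map_pow, pow_two]
    calc v W.a₁ * v ℓ ≤ 1 * v ℓ := by gcongr; exact hW.a₁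
      _ = v ℓ := one_mul _
      _ < v ℓ * v ℓ := hℓℓ
  have hsq : 1 < v (ℓ ^ 2) := by
    rw [map_pow, pow_two]; exact hℓ.trans hℓℓ
  have e1 : v (ℓ ^ 2 + W.a₁ * ℓ) = v (ℓ ^ 2) := Valuation.map_add_eq_of_lt_left v h1
  have e2 : v (ℓ ^ 2 + W.a₁ * ℓ - W.a₂) = v (ℓ ^ 2) := by
    rw [← e1]; apply Valuation.map_sub_eq_of_lt_left; rw [e1]; exact lt_of_le_of_lt hW.a₂ hsq
  have e3 : v (ℓ ^ 2 + W.a₁ * ℓ - W.a₂ - x₁) = v (ℓ ^ 2) := by
    rw [← e2]; apply Valuation.map_sub_eq_of_lt_left; rw [e2]; exact lt_of_le_of_lt h₁ hsq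
  have e4 : v (ℓ ^ 2 + W.a₁ * ℓ - W.a₂ - x₁ - x₂) = v (ℓ ^ 2) := by
    rw [← e3]; apply Valuation.map_sub_eq_of_lt_left; rw [e3]; exact lt_of_le_of_lt h₂ hsq
  simp only [addX]
  rw [e4]; exact hsq

/-- `1 < v (a / b)` when `v a = 1` and `v b < 1`, `b ≠ 0`. -/
theorem one_lt_div {v : Valuation K Γ₀} {a b : K} (ha : v a = 1) (hb : v b < 1) (hb0 : b ≠ 0) :
    1 < v (a / b) := by
  have hvb : v b ≠ 0 := (Valuation.ne_zero_iff v).mpr hb0
  rw [map_div₀, ha, one_div]
  exact (one_lt_inv₀ (zero_lt_iff.mpr hvb)).mpr hb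

variable [DecidableEq K]

/-- **Separation lemma.** Let `(x, y)` and `(x', y')` be `v`-integral points of an integral
Weierstrass curve with `x' ≡ x`, `y' ≡ y` modulo the maximal ideal, and assume that one of the two
partial derivatives at `(x, y)` is a unit. Then `(x', y') - (x, y)` lies in the kernel of
reduction. -/
theorem sub_inKer_of_congr {v : Valuation K Γ₀} {W : WeierstrassCurve K} (hW : IntegralCoeffs v W)
    {x y x' y' : K} (h : W.toAffine.Nonsingular x y) (h' : W.toAffine.Nonsingular x' y')
    (hx : v x ≤ 1) (hy : v y ≤ 1) (hxx : v (x' - x) < 1) (hyy : v (y' - y) < 1)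
    (hns : v (W.a₁ * y - (3 * x ^ 2 + 2 * W.a₂ * x + W.a₄)) = 1 ∨
      v (2 * y + W.a₁ * x + W.a₃) = 1) :
    InKer v W (Point.some x' y' h' - Point.some x y h) := by
  have hx' : v x' ≤ 1 := by
    have : x' = (x' - x) + x := by ring
    rw [this]; exact Valuation.map_add_le v hxx.le hx
  have hy' : v y' ≤ 1 := by
    have : y' = (y' - y) + y := by ring
    rw [this]; exact Valuation.map_add_le v hyy.le hy
  have heq := (equation_iff _ _).mp h.1
  have heq' := (equation_iff _ _).mp h'.1
  rw [sub_eq_add_neg, Point.neg_some]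
  by_cases hxeq : x' = x
  · -- same x-coordinate
    subst hxeq
    by_cases hyeq : y' = W.toAffine.negY x' (W.toAffine.negY x' y)
    · -- the sum is zero
      left
      exact Point.add_of_Y_eq rfl hyeq
    · -- then `y' = negY x y`, i.e. we are doubling `-P`
      rw [negY_negY] at hyeq
      have hyn : y' = W.toAffine.negY x' y :=
        (Y_eq_of_X_eq h'.1 h.1 rfl).resolve_left hyeq
      subst hyn
      right
      have hne : W.toAffine.negY x' y ≠ W.toAffine.negY x' (W.toAffine.negY x' y) := by
        rw [negY_negY]; exact hyeq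
      rw [Point.add_of_Y_ne hne]
      refine ⟨_, _, _, rfl, ?_⟩
      apply one_lt_addX hW hx' hx'
      rw [slope_of_Y_ne rfl hne]
      -- denominator: negY x y - y = -(2y + a₁ x + a₃), small; numerator unit
      have hden : W.toAffine.negY x' y - W.toAffine.negY x' (W.toAffine.negY x' y)
          = -(2 * y + W.a₁ * x' + W.a₃) := by
        simp only [negY]; ring
      have hden_small : v (2 * y + W.a₁ * x' + W.a₃) < 1 := by
        have : 2 * y + W.a₁ * x' + W.a₃ = -(W.toAffine.negY x' y - y) := by
          simp only [negY]; ring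
        rw [this, Valuation.map_neg]; exact hyy
      have hFx : v (W.a₁ * y - (3 * x' ^ 2 + 2 * W.a₂ * x' + W.a₄)) = 1 := by
        rcases hns with h1 | h2
        · exact h1
        · exact absurd h2 hden_small.ne
      have hnum : v (3 * x' ^ 2 + 2 * W.a₂ * x' + W.a₄ - W.a₁ * W.toAffine.negY x' y) = 1 := by
        -- differs from -(F_x) by a₁ * (2y + a₁x + a₃)
        have e : 3 * x' ^ 2 + 2 * W.a₂ * x' + W.a₄ - W.a₁ * W.toAffine.negY x' y
            = -(W.a₁ * y - (3 * x' ^ 2 + 2 * W.a₂ * x' + W.a₄))
              + W.a₁ * (2 * y + W.a₁ * x' + W.a₃) := by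
          simp only [negY]; ring
        rw [e]
        have hsmall : v (W.a₁ * (2 * y + W.a₁ * x' + W.a₃)) < 1 := by
          rw [map_mul]
          calc v W.a₁ * v (2 * y + W.a₁ * x' + W.a₃) ≤ 1 * v (2 * y + W.a₁ * x' + W.a₃) := by
                gcongr; exact hW.a₁
            _ = _ := one_mul _
            _ < 1 := hden_small
        rw [Valuation.map_add_eq_of_lt_left v (by rw [Valuation.map_neg, hFx]; exact hsmall),
          Valuation.map_neg, hFx]
      have hden0 : W.toAffine.negY x' y - W.toAffine.negY x' (W.toAffine.negY x' y) ≠ 0 :=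
        sub_ne_zero.mpr hne
      apply one_lt_div hnum _ hden0
      rw [hden, Valuation.map_neg]; exact hden_small
  · -- different x-coordinates: secant
    right
    rw [Point.add_of_X_ne hxeq]
    refine ⟨_, _, _, rfl, ?_⟩
    apply one_lt_addX hW hx' hx
    rw [slope_of_X_ne hxeq]
    have hden0 : x' - x ≠ 0 := sub_ne_zero.mpr hxeq
    -- numerator: y' - negY x y = y' + y + a₁ x + a₃
    have hnum_eq : y' - W.toAffine.negY x y = (2 * y + W.a₁ * x + W.a₃) + (y' - y) := by
      simp only [negY]; ring
    rcases hns with hFx | hFy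
    · by_cases hFy : v (2 * y + W.a₁ * x + W.a₃) = 1
      · apply one_lt_div _ hxx hden0
        rw [hnum_eq, Valuation.map_add_eq_of_lt_left v (by rw [hFy]; exact hyy), hFy]
      · -- F_y small, F_x unit
        have hFy_le : v (2 * y + W.a₁ * x + W.a₃) ≤ 1 := by
          apply Valuation.map_add_le v (Valuation.map_add_le v _ _) hW.a₃
          · rw [map_mul]
            have h2 : v (2 : K) ≤ 1 := by
              have : (2 : K) = 1 + 1 := by norm_num
              rw [this]; exact Valuation.map_add_le v (by simp) (by simp)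
            calc v 2 * v y ≤ 1 * 1 := by gcongr
              _ = 1 := one_mul _
          · rw [map_mul]
            calc v W.a₁ * v x ≤ 1 * 1 := by gcongr; exact hW.a₁
              _ = 1 := one_mul _
        have hFy_lt : v (2 * y + W.a₁ * x + W.a₃) < 1 := lt_of_le_of_ne hFy_le hFy
        -- key identity: (y' - y) * H = (x' - x) * G
        set G := x' ^ 2 + x' * x + x ^ 2 + W.a₂ * (x' + x) + W.a₄ - W.a₁ * y with hG
        set H := y' + y + W.a₁ * x' + W.a₃ with hH
        have key : (y' - y) * H = (x' - x) * G := by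
          rw [hG, hH]; linear_combination heq' - heq
        -- G is a unit
        have hGval : v G = 1 := by
          have e : G = -(W.a₁ * y - (3 * x ^ 2 + 2 * W.a₂ * x + W.a₄))
              + (x' - x) * (x' + 2 * x + W.a₂) := by
            rw [hG]; ring
          have hsmall : v ((x' - x) * (x' + 2 * x + W.a₂)) < 1 := by
            rw [map_mul]
            have h2 : v (2 : K) ≤ 1 := by
              have : (2 : K) = 1 + 1 := by norm_num
              rw [this]; exact Valuation.map_add_le v (by simp) (by simp)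
            have : v (x' + 2 * x + W.a₂) ≤ 1 := by
              apply Valuation.map_add_le v (Valuation.map_add_le v hx' _) hW.a₂
              rw [map_mul]
              calc v 2 * v x ≤ 1 * 1 := by gcongr
                _ = 1 := one_mul _
            calc v (x' - x) * v (x' + 2 * x + W.a₂) ≤ v (x' - x) * 1 := by gcongr
              _ = v (x' - x) := mul_one _
              _ < 1 := hxx
          rw [e, Valuation.map_add_eq_of_lt_left v (by rw [Valuation.map_neg, hFx]; exact hsmall),
            Valuation.map_neg, hFx]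
        have hG0 : G ≠ 0 := by
          intro h0; rw [h0, map_zero] at hGval; exact zero_ne_one hGval
        -- y' ≠ y
        have hyne : y' - y ≠ 0 := by
          intro h0
          rw [h0, zero_mul] at key
          exact (mul_ne_zero hden0 hG0) key.symm
        -- slope = G / (y' - y) - a₁
        have hslope : (y' - W.toAffine.negY x y) / (x' - x) = G / (y' - y) - W.a₁ := by
          have e : y' - W.toAffine.negY x y = H - W.a₁ * (x' - x) := by
            simp only [negY, hH]; ring
          rw [e]
          field_simp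
          linear_combination key
        rw [hslope]
        have hbig : 1 < v (G / (y' - y)) := one_lt_div hGval hyy hyne
        rw [Valuation.map_sub_eq_of_lt_left v (lt_of_le_of_lt hW.a₁ hbig)]
        exact hbig
    · apply one_lt_div _ hxx hden0
      rw [hnum_eq, Valuation.map_add_eq_of_lt_left v (by rw [hFy]; exact hyy), hFy]

end Fermat.Agent.S05
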