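import Mathlib
import Fermat.Prelude.Def_FLTPrelim_FreyPackage

/-!
# Explicit invariants of the Frey curve and their divisibility properties

`P.freyCurve : y² + xy = x³ + a₂ x² + a₄ x` with `a₂ = (bᵖ - 1 - aᵖ)/4`, `a₄ = -aᵖ bᵖ/16`.
-/

set_option autoImplicit false

namespace Fermat.Agent.S05

open WeierstrassCurve

variable (P : FreyPackage)

/-- `A = aᵖ` as a rational number. -/
noncomputable abbrev freyA : ℚ := (P.a : ℚ) ^ P.p
/-- `B = bᵖ` as a rational number. -/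
noncomputable abbrev freyB : ℚ := (P.b : ℚ) ^ P.p
/-- `C = cᵖ` as a rational number. -/
noncomputable abbrev freyC : ℚ := (P.c : ℚ) ^ P.p

theorem freyA_add_freyB : freyA P + freyB P = freyC P := by
  have := P.hFLT
  unfold freyA freyB freyC
  exact_mod_cast this

@[simp] theorem freyCurve_a₁ : P.freyCurve.a₁ = 1 := rfl
@[simp] theorem freyCurve_a₂ : P.freyCurve.a₂ = (freyB P - 1 - freyA P) / 4 := rfl
@[simp] theorem freyCurve_a₃ : P.freyCurve.a₃ = 0 := rfl
@[simp] theorem freyCurve_a₄ : P.freyCurve.a₄ = -(freyA P) * (freyB P) / 16 := rfl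
@[simp] theorem freyCurve_a₆ : P.freyCurve.a₆ = 0 := rfl

theorem freyCurve_b₂ : P.freyCurve.b₂ = freyB P - freyA P := by
  simp only [WeierstrassCurve.b₂, freyCurve_a₁, freyCurve_a₂]
  ring

theorem freyCurve_b₄ : P.freyCurve.b₄ = -(freyA P * freyB P) / 8 := by
  simp only [WeierstrassCurve.b₄, freyCurve_a₁, freyCurve_a₃, freyCurve_a₄]
  ring

theorem freyCurve_b₆ : P.freyCurve.b₆ = 0 := by
  simp only [WeierstrassCurve.b₆, freyCurve_a₃, freyCurve_a₆]
  ring

theorem freyCurve_b₈ : P.freyCurve.b₈ = -(freyA P * freyB P) ^ 2 / 256 := by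
  simp only [WeierstrassCurve.b₈, freyCurve_a₁, freyCurve_a₂, freyCurve_a₃, freyCurve_a₄,
    freyCurve_a₆]
  ring

theorem freyCurve_c₄ :
    P.freyCurve.c₄ = freyA P ^ 2 + freyA P * freyB P + freyB P ^ 2 := by
  simp only [WeierstrassCurve.c₄, freyCurve_b₂, freyCurve_b₄]
  ring

theorem freyCurve_Δ : P.freyCurve.Δ = (freyA P * freyB P * freyC P) ^ 2 / 2 ^ 8 := by
  simp only [WeierstrassCurve.Δ, freyCurve_b₂, freyCurve_b₄, freyCurve_b₆, freyCurve_b₈,
    ← freyA_add_freyB]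
  ring

theorem freyCurve_Δ' :
    P.freyCurve.Δ = ((P.a * P.b * P.c : ℤ) : ℚ) ^ (2 * P.p) / 2 ^ 8 := by
  rw [freyCurve_Δ]
  unfold freyA freyB freyC
  push_cast
  ring

theorem freyCurve_Δ_ne_zero : P.freyCurve.Δ ≠ 0 := by
  rw [freyCurve_Δ']
  have h : ((P.a * P.b * P.c : ℤ) : ℚ) ≠ 0 := by exact_mod_cast P.habc0
  positivity

end Fermat.Agent.S05
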