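import Mathlib

/-!
# S05 helper library: basic definitions

General setting: `K` a field with a valuation `v : Valuation K Γ₀` (multiplicative notation,
`v x ≤ 1` means integral, `v x < 1` means in the maximal ideal), `W` a Weierstrass curve over `K`.
-/

set_option autoImplicit false

namespace Fermat.Agent.S05

open WeierstrassCurve WeierstrassCurve.Affine

variable {K : Type*} [Field K] {Γ₀ : Type*} [LinearOrderedCommGroupWithZero Γ₀]

/-- All Weierstrass coefficients are `v`-integral. -/
structure IntegralCoeffs (v : Valuation K Γ₀) (W : WeierstrassCurve K) : Prop where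
  a₁ : v W.a₁ ≤ 1
  a₂ : v W.a₂ ≤ 1
  a₃ : v W.a₃ ≤ 1
  a₄ : v W.a₄ ≤ 1
  a₆ : v W.a₆ ≤ 1

/-- The kernel of reduction: the point at infinity together with the affine points whose
`x`-coordinate is not `v`-integral. -/
def InKer (v : Valuation K Γ₀) (W : WeierstrassCurve K) (P : W.toAffine.Point) : Prop :=
  P = 0 ∨ ∃ (x y : K) (h : W.toAffine.Nonsingular x y), P = Point.some x y h ∧ 1 < v x

/-- The points that do not reduce to the node `(0, 0)`: the point at infinity together with the
affine points whose `x`-coordinate has `1 ≤ v x`. (Used for curves with `a₃ = a₆ = 0`,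
`v a₄ < 1`.) -/
def InE0 (v : Valuation K Γ₀) (W : WeierstrassCurve K) (P : W.toAffine.Point) : Prop :=
  P = 0 ∨ ∃ (x y : K) (h : W.toAffine.Nonsingular x y), P = Point.some x y h ∧ 1 ≤ v x

/-- `P` is an affine point `(x, y)` with `v x = g` lying on the branch through the node tangent to
the line `y = α x`, i.e. `v (y - α x) < g`. -/
def OnBranch (v : Valuation K Γ₀) (W : WeierstrassCurve K) (α : K) (g : Γ₀)
    (P : W.toAffine.Point) : Prop :=
  ∃ (x y : K) (h : W.toAffine.Nonsingular x y), P = Point.some x y h ∧ v x = g ∧ v (y - α * x) < g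

/-- `P` is an affine point `(x, y)` with `v x ≤ v a₄` ("antipodal" points: those in the component
of the `2`-torsion point `(0, 0)`). -/
def Antipodal (v : Valuation K Γ₀) (W : WeierstrassCurve K) (P : W.toAffine.Point) : Prop :=
  ∃ (x y : K) (h : W.toAffine.Nonsingular x y), P = Point.some x y h ∧ v x ≤ v W.a₄

/-- Data of a curve `y² + a₁xy = x³ + a₂x² + a₄x` with integral coefficients, `a₄` in the maximal
ideal (nonzero), and the two tangent directions `α, β` at the node `(0,0)` of the reduction
(roots of `t² + a₁ t - a₂`), distinct modulo the maximal ideal. -/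
structure NodeData (v : Valuation K Γ₀) (W : WeierstrassCurve K) (α β : K) : Prop where
  a₃ : W.a₃ = 0
  a₆ : W.a₆ = 0
  a₁ : v W.a₁ ≤ 1
  a₂ : v W.a₂ ≤ 1
  a₄_lt : v W.a₄ < 1
  a₄_ne : W.a₄ ≠ 0
  sum : α + β = -W.a₁
  prod : α * β = -W.a₂
  sep : v (α - β) = 1

/-- An endomorphism `σ` of `K` preserving `v` and acting trivially on the residue field, together
with the additive endomorphism `f` of the group of points that it induces. -/
structure InertiaLike [DecidableEq K] (v : Valuation K Γ₀) (W : WeierstrassCurve K) (σ : K →+* K)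
    (f : W.toAffine.Point →+ W.toAffine.Point) : Prop where
  val_eq : ∀ x, v (σ x) = v x
  sub_lt : ∀ x, v x ≤ 1 → v (σ x - x) < 1
  map_some : ∀ (x y : K) (h : W.toAffine.Nonsingular x y),
    ∃ h' : W.toAffine.Nonsingular (σ x) (σ y), f (Point.some x y h) = Point.some (σ x) (σ y) h'

end Fermat.Agent.S05
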