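import Fermat.Agent.S05.Defs

/-!
# S05 helper library: inertia-fixed points on a branch

Given node data and an inertia-like endomorphism `σ` fixing the coefficients of the curve and an
element `x₀` with `v a₄ < v x₀ < 1`, there is a point `R` with `x`-coordinate `x₀` on the
`α`-branch which is fixed by (the map induced by) `σ`.
-/

set_option autoImplicit false

namespace Fermat.Agent.S05

open WeierstrassCurve WeierstrassCurve.Affine

variable {K : Type*} [Field K] {Γ₀ : Type*} [LinearOrderedCommGroupWithZero Γ₀]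
variable {v : Valuation K Γ₀} {W : WeierstrassCurve K} {α β : K}

theorem fp_val_alpha_le_one (hN : NodeData v W α β) : v α ≤ 1 := by
  by_contra h
  rw [not_le] at h
  have hβ : v β = v α := by
    have : β = -W.a₁ - α := by rw [← hN.sum]; ring
    rw [this, sub_eq_add_neg, add_comm]
    rw [Valuation.map_add_eq_of_lt_left]
    · exact Valuation.map_neg v α
    · rw [Valuation.map_neg, Valuation.map_neg]
      exact lt_of_le_of_lt hN.a₁ h
  have h2 : v (α * β) ≤ 1 := by
    rw [hN.prod, Valuation.map_neg]; exact hN.a₂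
  rw [map_mul, hβ] at h2
  have : 1 < v α * v α := by
    calc (1 : Γ₀) < v α := h
      _ = v α * 1 := (mul_one _).symm
      _ < v α * v α := by
        refine mul_lt_mul_of_pos_left h ?_
        exact lt_trans zero_lt_one h
  exact absurd h2 (not_le.mpr this)

theorem fp_swap (hN : NodeData v W α β) : NodeData v W β α where
  a₃ := hN.a₃
  a₆ := hN.a₆
  a₁ := hN.a₁
  a₂ := hN.a₂
  a₄_lt := hN.a₄_lt
  a₄_ne := hN.a₄_ne
  sum := by rw [add_comm]; exact hN.sum
  prod := by rw [mul_comm]; exact hN.prod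
  sep := by rw [← Valuation.map_neg, neg_sub]; exact hN.sep

theorem fp_val_beta_le_one (hN : NodeData v W α β) : v β ≤ 1 :=
  fp_val_alpha_le_one (fp_swap hN)

/-- The equation of the curve in the coordinates `ξ = y - αx`, `η = y - βx`. -/
theorem fp_equation_iff (hN : NodeData v W α β) (x y : K) :
    W.toAffine.Equation x y ↔ (y - α * x) * (y - β * x) = x ^ 3 + W.a₄ * x := by
  rw [Affine.equation_iff, hN.a₃, hN.a₆]
  have h1 : W.a₁ = -(α + β) := by rw [hN.sum]; ring
  have h2 : W.a₂ = -(α * β) := by rw [hN.prod]; ring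
  rw [h1, h2]
  constructor <;> intro h <;> linear_combination h

/-- An inertia-like endomorphism fixing `a₁, a₂` fixes the tangent direction `α`. -/
theorem fp_sigma_alpha [DecidableEq K] (hN : NodeData v W α β) {σ : K →+* K}
    {f : W.toAffine.Point →+ W.toAffine.Point} (hf : InertiaLike v W σ f)
    (h1 : σ W.a₁ = W.a₁) (h2 : σ W.a₂ = W.a₂) : σ α = α := by
  have hroot : (σ α - α) * (σ α - β) = 0 := by
    have e : α * α + W.a₁ * α - W.a₂ = 0 := by
      have h1' : W.a₁ = -(α + β) := by rw [hN.sum]; ring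
      have h2' : W.a₂ = -(α * β) := by rw [hN.prod]; ring
      rw [h1', h2']; ring
    have e' := congrArg σ e
    rw [map_sub, map_add, map_mul, map_mul, h1, h2, map_zero] at e'
    have h1' : W.a₁ = -(α + β) := by rw [hN.sum]; ring
    have h2' : W.a₂ = -(α * β) := by rw [hN.prod]; ring
    rw [h1', h2'] at e'
    linear_combination e'
  rcases mul_eq_zero.mp hroot with h | h
  · exact sub_eq_zero.mp h
  · exfalso
    have hβ : σ α = β := sub_eq_zero.mp h
    have := hf.sub_lt α (fp_val_alpha_le_one hN)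
    rw [hβ, ← Valuation.map_neg, neg_sub, hN.sep] at this
    exact lt_irrefl _ this

/-- **Fixed points on a branch.** -/
theorem exists_fixed_onBranch [DecidableEq K] [IsAlgClosed K] (hN : NodeData v W α β)
    {σ : K →+* K} {f : W.toAffine.Point →+ W.toAffine.Point} (hf : InertiaLike v W σ f)
    (h1 : σ W.a₁ = W.a₁) (h2 : σ W.a₂ = W.a₂) (h4 : σ W.a₄ = W.a₄)
    {x₀ : K} (hx₀ : σ x₀ = x₀) (hlo : v W.a₄ < v x₀) (hhi : v x₀ < 1) :
    ∃ R : W.toAffine.Point, OnBranch v W α (v x₀) R ∧ f R = R := by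
  set g := v x₀ with hg
  have hg0 : g ≠ 0 := fun h => by rw [h] at hlo; exact not_lt_zero hlo
  have hgpos : 0 < g := zero_lt_iff.mpr hg0
  have hx₀0 : x₀ ≠ 0 := (Valuation.ne_zero_iff v).mp hg0
  set δ := α - β with hδ
  set c := x₀ ^ 3 + W.a₄ * x₀ with hc
  -- `v c < g ^ 2`
  have hvc : v c < g * g := by
    have e : c = x₀ * (x₀ ^ 2 + W.a₄) := by rw [hc]; ring
    rw [e, map_mul]
    refine mul_lt_mul_of_pos_left ?_ hgpos
    refine lt_of_le_of_lt (Valuation.map_add _ _ _) (max_lt ?_ hlo)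
    rw [map_pow, pow_two]
    calc g * g < g * 1 := mul_lt_mul_of_pos_left hhi hgpos
      _ = g := mul_one _
  have hvδx : v (δ * x₀) = g := by rw [map_mul, hN.sep, one_mul]
  -- a root of the quadratic `ξ² + δx₀ξ - c`
  obtain ⟨ξa, hξa⟩ : ∃ ξ : K, ξ * ξ + δ * x₀ * ξ - c = 0 := by
    have hdeg : (Polynomial.X ^ 2 + Polynomial.C (δ * x₀) * Polynomial.X - Polynomial.C c :
        Polynomial K).degree ≠ 0 := by
      have : (Polynomial.X ^ 2 + Polynomial.C (δ * x₀) * Polynomial.X - Polynomial.C c :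
          Polynomial K).degree = 2 := by
        compute_degree!
      rw [this]; norm_num
    obtain ⟨ξ, hξ⟩ := IsAlgClosed.exists_root _ hdeg
    refine ⟨ξ, ?_⟩
    simpa [Polynomial.IsRoot, pow_two] using hξ
  -- the other root
  set ξb := -(δ * x₀) - ξa with hξb
  have hξb_root : ξb * ξb + δ * x₀ * ξb - c = 0 := by rw [hξb]; linear_combination hξa
  have hsum : ξa + ξb = -(δ * x₀) := by rw [hξb]; ring
  have hprod : ξa * ξb = -c := by rw [hξb]; linear_combination -hξa
  -- one of the roots is small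
  obtain ⟨ξ₁, ξ₂, hr1, hs, hp, hsmall⟩ : ∃ ξ₁ ξ₂ : K, ξ₁ * ξ₁ + δ * x₀ * ξ₁ - c = 0 ∧
      ξ₁ + ξ₂ = -(δ * x₀) ∧ ξ₁ * ξ₂ = -c ∧ v ξ₁ < g := by
    by_cases ha : v ξa < g
    · exact ⟨ξa, ξb, hξa, hsum, hprod, ha⟩
    · rw [not_lt] at ha
      refine ⟨ξb, ξa, hξb_root, by rw [add_comm]; exact hsum, by rw [mul_comm]; exact hprod, ?_⟩
      by_contra hb
      rw [not_lt] at hb
      have : g * g ≤ v (ξa * ξb) := by
        rw [map_mul]; exact mul_le_mul' ha hb
      rw [hprod, Valuation.map_neg] at this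
      exact absurd hvc (not_lt.mpr this)
  have hv2 : v ξ₂ = g := by
    have : ξ₂ = -(δ * x₀) - ξ₁ := by rw [← hs]; ring
    rw [this, sub_eq_add_neg, Valuation.map_add_eq_of_lt_left]
    · rw [Valuation.map_neg]; exact hvδx
    · rw [Valuation.map_neg, Valuation.map_neg, hvδx]; exact hsmall
  -- the point
  set y₀ := ξ₁ + α * x₀ with hy₀
  have hξ₁ : y₀ - α * x₀ = ξ₁ := by rw [hy₀]; ring
  have hη₁ : y₀ - β * x₀ = ξ₁ + δ * x₀ := by rw [hy₀, hδ]; ring
  have heq : W.toAffine.Equation x₀ y₀ := by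
    rw [fp_equation_iff hN, hξ₁, hη₁, ← hc]
    linear_combination hr1
  have hns : W.toAffine.Nonsingular x₀ y₀ := by
    rw [Affine.nonsingular_iff]
    refine ⟨heq, Or.inr ?_⟩
    -- `y₀ - negY x₀ y₀ = 2y₀ + a₁x₀ = ξ₁ - ξ₂`
    have e : y₀ - W.toAffine.negY x₀ y₀ = ξ₁ - ξ₂ := by
      have h1' : W.a₁ = -(α + β) := by rw [hN.sum]; ring
      have hξ₂ : ξ₂ = -(δ * x₀) - ξ₁ := by rw [← hs]; ring
      rw [Affine.negY, hN.a₃, h1', hξ₂, hy₀, hδ]; ring
    intro hcon
    have hcon' : y₀ - W.toAffine.negY x₀ y₀ = 0 := sub_eq_zero.mpr hcon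
    rw [e] at hcon'
    have : ξ₁ = ξ₂ := sub_eq_zero.mp hcon'
    rw [this, hv2] at hsmall
    exact lt_irrefl _ hsmall
  refine ⟨Point.some x₀ y₀ hns, ⟨x₀, y₀, hns, rfl, rfl, by rw [hξ₁]; exact hsmall⟩, ?_⟩
  -- fixedness
  obtain ⟨hns', hfR⟩ := hf.map_some x₀ y₀ hns
  have hσα : σ α = α := fp_sigma_alpha hN hf h1 h2
  have hσβ : σ β = β := fp_sigma_alpha (fp_swap hN) hf h1 h2
  have hσδ : σ δ = δ := by rw [hδ, map_sub, hσα, hσβ]
  have hσc : σ c = c := by rw [hc, map_add, map_pow, map_mul, hx₀, h4]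
  have hσξ_root : (σ ξ₁ - ξ₁) * (σ ξ₁ - ξ₂) = 0 := by
    have e' := congrArg σ hr1
    rw [map_sub, map_add, map_mul, map_mul, map_mul, hσδ, hx₀, hσc, map_zero] at e'
    have hξ₂ : ξ₂ = -(δ * x₀) - ξ₁ := by rw [← hs]; ring
    rw [hξ₂]
    linear_combination e' - hr1
  have hσξ : σ ξ₁ = ξ₁ := by
    rcases mul_eq_zero.mp hσξ_root with h | h
    · exact sub_eq_zero.mp h
    · exfalso
      have h' : σ ξ₁ = ξ₂ := sub_eq_zero.mp h
      have := hf.val_eq ξ₁
      rw [h', hv2] at this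
      rw [← this] at hsmall
      exact lt_irrefl _ hsmall
  have hσy : σ y₀ = y₀ := by rw [hy₀, map_add, map_mul, hσξ, hσα, hx₀]
  rw [hfR]
  simp only [hx₀, hσy]

end Fermat.Agent.S05
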