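import Fermat.Agent.S05.Defs
import Fermat.Agent.S05.Sep
import Fermat.Agent.S05.Integral

/-!
# S05: the general good reduction theorem

`fix_torsion_of_good_aux`: if `W` has integral coefficients and unit discriminant, `f` is induced by
an inertia-like endomorphism, and the kernel of reduction has no `n`-torsion (supplied as a
hypothesis `hker`; it is `eq_zero_of_inKer_of_nsmul_eq_zero` of `Kernel.lean`), then `f` fixes all
`n`-torsion points.
-/

set_option autoImplicit false

namespace Fermat.Agent.S05

open WeierstrassCurve WeierstrassCurve.Affine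

variable {K : Type*} [Field K] [DecidableEq K] {Γ₀ : Type*} [LinearOrderedCommGroupWithZero Γ₀]
variable {v : Valuation K Γ₀} {W : WeierstrassCurve K}

/-- Good reduction: inertia fixes the prime-to-residue-characteristic torsion, given that the
kernel of reduction has no `n`-torsion. -/
theorem fix_torsion_of_good_aux {σ : K →+* K} {f : W.toAffine.Point →+ W.toAffine.Point}
    (hW : IntegralCoeffs v W) (hΔ : v W.Δ = 1) (hf : InertiaLike v W σ f) {n : ℕ}
    (hker : ∀ P : W.toAffine.Point, InKer v W P → n • P = 0 → P = 0)
    {T : W.toAffine.Point} (hT : n • T = 0) : f T = T := by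
  -- it suffices to show that `f T - T` lies in the kernel of reduction
  have hnsub : n • (f T - T) = 0 := by
    rw [smul_sub, ← map_nsmul, hT, map_zero, sub_zero]
  suffices h : InKer v W (f T - T) from sub_eq_zero.mp (hker _ h hnsub)
  rcases T with _ | ⟨x, y, hxy⟩
  · -- `T = 0`
    left
    have h0 : (Point.zero : W.toAffine.Point) = 0 := rfl
    rw [h0, map_zero, sub_zero]
  · -- `T = (x, y)`: first, `x` is integral
    have hx : v x ≤ 1 := by
      by_contra hx
      push Not at hx
      have hT0 : Point.some x y hxy = (0 : W.toAffine.Point) :=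
        hker _ (Or.inr ⟨x, y, hxy, rfl, hx⟩) hT
      exact Point.some_ne_zero hxy hT0
    have hy : v y ≤ 1 := y_integral hW hxy.1 hx
    obtain ⟨h', hfT⟩ := hf.map_some x y hxy
    rw [hfT]
    exact sub_inKer_of_congr hW hxy h' hx hy (hf.sub_lt x hx) (hf.sub_lt y hy)
      (partial_unit_of_disc_unit hW hΔ hxy.1 hx hy)

end Fermat.Agent.S05
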