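import Fermat.Agent.S05.Node

/-!
# S05 helper library: the component homomorphism and torsion levels

For a curve with `NodeData`, write `s = v a₄`. Every point has a "level" in `Γ₀ / s^(2ℤ)`,
represented in the fundamental domain `(s², 1]`:
* points of `E₀` have level `1`;
* points on the `α`-branch with `v x = g`, `s < g < 1`, have level `g`;
* antipodal points have level `s`;
* points on the `β`-branch with `v x = g`, `s < g < 1`, have level `s² / g`.
Using the lemmas (N), (T), (D1), (D2), (D3) of `Node.lean` we show by induction that `n • T` has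
level `gⁿ` modulo `s^(2ℤ)` when `T` is on the `α`-branch at level `g`; hence `p • T = 0` forces
`g ^ p = s ^ (2 k)`.
-/

set_option autoImplicit false

namespace Fermat.Agent.S05

open WeierstrassCurve WeierstrassCurve.Affine

set_option linter.unusedSectionVars false

variable {K : Type*} [Field K] [DecidableEq K] {Γ₀ : Type*} [LinearOrderedCommGroupWithZero Γ₀]
variable {v : Valuation K Γ₀} {W : WeierstrassCurve K} {α β : K}

/-! ### Trivial facts about the classes of points -/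

theorem inE0_neg {P : W.toAffine.Point} (hP : InE0 v W P) : InE0 v W (-P) := by
  rcases hP with rfl | ⟨x, y, h, rfl, hx⟩
  · left; simp
  · right
    rw [Point.neg_some]
    exact ⟨_, _, _, rfl, hx⟩

theorem not_onBranch_of_inE0 {γ : K} {g : Γ₀} {P : W.toAffine.Point} (hP : InE0 v W P)
    (hg1 : g < 1) (hB : OnBranch v W γ g P) : False := by
  obtain ⟨x, y, h, rfl, hx, -⟩ := hB
  rcases hP with h0 | ⟨x', y', h', heq, hx'⟩
  · exact Point.some_ne_zero _ h0
  · rw [Point.some.injEq] at heq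
    have hlt : v x' < 1 := by rw [← heq.1, hx]; exact hg1
    exact absurd hx' (not_le.mpr hlt)

theorem onBranch_level_eq {γ γ' : K} {g g' : Γ₀} {P : W.toAffine.Point}
    (h₁ : OnBranch v W γ g P) (h₂ : OnBranch v W γ' g' P) : g = g' := by
  obtain ⟨x, y, h, rfl, hx, -⟩ := h₁
  obtain ⟨x', y', h', heq, hx', -⟩ := h₂
  rw [Point.some.injEq] at heq
  rw [← hx, ← hx', heq.1]

theorem not_onBranch_both (hN : NodeData v W α β) {g g' : Γ₀} {P : W.toAffine.Point}
    (h₁ : OnBranch v W α g P) (h₂ : OnBranch v W β g' P) : False := by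
  have hgg : g = g' := onBranch_level_eq h₁ h₂
  subst hgg
  obtain ⟨x, y, h, rfl, hx, hα⟩ := h₁
  obtain ⟨x', y', h', heq, -, hβ⟩ := h₂
  rw [Point.some.injEq] at heq
  obtain ⟨rfl, rfl⟩ := heq
  have e : (α - β) * x = (y - β * x) - (y - α * x) := by ring
  have h1 : v ((α - β) * x) = g := by rw [map_mul, hN.sep, one_mul, hx]
  have h2 : v ((α - β) * x) < g := by
    rw [e]; exact Valuation.map_sub_lt v hβ hα
  rw [h1] at h2
  exact lt_irrefl _ h2

theorem not_onBranch_of_antipodal {γ : K} {g : Γ₀} {P : W.toAffine.Point}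
    (hP : Antipodal v W P) (hg : v W.a₄ < g) (hB : OnBranch v W γ g P) : False := by
  obtain ⟨x, y, h, rfl, hx, -⟩ := hB
  obtain ⟨x', y', h', heq, hx'⟩ := hP
  rw [Point.some.injEq] at heq
  rw [← heq.1, hx] at hx'
  exact absurd hx' (not_le.mpr hg)

theorem T0_symm (hN : NodeData v W α β) : T0 (NodeData.symm hN) = T0 hN := rfl

/-! ### The level of a point -/

/-- `P` has level `γ`, for `γ` in the fundamental domain `(s², 1]`, `s = v a₄`. -/
def Lev (v : Valuation K Γ₀) (W : WeierstrassCurve K) (α β : K) (γ : Γ₀)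
    (P : W.toAffine.Point) : Prop :=
  (γ = 1 ∧ InE0 v W P) ∨ (v W.a₄ < γ ∧ γ < 1 ∧ OnBranch v W α γ P) ∨
    (γ = v W.a₄ ∧ Antipodal v W P) ∨
    (v W.a₄ ^ 2 < γ ∧ γ < v W.a₄ ∧ OnBranch v W β (v W.a₄ ^ 2 / γ) P)

theorem lev_zero_iff {γ : Γ₀} (h : Lev v W α β γ (0 : W.toAffine.Point)) : γ = 1 := by
  rcases h with ⟨h1, -⟩ | ⟨-, -, x, y, h, h0, -⟩ | ⟨-, x, y, h, h0, -⟩ | ⟨-, -, x, y, h, h0, -⟩
  · exact h1
  · exact absurd h0.symm (Point.some_ne_zero _)
  · exact absurd h0.symm (Point.some_ne_zero _)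
  · exact absurd h0.symm (Point.some_ne_zero _)

section

variable (hN : NodeData v W α β)
include hN

theorem NodeData.s_pos : 0 < v W.a₄ :=
  zero_lt_iff.mpr ((Valuation.ne_zero_iff v).mpr hN.a₄_ne)

/-- If `P ∈ A(g₁)`, `Q ∈ A(g₂)` and `P + Q ∈ A(h)` then `h = g₁ g₂`. -/
theorem level_of_add_A {g₁ g₂ h : Γ₀} (hg₁ : v W.a₄ < g₁) (hg₁' : g₁ < 1)
    (hh : v W.a₄ < h) (hh' : h < 1)
    {P Q : W.toAffine.Point} (hP : OnBranch v W α g₁ P) (hQ : OnBranch v W α g₂ Q)
    (hR : OnBranch v W α h (P + Q)) (hg₂' : g₂ < 1) : h = g₁ * g₂ := by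
  have hs := NodeData.s_pos hN
  have hg₁0 : 0 < g₁ := hs.trans hg₁
  rcases lt_trichotomy h g₁ with hlt | heq | hgt
  · have := onBranch_sub hN hh hlt hg₁' hP hR
    rw [add_sub_cancel_left] at this
    have e := onBranch_level_eq this hQ
    rw [← e, mul_div_cancel₀ _ hg₁0.ne']
  · subst heq
    have := inE0_sub_of_onBranch hN hh hh' hP hR
    rw [add_sub_cancel_left] at this
    exact (not_onBranch_of_inE0 this hg₂' hQ).elim
  · have := onBranch_sub hN hg₁ hgt hh' hR hP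
    have e : P - (P + Q) = -Q := by abel
    rw [e] at this
    exact (not_onBranch_both hN this (onBranch_neg hN hQ)).elim

/-- The sum of two points on the `α`-branch. -/
theorem lev_add_A_A {g₁ g₂ : Γ₀} (hg₁ : v W.a₄ < g₁) (hg₁' : g₁ < 1)
    (hg₂ : v W.a₄ < g₂) (hg₂' : g₂ < 1)
    {P Q : W.toAffine.Point} (hP : OnBranch v W α g₁ P) (hQ : OnBranch v W α g₂ Q) :
    Lev v W α β (g₁ * g₂) (P + Q) := by
  have hs := NodeData.s_pos hN
  have hN' := NodeData.symm hN
  have hg₁0 : 0 < g₁ := hs.trans hg₁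
  have hg₂0 : 0 < g₂ := hs.trans hg₂
  have hnQ : OnBranch v W β g₂ (-Q) := onBranch_neg hN hQ
  rcases classify hN (P + Q) with hE | hA | ⟨h, hh, hh', hRα | hRβ⟩
  · -- `P + Q ∈ E₀` is impossible
    have := onBranch_add_inE0 hN' hg₂ hg₂' hE hnQ
    have e : -Q + (P + Q) = P := by abel
    rw [e] at this
    exact (not_onBranch_both hN hP this).elim
  · -- `P + Q` antipodal: `g₁ g₂ = s`
    have hE : InE0 v W (P + Q + T0 hN) := inE0_add_T0 hN hA
    have h1 := onBranch_add_inE0 hN' hg₂ hg₂' hE hnQ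
    have e : -Q + (P + Q + T0 hN) = P + T0 hN := by abel
    rw [e] at h1
    have h2 := onBranch_add_T0 hN hg₁ hg₁' hP
    have e2 : g₂ = v W.a₄ / g₁ := onBranch_level_eq h1 h2
    right; right; left
    refine ⟨?_, hA⟩
    rw [e2, mul_div_cancel₀ _ hg₁0.ne']
  · -- `P + Q ∈ A(h)`
    have e := level_of_add_A hN hg₁ hg₁' hh hh' hP hQ hRα hg₂'
    right; left
    rw [← e]
    exact ⟨hh, hh', hRα⟩
  · -- `P + Q ∈ B(h)`
    have hh0 : 0 < h := hs.trans hh
    have h1 : OnBranch v W α (v W.a₄ / h) (P + Q + T0 hN) :=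
      onBranch_add_T0 hN' hh hh' hRβ
    have h2 : OnBranch v W β (v W.a₄ / g₁) (P + T0 hN) := onBranch_add_T0 hN hg₁ hg₁' hP
    have h3 : OnBranch v W α (v W.a₄ / g₁) (-(P + T0 hN)) := onBranch_neg hN' h2
    have e : (P + Q + T0 hN) + -(P + T0 hN) = Q := by abel
    have hQ' : OnBranch v W α g₂ ((P + Q + T0 hN) + -(P + T0 hN)) := by rw [e]; exact hQ
    have key := level_of_add_A hN ((lt_div_iff₀ hh0).mpr (mul_lt_of_lt_one_right hs hh'))
      ((div_lt_one₀ hh0).mpr hh) hg₂ hg₂' h1 h3 hQ' ((div_lt_one₀ hg₁0).mpr hg₁)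
    -- `g₂ = (s / h) (s / g₁)`, i.e. `g₁ g₂ = s² / h`
    have e2 : g₁ * g₂ = v W.a₄ ^ 2 / h := by
      rw [key, pow_two, div_mul_div_comm, mul_div_assoc', mul_comm g₁, mul_div_mul_right _ _ hg₁0.ne']
    right; right; right
    rw [e2]
    refine ⟨?_, ?_, ?_⟩
    · rw [lt_div_iff₀ hh0]; exact mul_lt_of_lt_one_right (pow_pos hs 2) hh'
    · rw [div_lt_iff₀ hh0, pow_two]; exact mul_lt_mul_of_pos_left hh hs
    · rw [div_div_cancel₀ (pow_pos hs 2).ne']; exact hRβ

/-- Adding a point on the `α`-branch multiplies the level. -/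
theorem lev_add_onBranch {γ g : Γ₀} (hg : v W.a₄ < g) (hg1 : g < 1)
    {X Q : W.toAffine.Point} (hX : Lev v W α β γ X) (hQ : OnBranch v W α g Q) :
    Lev v W α β (γ * g) (X + Q) ∨ Lev v W α β (γ * g / v W.a₄ ^ 2) (X + Q) := by
  have hs := NodeData.s_pos hN
  have hs1 : v W.a₄ < 1 := hN.a₄_lt
  have hN' := NodeData.symm hN
  have hg0 : 0 < g := hs.trans hg
  have hs2 : 0 < v W.a₄ ^ 2 := pow_pos hs 2
  rcases hX with ⟨rfl, hE⟩ | ⟨hγ, hγ1, hA⟩ | ⟨rfl, hM⟩ | ⟨hγ, hγ1, hB⟩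
  · -- `X ∈ E₀`
    left; right; left
    rw [one_mul, add_comm]
    exact ⟨hg, hg1, onBranch_add_inE0 hN hg hg1 hE hQ⟩
  · -- `X ∈ A(γ)`
    left
    exact lev_add_A_A hN hγ hγ1 hg hg1 hA hQ
  · -- `X` antipodal
    left; right; right; right
    have hE : InE0 v W (X + T0 hN) := inE0_add_T0 hN hM
    have h1 := onBranch_add_inE0 hN hg hg1 hE hQ
    have h2 := onBranch_add_T0 hN hg hg1 h1
    have e : Q + (X + T0 hN) + T0 hN = X + Q := by
      rw [add_assoc, add_assoc, T0_add_T0 hN, add_zero, add_comm]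
    rw [e] at h2
    refine ⟨?_, mul_lt_of_lt_one_right hs hg1, ?_⟩
    · rw [pow_two]; exact mul_lt_mul_of_pos_left hg hs
    · rw [pow_two, mul_div_mul_left _ _ hs.ne']; exact h2
  · -- `X ∈ B(h)`, `h = s² / γ`
    have hγ0 : 0 < γ := hs2.trans hγ
    set h := v W.a₄ ^ 2 / γ with hh_def
    have hh : v W.a₄ < h := by
      rw [hh_def, lt_div_iff₀ hγ0, pow_two]; exact mul_lt_mul_of_pos_left hγ1 hs
    have hh1 : h < 1 := (div_lt_one₀ hγ0).mpr hγ
    have hh0 : 0 < h := hs.trans hh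
    have hnX : OnBranch v W α h (-X) := onBranch_neg hN' hB
    have eXQ : X + Q = Q - -X := by abel
    have eγ : γ = v W.a₄ ^ 2 / h := by rw [hh_def, div_div_cancel₀ hs2.ne']
    rcases lt_trichotomy g h with hlt | heq | hgt
    · right; right; left
      have := onBranch_sub hN hg hlt hh1 hnX hQ
      rw [← eXQ] at this
      have e : γ * g / v W.a₄ ^ 2 = g / h := by
        rw [eγ, div_mul_eq_mul_div, div_div, mul_comm h, ← div_div, mul_div_cancel_left₀ _ hs2.ne']
      rw [e]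
      refine ⟨?_, (div_lt_one₀ hh0).mpr hlt, this⟩
      exact hg.trans ((lt_div_iff₀ hh0).mpr (mul_lt_of_lt_one_right hg0 hh1))
    · right; left
      have hnX' : OnBranch v W α g (-X) := by rw [heq]; exact hnX
      have := inE0_sub_of_onBranch hN hg hg1 hnX' hQ
      rw [← eXQ] at this
      refine ⟨?_, this⟩
      rw [eγ, ← heq, div_mul_cancel₀ _ hg0.ne', div_self hs2.ne']
    · left; right; right; right
      have h1 := onBranch_sub hN hh hgt hg1 hQ hnX
      have h2 := onBranch_neg hN h1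
      have e : -(-X - Q) = X + Q := by abel
      rw [e] at h2
      have e2 : v W.a₄ ^ 2 / (γ * g) = h / g := by rw [hh_def, div_div]
      refine ⟨?_, ?_, ?_⟩
      · rw [eγ, div_mul_eq_mul_div, lt_div_iff₀ hh0]
        exact mul_lt_mul_of_pos_left hgt hs2
      · calc γ * g < γ := mul_lt_of_lt_one_right hγ0 hg1
          _ < v W.a₄ := hγ1
      · rw [e2]; exact h2

/-- `n • T` has level `gⁿ` modulo `s ^ (2ℤ)`. -/
theorem lev_nsmul {g : Γ₀} (hg : v W.a₄ < g) (hg1 : g < 1) {T : W.toAffine.Point}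
    (hT : OnBranch v W α g T) (n : ℕ) :
    ∃ k : ℕ, Lev v W α β (g ^ (n + 1) / v W.a₄ ^ (2 * k)) ((n + 1) • T) := by
  induction n with
  | zero =>
    refine ⟨0, ?_⟩
    simp only [zero_add, pow_one, mul_zero, pow_zero, div_one, one_smul]
    right; left
    exact ⟨hg, hg1, hT⟩
  | succ n ih =>
    obtain ⟨k, hk⟩ := ih
    rcases lev_add_onBranch hN hg hg1 hk hT with h | h
    · refine ⟨k, ?_⟩
      have e : g ^ (n + 1 + 1) / v W.a₄ ^ (2 * k) = g ^ (n + 1) / v W.a₄ ^ (2 * k) * g := by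
        rw [pow_succ g (n + 1), div_mul_eq_mul_div]
      rw [succ_nsmul, e]
      exact h
    · refine ⟨k + 1, ?_⟩
      have e : g ^ (n + 1 + 1) / v W.a₄ ^ (2 * (k + 1)) =
          g ^ (n + 1) / v W.a₄ ^ (2 * k) * g / v W.a₄ ^ 2 := by
        rw [pow_succ g (n + 1), div_mul_eq_mul_div, div_div, ← pow_add, mul_add, mul_one]
      rw [succ_nsmul, e]
      exact h

/-- **Torsion levels.** If `p • T = 0` and `T` lies on the `α`-branch at level `g` then
`g ^ p = s ^ (2 k)` for some `k`. -/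
theorem level_pow_of_torsion {p : ℕ} (hp : 0 < p)
    {T : W.toAffine.Point} (hT : p • T = 0) {g : Γ₀} (hg : v W.a₄ < g) (hg1 : g < 1)
    (hTα : OnBranch v W α g T) : ∃ k : ℕ, g ^ p = v W.a₄ ^ (2 * k) := by
  obtain ⟨n, rfl⟩ : ∃ n, p = n + 1 := ⟨p - 1, by omega⟩
  obtain ⟨k, hk⟩ := lev_nsmul hN hg hg1 hTα n
  rw [hT] at hk
  have h1 := lev_zero_iff hk
  refine ⟨k, ?_⟩
  have hs := NodeData.s_pos hN
  exact (div_eq_one_iff_eq (pow_pos hs (2 * k)).ne').mp h1

end

end Fermat.Agent.S05
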