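import Fermat.Agent.S05.Basic
import Fermat.Agent.S05.Sep
import Fermat.Agent.S05.Integral

/-!
# S05 helper library: points near the node

Curves `y² + a₁xy = x³ + a₂x² + a₄x` with `v a₄ < 1`: classification of the points reducing to the
node `(0,0)`, and the behaviour of the branch data under the group law.
-/

set_option autoImplicit false

namespace Fermat.Agent.S05

open WeierstrassCurve WeierstrassCurve.Affine

variable {K : Type*} [Field K] {Γ₀ : Type*} [LinearOrderedCommGroupWithZero Γ₀]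
variable {v : Valuation K Γ₀} {W : WeierstrassCurve K} {α β : K}

namespace NodeData

theorem symm (hN : NodeData v W α β) : NodeData v W β α where
  a₃ := hN.a₃
  a₆ := hN.a₆
  a₁ := hN.a₁
  a₂ := hN.a₂
  a₄_lt := hN.a₄_lt
  a₄_ne := hN.a₄_ne
  sum := by rw [add_comm]; exact hN.sum
  prod := by rw [mul_comm]; exact hN.prod
  sep := by rw [Valuation.map_sub_swap]; exact hN.sep

theorem integralCoeffs (hN : NodeData v W α β) : IntegralCoeffs v W where
  a₁ := hN.a₁
  a₂ := hN.a₂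
  a₃ := by rw [hN.a₃, map_zero]; exact zero_le
  a₄ := hN.a₄_lt.le
  a₆ := by rw [hN.a₆, map_zero]; exact zero_le

theorem nonsingular_zero (hN : NodeData v W α β) : W.toAffine.Nonsingular 0 0 :=
  (Affine.nonsingular_zero).mpr ⟨hN.a₆, Or.inr hN.a₄_ne⟩

theorem a₄_pos (hN : NodeData v W α β) : 0 < v W.a₄ :=
  zero_lt_iff.mpr ((Valuation.ne_zero_iff v).mpr hN.a₄_ne)

theorem val_α (hN : NodeData v W α β) : v α ≤ 1 := by
  apply val_le_one_of_root (a := W.a₁) (b := -W.a₂) hN.a₁ (by rw [Valuation.map_neg]; exact hN.a₂)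
  have h1 := hN.sum
  have h2 := hN.prod
  have : W.a₁ = -(α + β) := by rw [h1]; ring
  rw [this, ← h2]; ring

theorem val_β (hN : NodeData v W α β) : v β ≤ 1 := hN.symm.val_α

/-- the equation of the curve in the coordinates `ξ = y - αx`, `η = y - βx` -/
theorem equation (hN : NodeData v W α β) {x y : K} (h : W.toAffine.Equation x y) :
    (y - α * x) * (y - β * x) = x ^ 3 + W.a₄ * x := by
  have h0 := (equation_iff _ _).mp h
  rw [hN.a₃, hN.a₆] at h0
  have h1 := hN.sum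
  have h2 := hN.prod
  have e1 : W.a₁ = -(α + β) := by rw [h1]; ring
  have e2 : W.a₂ = -(α * β) := by rw [h2]; ring
  rw [e1, e2] at h0
  linear_combination h0

theorem addX_eq (hN : NodeData v W α β) (x₁ x₂ ℓ : K) :
    W.toAffine.addX x₁ x₂ ℓ = (ℓ - α) * (ℓ - β) - x₁ - x₂ := by
  have h1 := hN.sum
  have h2 := hN.prod
  have e1 : W.a₁ = -(α + β) := by rw [h1]; ring
  have e2 : W.a₂ = -(α * β) := by rw [h2]; ring
  simp only [addX]
  rw [e1, e2]; ring

theorem negY_sub (hN : NodeData v W α β) (x y : K) :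
    W.toAffine.negY x y - β * x = -(y - α * x) := by
  have h1 := hN.sum
  have e1 : W.a₁ = -(α + β) := by rw [h1]; ring
  simp only [negY]
  rw [e1, hN.a₃]; ring

end NodeData

/-! ### Classification of points -/

theorem val_sq_add_a₄_lt (hN : NodeData v W α β) {x : K} (hx0 : v W.a₄ < v x) (hx1 : v x < 1) :
    v (x ^ 2 + W.a₄) < v x := by
  apply Valuation.map_add_lt v _ hx0
  rw [map_pow, pow_two]
  have hpos : 0 < v x := lt_of_le_of_lt zero_le hx0
  calc v x * v x < v x * 1 := mul_lt_mul_of_pos_left hx1 hpos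
    _ = v x := mul_one _

theorem branch_cases (hN : NodeData v W α β) {x y : K} (h : W.toAffine.Equation x y)
    (hx0 : v W.a₄ < v x) (hx1 : v x < 1) : v (y - α * x) < v x ∨ v (y - β * x) < v x := by
  by_contra hcon
  push Not at hcon
  obtain ⟨h1, h2⟩ := hcon
  have heq := hN.equation h
  have hpos : 0 < v x := lt_of_le_of_lt zero_le hx0
  have : v ((y - α * x) * (y - β * x)) < v x * v x := by
    rw [heq]
    have : x ^ 3 + W.a₄ * x = x * (x ^ 2 + W.a₄) := by ring
    rw [this, map_mul]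
    exact mul_lt_mul_of_pos_left (val_sq_add_a₄_lt hN hx0 hx1) hpos
  rw [map_mul] at this
  exact absurd (mul_le_mul' h1 h2) (not_le.mpr this)

/-- on the `α`-branch the other coordinate `η = y - βx` has the same valuation as `x` -/
theorem val_other (hN : NodeData v W α β) {x y : K} (hξ : v (y - α * x) < v x) :
    v (y - β * x) = v x := by
  have e : y - β * x = (y - α * x) + (α - β) * x := by ring
  have hx : v ((α - β) * x) = v x := by rw [map_mul, hN.sep, one_mul]
  rw [e, Valuation.map_add_eq_of_lt_right v (by rw [hx]; exact hξ), hx]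

theorem classify (hN : NodeData v W α β) (P : W.toAffine.Point) :
    InE0 v W P ∨ Antipodal v W P ∨
      ∃ g : Γ₀, v W.a₄ < g ∧ g < 1 ∧ (OnBranch v W α g P ∨ OnBranch v W β g P) := by
  rcases P with _ | ⟨x, y, h⟩
  · exact Or.inl (Or.inl rfl)
  · by_cases h1 : 1 ≤ v x
    · exact Or.inl (Or.inr ⟨x, y, h, rfl, h1⟩)
    · push Not at h1
      by_cases h2 : v x ≤ v W.a₄
      · exact Or.inr (Or.inl ⟨x, y, h, rfl, h2⟩)
      · push Not at h2
        refine Or.inr (Or.inr ⟨v x, h2, h1, ?_⟩)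
        rcases branch_cases hN h.1 h2 h1 with h3 | h3
        · exact Or.inl ⟨x, y, h, rfl, rfl, h3⟩
        · exact Or.inr ⟨x, y, h, rfl, rfl, h3⟩

/-- at a point with unit `x`-coordinate the reduction is nonsingular -/
theorem partial_unit_of_unit_x (hN : NodeData v W α β) {x y : K} (h : W.toAffine.Equation x y)
    (hx : v x = 1) :
    v (W.a₁ * y - (3 * x ^ 2 + 2 * W.a₂ * x + W.a₄)) = 1 ∨ v (2 * y + W.a₁ * x + W.a₃) = 1 := by
  have hW := hN.integralCoeffs
  have hy : v y ≤ 1 := y_integral hW h hx.le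
  have h0 := (equation_iff _ _).mp h
  rw [hN.a₃, hN.a₆] at h0
  rw [hN.a₃]
  set Fx := W.a₁ * y - (3 * x ^ 2 + 2 * W.a₂ * x + W.a₄) with hFxdef
  set Fy := 2 * y + W.a₁ * x + 0 with hFydef
  have hFx : v Fx ≤ 1 := by
    apply Valuation.map_sub_le v (val_mul_le_one hW.a₁ hy)
    refine Valuation.map_add_le v (Valuation.map_add_le v ?_ ?_) hW.a₄
    · exact val_mul_le_one val_three_le_one (val_pow_le_one hx.le 2)
    · exact val_mul_le_one (val_mul_le_one val_two_le_one hW.a₂) hx.le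
  have hFy : v Fy ≤ 1 := by
    refine Valuation.map_add_le v (Valuation.map_add_le v ?_ ?_) (by simp)
    · exact val_mul_le_one val_two_le_one hy
    · exact val_mul_le_one hW.a₁ hx.le
  by_contra hcon
  push Not at hcon
  have hFx' : v Fx < 1 := lt_of_le_of_ne hFx hcon.1
  have hFy' : v Fy < 1 := lt_of_le_of_ne hFy hcon.2
  have h1 := hN.sum
  have h2 := hN.prod
  have e1 : W.a₁ = -(α + β) := by rw [h1]; ring
  have e2 : W.a₂ = -(α * β) := by rw [h2]; ring
  have hb₂ : (α - β) ^ 2 = W.a₁ ^ 2 + 4 * W.a₂ := by rw [e1, e2]; ring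
  have I : (α - β) ^ 2 * x ^ 2 = Fy ^ 2 - 4 * x ^ 3 - 4 * W.a₄ * x := by
    rw [hb₂, hFydef]; linear_combination (-4) * h0
  have III : 2 * x ^ 3 = -Fy ^ 2 + W.a₁ * x * Fy - 2 * x * Fx + 2 * W.a₄ * x := by
    rw [hFydef, hFxdef]; linear_combination 4 * h0
  have hx3 : v (x ^ 3) = 1 := by rw [map_pow, hx, one_pow]
  have hx2 : v (x ^ 2) = 1 := by rw [map_pow, hx, one_pow]
  -- v 2 < 1
  have hsmall : v (2 * x ^ 3) < 1 := by
    rw [III]
    refine Valuation.map_add_lt v (Valuation.map_sub_lt v (Valuation.map_add_lt v ?_ ?_) ?_) ?_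
    · rw [Valuation.map_neg, pow_two]; exact val_mul_lt_one_left hFy' hFy
    · exact val_mul_lt_one_right (val_mul_le_one hW.a₁ hx.le) hFy'
    · exact val_mul_lt_one_right (val_mul_le_one val_two_le_one hx.le) hFx'
    · exact val_mul_lt_one_left (val_mul_lt_one_right val_two_le_one hN.a₄_lt) hx.le
  have h2small : v (2 : K) < 1 := by
    rwa [map_mul, hx3, mul_one] at hsmall
  have hlhs : v ((α - β) ^ 2 * x ^ 2) = 1 := by
    rw [map_mul, map_pow, hN.sep, one_pow, one_mul, hx2]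
  have hrhs : v (Fy ^ 2 - 4 * x ^ 3 - 4 * W.a₄ * x) < 1 := by
    have h4 : v (4 : K) < 1 := by
      have : (4 : K) = 2 * 2 := by norm_num
      rw [this]; exact val_mul_lt_one_left h2small val_two_le_one
    refine Valuation.map_sub_lt v (Valuation.map_sub_lt v ?_ ?_) ?_
    · rw [pow_two]; exact val_mul_lt_one_left hFy' hFy
    · exact val_mul_lt_one_left h4 hx3.le
    · exact val_mul_lt_one_left (val_mul_lt_one_left h4 hW.a₄) hx.le
  rw [I] at hlhs
  exact absurd hlhs hrhs.ne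

/-- (N) negation swaps the branches -/
theorem onBranch_neg (hN : NodeData v W α β) {g : Γ₀} {P : W.toAffine.Point}
    (hP : OnBranch v W α g P) : OnBranch v W β g (-P) := by
  obtain ⟨x, y, h, rfl, hx, hξ⟩ := hP
  refine ⟨x, W.toAffine.negY x y, (nonsingular_neg ..).mpr h, Point.neg_some h, hx, ?_⟩
  rw [hN.negY_sub, Valuation.map_neg]; exact hξ

/-- the `2`-torsion point `(0,0)` -/
noncomputable def T0 (hN : NodeData v W α β) : W.toAffine.Point :=
  Point.some 0 0 hN.nonsingular_zero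

end Fermat.Agent.S05

namespace Fermat.Agent.S05

open WeierstrassCurve WeierstrassCurve.Affine

variable {K : Type*} [Field K] [DecidableEq K] {Γ₀ : Type*} [LinearOrderedCommGroupWithZero Γ₀]
variable {v : Valuation K Γ₀} {W : WeierstrassCurve K} {α β : K}

/-! ### Translation by the `2`-torsion point `T0 = (0,0)` -/

theorem T0_add_T0 (hN : NodeData v W α β) : T0 hN + T0 hN = 0 := by
  unfold T0
  apply Point.add_self_of_Y_eq
  simp only [negY]; rw [hN.a₃]; ring

/-- explicit coordinates of `P + T0` -/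
theorem add_T0_some (hN : NodeData v W α β) {x y : K} (h : W.toAffine.Nonsingular x y)
    (hx : x ≠ 0) :
    ∃ (x' y' : K) (h' : W.toAffine.Nonsingular x' y'),
      Point.some x y h + T0 hN = Point.some x' y' h' ∧ x' = W.a₄ / x ∧
        y' - β * x' = -(W.a₄ / x ^ 2) * (y - α * x) ∧
        y' - α * x' = -(W.a₄ / x ^ 2) * (y - β * x) := by
  unfold T0
  rw [Point.add_of_X_ne hx]
  have h0 := (equation_iff _ _).mp h.1
  rw [hN.a₃, hN.a₆] at h0
  have h1 := hN.sum
  have h2 := hN.prod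
  have e1 : W.a₁ = -(α + β) := by rw [h1]; ring
  have e2 : W.a₂ = -(α * β) := by rw [h2]; ring
  have hx' : W.toAffine.addX x 0 (W.toAffine.slope x 0 y 0) = W.a₄ / x := by
    rw [slope_of_X_ne hx]
    simp only [addX, sub_zero]
    field_simp
    linear_combination h0
  refine ⟨_, _, _, rfl, hx', ?_, ?_⟩
  · simp only [addY, negAddY, negY]
    rw [hx', slope_of_X_ne hx, hN.a₃, e1]
    field_simp
    ring
  · simp only [addY, negAddY, negY]
    rw [hx', slope_of_X_ne hx, hN.a₃, e1]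
    field_simp
    ring

theorem antipodal_add_T0 (hN : NodeData v W α β) {P : W.toAffine.Point} (hP : InE0 v W P) :
    Antipodal v W (P + T0 hN) := by
  rcases hP with rfl | ⟨x, y, h, rfl, hx⟩
  · rw [zero_add]
    exact ⟨0, 0, hN.nonsingular_zero, rfl, by rw [map_zero]; exact zero_le⟩
  · have hx0 : x ≠ 0 := by
      intro h0; rw [h0, map_zero] at hx; exact absurd hx (not_le.mpr zero_lt_one)
    obtain ⟨x', y', h', he, hx', -, -⟩ := add_T0_some hN h hx0
    refine ⟨x', y', h', he, ?_⟩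
    rw [hx', map_div₀]
    have hpos : 0 < v x := lt_of_lt_of_le zero_lt_one hx
    calc v W.a₄ / v x ≤ v W.a₄ / 1 := by
          exact div_le_div_of_nonneg_left zero_le zero_lt_one hx
      _ = v W.a₄ := div_one _

theorem inE0_add_T0 (hN : NodeData v W α β) {P : W.toAffine.Point} (hP : Antipodal v W P) :
    InE0 v W (P + T0 hN) := by
  obtain ⟨x, y, h, rfl, hx⟩ := hP
  by_cases hx0 : x = 0
  · subst hx0
    have h0 := (equation_iff _ _).mp h.1
    rw [hN.a₃, hN.a₆] at h0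
    have hy : y = 0 := by
      have : y ^ 2 = 0 := by linear_combination h0
      exact pow_eq_zero_iff (two_ne_zero) |>.mp this
    subst hy
    left
    exact T0_add_T0 hN
  · obtain ⟨x', y', h', he, hx', -, -⟩ := add_T0_some hN h hx0
    right
    refine ⟨x', y', h', he, ?_⟩
    rw [hx', map_div₀]
    have hpos : 0 < v x := zero_lt_iff.mpr ((Valuation.ne_zero_iff v).mpr hx0)
    exact (one_le_div₀ hpos).mpr hx

theorem onBranch_add_T0 (hN : NodeData v W α β) {g : Γ₀} (hg : v W.a₄ < g) (_hg1 : g < 1)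
    {P : W.toAffine.Point} (hP : OnBranch v W α g P) :
    OnBranch v W β (v W.a₄ / g) (P + T0 hN) := by
  obtain ⟨x, y, h, rfl, hx, hξ⟩ := hP
  have hgpos : 0 < g := lt_of_le_of_lt zero_le hg
  have hx0 : x ≠ 0 := by
    intro h0; rw [h0, map_zero] at hx; exact hgpos.ne hx
  obtain ⟨x', y', h', he, hx', hy', -⟩ := add_T0_some hN h hx0
  refine ⟨x', y', h', he, ?_, ?_⟩
  · rw [hx', map_div₀, hx]
  · rw [hy', map_mul, Valuation.map_neg, map_div₀, map_pow, hx]
    have : v W.a₄ / g = v W.a₄ / g ^ 2 * g := by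
      rw [pow_two, div_mul_eq_div_div, div_mul_cancel₀ _ hgpos.ne']
    rw [this]
    have hpos : 0 < v W.a₄ / g ^ 2 := div_pos hN.a₄_pos (pow_pos hgpos 2)
    exact mul_lt_mul_of_pos_left hξ hpos

/-! ### Secant lines -/

/-- Vieta's relations for the intersection of the curve with the line through two points. -/
theorem vieta {x₁ x₂ y₁ y₂ : K} (h₁ : W.toAffine.Equation x₁ y₁) (h₂ : W.toAffine.Equation x₂ y₂)
    (hxy : ¬(x₁ = x₂ ∧ y₁ = W.toAffine.negY x₂ y₂)) {ℓ x₃ n : K}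
    (hℓ : ℓ = W.toAffine.slope x₁ x₂ y₁ y₂) (hx₃ : x₃ = W.toAffine.addX x₁ x₂ ℓ)
    (hn : n = y₁ - ℓ * x₁) :
    x₁ * x₂ + x₁ * x₃ + x₂ * x₃ = W.a₄ - 2 * ℓ * n - W.a₁ * n - W.a₃ * ℓ ∧
    x₁ * x₂ * x₃ = n ^ 2 + W.a₃ * n - W.a₆ := by
  have key := addPolynomial_slope h₁ h₂ hxy
  rw [addPolynomial_eq, neg_inj, Cubic.prod_X_sub_C_eq, Cubic.toPoly_injective] at key
  have hc := congrArg Cubic.c key
  have hd := congrArg Cubic.d key
  simp only at hc hd
  rw [← hℓ, ← hx₃] at hc hd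
  subst hn
  constructor
  · linear_combination -hc
  · linear_combination hd

/-- All the data attached to the secant line through two points with distinct `x`-coordinates on a
curve with `NodeData`: slope `ℓ`, intercept `n`, third point `(x₃, ·)` with
`ξ₃ = (ℓ-α)x₃ + n`, `η₃ = (ℓ-β)x₃ + n`; the sum of the two points is `(x₃, y₃)` with
`y₃ - αx₃ = -η₃`, `y₃ - βx₃ = -ξ₃`. -/
theorem secant_data (hN : NodeData v W α β) {x₁ y₁ x₂ y₂ : K}
    (h₁ : W.toAffine.Nonsingular x₁ y₁) (h₂ : W.toAffine.Nonsingular x₂ y₂) (hx : x₁ ≠ x₂) :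
    ∃ (ℓ n x₃ ξ₃ η₃ y₃ : K) (h₃ : W.toAffine.Nonsingular x₃ y₃),
      Point.some x₁ y₁ h₁ + Point.some x₂ y₂ h₂ = Point.some x₃ y₃ h₃ ∧
      y₃ - α * x₃ = -η₃ ∧ y₃ - β * x₃ = -ξ₃ ∧
      (ℓ - α) * (x₁ - x₂) = (y₁ - α * x₁) - (y₂ - α * x₂) ∧
      (ℓ - β) * (x₁ - x₂) = (y₁ - β * x₁) - (y₂ - β * x₂) ∧
      n = (y₁ - α * x₁) - (ℓ - α) * x₁ ∧ n = (y₁ - β * x₁) - (ℓ - β) * x₁ ∧
      x₁ * x₂ * x₃ = n ^ 2 ∧
      x₃ = (ℓ - α) * (ℓ - β) - x₁ - x₂ ∧
      ξ₃ = (ℓ - α) * x₃ + n ∧ η₃ = (ℓ - β) * x₃ + n ∧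
      (y₁ - α * x₁) * (y₂ - α * x₂) * ξ₃ = n * (n ^ 2 + W.a₄ * (ℓ - α) ^ 2) ∧
      (y₁ - β * x₁) * (y₂ - β * x₂) * η₃ = n * (n ^ 2 + W.a₄ * (ℓ - β) ^ 2) ∧
      ξ₃ * η₃ = x₃ ^ 3 + W.a₄ * x₃ := by
  have hxy : ¬(x₁ = x₂ ∧ y₁ = W.toAffine.negY x₂ y₂) := fun h => hx h.1
  set ℓ := W.toAffine.slope x₁ x₂ y₁ y₂ with hℓ
  set x₃ := W.toAffine.addX x₁ x₂ ℓ with hx₃
  set n := y₁ - ℓ * x₁ with hn
  have hs1 := hN.sum
  have hs2 := hN.prod
  have e1 : W.a₁ = -(α + β) := by rw [hs1]; ring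
  have e2 : W.a₂ = -(α * β) := by rw [hs2]; ring
  obtain ⟨hv2, hv3⟩ := vieta h₁.1 h₂.1 hxy hℓ hx₃ hn
  rw [hN.a₃] at hv2
  rw [hN.a₃, hN.a₆] at hv3
  have hx₃' : x₃ = (ℓ - α) * (ℓ - β) - x₁ - x₂ := hN.addX_eq x₁ x₂ ℓ
  have hne : x₁ - x₂ ≠ 0 := sub_ne_zero.mpr hx
  have hℓ' : ℓ * (x₁ - x₂) = y₁ - y₂ := by
    rw [hℓ, slope_of_X_ne hx, div_mul_cancel₀ _ hne]
  have h₃eq := equation_negAdd h₁.1 h₂.1 hxy
  have hy₃ : W.toAffine.negAddY x₁ x₂ y₁ ℓ = ℓ * x₃ + n := by
    simp only [negAddY, hn]; ring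
  rw [← hℓ, ← hx₃, hy₃] at h₃eq
  refine ⟨ℓ, n, x₃, (ℓ - α) * x₃ + n, (ℓ - β) * x₃ + n, W.toAffine.addY x₁ x₂ y₁ ℓ,
    nonsingular_add h₁ h₂ hxy, Point.add_of_X_ne hx, ?_, ?_, ?_, ?_, ?_, ?_, ?_, hx₃', rfl, rfl,
    ?_, ?_, ?_⟩
  · rw [addY, hy₃]; simp only [negY]; rw [hN.a₃, e1]; ring
  · rw [addY, hy₃]; simp only [negY]; rw [hN.a₃, e1]; ring
  · linear_combination hℓ'
  · linear_combination hℓ'
  · rw [hn]; ring
  · rw [hn]; ring
  · rw [hv3]; ring
  · have hy₂ : y₂ = ℓ * x₂ + n := by rw [hn]; linear_combination hℓ'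
    have hy₁ : y₁ = ℓ * x₁ + n := by rw [hn]; ring
    rw [hy₂, hy₁]
    rw [e1] at hv2
    linear_combination ((ℓ - α) ^ 3) * hv3 + ((ℓ - α) ^ 2 * n) * hv2 + ((ℓ - α) * n ^ 2) * hx₃'
  · have hy₂ : y₂ = ℓ * x₂ + n := by rw [hn]; linear_combination hℓ'
    have hy₁ : y₁ = ℓ * x₁ + n := by rw [hn]; ring
    rw [hy₂, hy₁]
    rw [e1] at hv2
    linear_combination ((ℓ - β) ^ 3) * hv3 + ((ℓ - β) ^ 2 * n) * hv2 + ((ℓ - β) * n ^ 2) * hx₃'
  · have := hN.equation h₃eq
    linear_combination this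

/-! ### The difference lemmas -/

/-- (D3) difference of two points on the same branch at different levels -/
theorem onBranch_sub (hN : NodeData v W α β) {gP gQ : Γ₀} (hQ0 : v W.a₄ < gQ) (hQP : gQ < gP)
    (hP1 : gP < 1) {P Q : W.toAffine.Point} (hP : OnBranch v W α gP P)
    (hQ : OnBranch v W α gQ Q) : OnBranch v W α (gQ / gP) (Q - P) := by
  obtain ⟨xP, yP, hP', rfl, hxP, hξP⟩ := hP
  obtain ⟨xQ, yQ, hQ', rfl, hxQ, hξQ⟩ := hQ
  have hgQpos : 0 < gQ := lt_of_le_of_lt zero_le hQ0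
  have hgPpos : 0 < gP := hgQpos.trans hQP
  have hηP : v (yP - β * xP) = gP := by rw [← hxP] at hξP ⊢; exact val_other hN hξP
  have hηQ : v (yQ - β * xQ) = gQ := by rw [← hxQ] at hξQ ⊢; exact val_other hN hξQ
  have hne : xQ ≠ xP := by
    intro h; rw [h, hxP] at hxQ; exact hQP.ne hxQ.symm
  rw [sub_eq_add_neg, Point.neg_some]
  obtain ⟨ℓ, n, x₃, ξ₃, η₃, y₃, h₃, hsum, hy₃α, -, hA, -, hn1, -, hprod, -, hξ₃, -, -, -, hcurve⟩ :=
    secant_data hN hQ' ((nonsingular_neg ..).mpr hP') hne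
  rw [hN.symm.negY_sub] at hA
  -- v (xQ - xP) = gP
  have hvx : v (xQ - xP) = gP := by
    rw [Valuation.map_sub_eq_of_lt_right v (by rw [hxQ, hxP]; exact hQP), hxP]
  -- v (ℓ - α) = 1
  have hvA : v (ℓ - α) = 1 := by
    have h1 : v ((yQ - α * xQ) - -(yP - β * xP)) = gP := by
      rw [sub_neg_eq_add, Valuation.map_add_eq_of_lt_right v (by rw [hηP]; exact hξQ.trans hQP), hηP]
    have := congrArg v hA
    rw [map_mul, hvx, h1] at this
    exact mul_right_cancel₀ hgPpos.ne' (by rw [this, one_mul])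
  -- v n = gQ
  have hvn : v n = gQ := by
    have h2 : v ((ℓ - α) * xQ) = gQ := by rw [map_mul, hvA, one_mul, hxQ]
    rw [hn1, Valuation.map_sub_eq_of_lt_right v (by rw [h2]; exact hξQ), h2]
  -- v x₃ = gQ / gP
  have hvx₃ : v x₃ = gQ / gP := by
    have := congrArg v hprod
    rw [map_mul, map_mul, map_pow, hxQ, hxP, hvn, pow_two] at this
    rw [eq_div_iff hgPpos.ne']
    have h3 : gQ * (v x₃ * gP) = gQ * gQ := by rw [← this]; ac_rfl
    exact mul_left_cancel₀ hgQpos.ne' h3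
  have hlt1 : gQ / gP < 1 := (div_lt_one₀ hgPpos).mpr hQP
  have hgtQ : gQ < gQ / gP := by
    rw [lt_div_iff₀ hgPpos]
    calc gQ * gP < gQ * 1 := mul_lt_mul_of_pos_left hP1 hgQpos
      _ = gQ := mul_one _
  -- v ξ₃ = gQ / gP
  have hvξ₃ : v ξ₃ = gQ / gP := by
    have h4 : v ((ℓ - α) * x₃) = gQ / gP := by rw [map_mul, hvA, one_mul, hvx₃]
    rw [hξ₃, Valuation.map_add_eq_of_lt_left v (by rw [h4, hvn]; exact hgtQ), h4]
  -- v η₃ < v x₃
  have hvη₃ : v η₃ < gQ / gP := by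
    have h5 : v (x₃ ^ 2 + W.a₄) < v x₃ :=
      val_sq_add_a₄_lt hN (by rw [hvx₃]; exact hQ0.trans hgtQ) (by rw [hvx₃]; exact hlt1)
    have := congrArg v hcurve
    have e : x₃ ^ 3 + W.a₄ * x₃ = x₃ * (x₃ ^ 2 + W.a₄) := by ring
    rw [e, map_mul, map_mul, hvξ₃, hvx₃] at this
    have hpos : 0 < gQ / gP := div_pos hgQpos hgPpos
    have h6 : v η₃ = v (x₃ ^ 2 + W.a₄) := mul_left_cancel₀ hpos.ne' this
    rw [h6]; rw [hvx₃] at h5; exact h5
  exact ⟨x₃, y₃, h₃, hsum, hvx₃, by rw [hy₃α, Valuation.map_neg]; exact hvη₃⟩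

/-- (D2) two points with the same branch data differ by an element of `E₀` -/
theorem inE0_sub_of_onBranch (hN : NodeData v W α β) {g : Γ₀} (hg : v W.a₄ < g) (hg1 : g < 1)
    {P Q : W.toAffine.Point} (hP : OnBranch v W α g P) (hQ : OnBranch v W α g Q) :
    InE0 v W (Q - P) := by
  obtain ⟨xP, yP, hP', rfl, hxP, hξP⟩ := hP
  obtain ⟨xQ, yQ, hQ', rfl, hxQ, hξQ⟩ := hQ
  have hgpos : 0 < g := lt_of_le_of_lt zero_le hg
  have hηP : v (yP - β * xP) = g := by rw [← hxP] at hξP ⊢; exact val_other hN hξP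
  have hηQ : v (yQ - β * xQ) = g := by rw [← hxQ] at hξQ ⊢; exact val_other hN hξQ
  by_cases hne : xQ = xP
  · subst hne
    rcases Y_eq_of_X_eq hQ'.1 hP'.1 rfl with hy | hy
    · subst hy
      left
      exact sub_self _
    · exfalso
      rw [hy, hN.negY_sub, Valuation.map_neg] at hηQ
      rw [hηQ] at hξP
      exact lt_irrefl _ hξP
  · rw [sub_eq_add_neg, Point.neg_some]
    obtain ⟨ℓ, n, x₃, ξ₃, η₃, y₃, h₃, hsum, -, -, hA, hB, -, -, -, hx₃, -, -, -, -, -⟩ :=
      secant_data hN hQ' ((nonsingular_neg ..).mpr hP') hne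
    rw [hN.symm.negY_sub] at hA
    rw [hN.negY_sub] at hB
    right
    refine ⟨x₃, y₃, h₃, hsum, ?_⟩
    have hd0 : xQ - xP ≠ 0 := sub_ne_zero.mpr hne
    have hdpos : 0 < v (xQ - xP) := zero_lt_iff.mpr ((Valuation.ne_zero_iff v).mpr hd0)
    have hdle : v (xQ - xP) ≤ g := Valuation.map_sub_le v hxQ.le hxP.le
    have h1 : v ((yQ - α * xQ) - -(yP - β * xP)) = g := by
      rw [sub_neg_eq_add, Valuation.map_add_eq_of_lt_right v (by rw [hηP]; exact hξQ), hηP]
    have h2 : v ((yQ - β * xQ) - -(yP - α * xP)) = g := by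
      rw [sub_neg_eq_add, Valuation.map_add_eq_of_lt_left v (by rw [hηQ]; exact hξP), hηQ]
    have hA' := congrArg v hA
    have hB' := congrArg v hB
    rw [map_mul, h1] at hA'
    rw [map_mul, h2] at hB'
    -- v ((ℓ-α)(ℓ-β)) * d * d = g * g
    have hM : 1 ≤ v ((ℓ - α) * (ℓ - β)) := by
      by_contra hlt
      push Not at hlt
      have : v ((ℓ - α) * (ℓ - β)) * (v (xQ - xP) * v (xQ - xP)) = g * g := by
        rw [map_mul]
        calc v (ℓ - α) * v (ℓ - β) * (v (xQ - xP) * v (xQ - xP))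
            = (v (ℓ - α) * v (xQ - xP)) * (v (ℓ - β) * v (xQ - xP)) := by ac_rfl
          _ = g * g := by rw [hA', hB']
      have hlt2 : v ((ℓ - α) * (ℓ - β)) * (v (xQ - xP) * v (xQ - xP)) < g * g := by
        calc v ((ℓ - α) * (ℓ - β)) * (v (xQ - xP) * v (xQ - xP))
            < 1 * (v (xQ - xP) * v (xQ - xP)) :=
              mul_lt_mul_of_pos_right hlt (mul_pos hdpos hdpos)
          _ = v (xQ - xP) * v (xQ - xP) := one_mul _
          _ ≤ g * g := mul_le_mul' hdle hdle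
      exact absurd this hlt2.ne
    have hsmall : v xQ < v ((ℓ - α) * (ℓ - β)) := by
      rw [hxQ]; exact lt_of_lt_of_le hg1 hM
    have hsmall' : v xP < v ((ℓ - α) * (ℓ - β)) := by
      rw [hxP]; exact lt_of_lt_of_le hg1 hM
    rw [hx₃]
    have e1 : v ((ℓ - α) * (ℓ - β) - xQ) = v ((ℓ - α) * (ℓ - β)) :=
      Valuation.map_sub_eq_of_lt_left v hsmall
    rw [Valuation.map_sub_eq_of_lt_left v (by rw [e1]; exact hsmall'), e1]
    exact hM

omit [DecidableEq K] in
/-- for a point with `1 ≤ v x`, the two coordinates `ξ = y - αx` and `η = y - βx` have the same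
valuation `M`, with `M² = (v x)³` -/
theorem val_ξ_η_of_one_le (hN : NodeData v W α β) {x y : K} (h : W.toAffine.Equation x y)
    (hx : 1 ≤ v x) :
    v (y - α * x) = v (y - β * x) ∧ v (y - α * x) * v (y - β * x) = v x * v x * v x := by
  have hxpos : 0 < v x := lt_of_lt_of_le zero_lt_one hx
  have heq := hN.equation h
  have hprod : v (y - α * x) * v (y - β * x) = v x * v x * v x := by
    have h1 : v (W.a₄ * x) < v (x ^ 3) := by
      rw [map_mul, map_pow]
      calc v W.a₄ * v x < 1 * v x := mul_lt_mul_of_pos_right hN.a₄_lt hxpos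
        _ = v x := one_mul _
        _ ≤ v x ^ 3 := le_self_pow₀ hx (by norm_num)
    have := congrArg v heq
    rw [map_mul, Valuation.map_add_eq_of_lt_left v h1, map_pow] at this
    rw [this]; simp only [pow_succ, pow_zero, one_mul]
  refine ⟨?_, hprod⟩
  have hdiff : v ((y - α * x) - (y - β * x)) = v x := by
    have : (y - α * x) - (y - β * x) = -((α - β) * x) := by ring
    rw [this, Valuation.map_neg, map_mul, hN.sep, one_mul]
  have hle : v x ≤ v x * v x := by
    calc v x = 1 * v x := (one_mul _).symm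
      _ ≤ v x * v x := mul_le_mul' hx le_rfl
  rcases lt_trichotomy (v (y - α * x)) (v (y - β * x)) with hlt | heq' | hgt
  · exfalso
    have h2 : v (y - β * x) = v x := by
      rw [← hdiff]; exact (Valuation.map_sub_eq_of_lt_right v hlt).symm
    rw [h2] at hprod hlt
    have h3 : v (y - α * x) = v x * v x := by
      have : v (y - α * x) * v x = (v x * v x) * v x := hprod
      exact mul_right_cancel₀ hxpos.ne' this
    rw [h3] at hlt
    exact absurd hle (not_le.mpr hlt)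
  · exact heq'
  · exfalso
    have h2 : v (y - α * x) = v x := by
      rw [← hdiff]; exact (Valuation.map_sub_eq_of_lt_left v hgt).symm
    rw [h2] at hprod hgt
    have h3 : v (y - β * x) = v x * v x := by
      have : v x * v (y - β * x) = v x * (v x * v x) := by rw [hprod]; ac_rfl
      exact mul_left_cancel₀ hxpos.ne' this
    rw [h3] at hgt
    exact absurd hle (not_le.mpr hgt)

/-- (D1) adding a point of `E₀` does not change the branch data -/
theorem onBranch_add_inE0 (hN : NodeData v W α β) {g : Γ₀} (hg : v W.a₄ < g) (hg1 : g < 1)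
    {P Q : W.toAffine.Point} (hP : InE0 v W P) (hQ : OnBranch v W α g Q) :
    OnBranch v W α g (Q + P) := by
  rcases hP with rfl | ⟨xP, yP, hP', rfl, hxP⟩
  · rwa [add_zero]
  obtain ⟨xQ, yQ, hQ', rfl, hxQ, hξQ⟩ := hQ
  have hgpos : 0 < g := lt_of_le_of_lt zero_le hg
  have hXpos : 0 < v xP := lt_of_lt_of_le zero_lt_one hxP
  have hηQ : v (yQ - β * xQ) = g := by rw [← hxQ] at hξQ ⊢; exact val_other hN hξQ
  have hne : xQ ≠ xP := by
    intro h; rw [h] at hxQ; rw [hxQ] at hxP; exact absurd hxP (not_le.mpr hg1)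
  obtain ⟨hMeq, hMM⟩ := val_ξ_η_of_one_le hN hP'.1 hxP
  set X := v xP with hX
  set M := v (yP - α * xP) with hM
  rw [← hMeq] at hMM
  -- 1 ≤ M
  have hM1 : 1 ≤ M := by
    by_contra hlt
    push Not at hlt
    have : M * M < X * X * X := by
      calc M * M < 1 * 1 := mul_lt_mul'' hlt hlt zero_le zero_le
        _ = 1 := one_mul _
        _ ≤ X * X * X := by
          calc (1 : Γ₀) = 1 * 1 * 1 := by simp
            _ ≤ X * X * X := mul_le_mul' (mul_le_mul' hxP hxP) hxP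
    exact absurd hMM this.ne
  have hMpos : 0 < M := lt_of_lt_of_le zero_lt_one hM1
  obtain ⟨ℓ, n, x₃, ξ₃, η₃, y₃, h₃, hsum, hy₃α, -, hA, hB, hn1, -, hprod, -, -, hη₃, -, hηprod, -⟩ :=
    secant_data hN hQ' hP' hne
  -- v (xQ - xP) = X
  have hvx : v (xQ - xP) = X := by
    rw [Valuation.map_sub_eq_of_lt_right v (by rw [hxQ]; exact lt_of_lt_of_le hg1 hxP)]
  -- v (ℓ - α) * X = M, v (ℓ - β) * X = M
  have hsubα : v (yQ - α * xQ - (yP - α * xP)) = M := by
    have hlt : v (yQ - α * xQ) < v (yP - α * xP) := lt_of_lt_of_le (hξQ.trans hg1) hM1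
    exact Valuation.map_sub_eq_of_lt_right v hlt
  have hsubβ : v (yQ - β * xQ - (yP - β * xP)) = M := by
    have hlt : v (yQ - β * xQ) < v (yP - β * xP) := by
      rw [← hMeq, hηQ]; exact lt_of_lt_of_le hg1 hM1
    rw [Valuation.map_sub_eq_of_lt_right v hlt, ← hMeq]
  have hA' : v (ℓ - α) * X = M := by
    have := congrArg v hA
    rw [map_mul, hvx, hsubα] at this
    exact this
  have hB' : v (ℓ - β) * X = M := by
    have := congrArg v hB
    rw [map_mul, hvx, hsubβ] at this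
    exact this
  set L := v (ℓ - α) with hL
  have hLβ : v (ℓ - β) = L := mul_right_cancel₀ hXpos.ne' (by rw [hB', hA'])
  -- L * L = X
  have hLL : L * L = X := by
    have h1 : (L * L) * (X * X) = X * (X * X) := by
      calc (L * L) * (X * X) = (L * X) * (L * X) := by ac_rfl
        _ = M * M := by rw [hA']
        _ = X * X * X := hMM
        _ = X * (X * X) := by ac_rfl
    exact mul_right_cancel₀ (mul_pos hXpos hXpos).ne' h1
  have hL1 : 1 ≤ L := by
    by_contra hlt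
    push Not at hlt
    have : L * L < 1 := by
      calc L * L < 1 * 1 := mul_lt_mul'' hlt hlt zero_le zero_le
        _ = 1 := one_mul _
    rw [hLL] at this
    exact absurd hxP (not_le.mpr this)
  have hLpos : 0 < L := lt_of_lt_of_le zero_lt_one hL1
  -- v n = L * g
  have hvn : v n = L * g := by
    have h2 : v ((ℓ - α) * xQ) = L * g := by rw [map_mul, hxQ]
    have h3 : v (yQ - α * xQ) < L * g := by
      calc v (yQ - α * xQ) < g := hξQ
        _ = 1 * g := (one_mul _).symm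
        _ ≤ L * g := mul_le_mul' hL1 le_rfl
    rw [hn1, Valuation.map_sub_eq_of_lt_right v (by rw [h2]; exact h3), h2]
  -- v x₃ = g
  have hvx₃ : v x₃ = g := by
    have := congrArg v hprod
    rw [map_mul, map_mul, map_pow, hxQ, hvn, pow_two, ← hX, ← hLL] at this
    have h4 : (g * (L * L)) * v x₃ = (g * (L * L)) * g := by rw [this]; ac_rfl
    exact mul_left_cancel₀ (mul_pos hgpos (mul_pos hLpos hLpos)).ne' h4
  -- v η₃ < g
  have hvη₃ : v η₃ < g := by
    have h5 : v (n ^ 2 + W.a₄ * (ℓ - β) ^ 2) < L * L * g := by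
      apply Valuation.map_add_lt v
      · rw [map_pow, hvn, pow_two]
        calc L * g * (L * g) = (L * L * g) * g := by ac_rfl
          _ < (L * L * g) * 1 :=
            mul_lt_mul_of_pos_left hg1 (mul_pos (mul_pos hLpos hLpos) hgpos)
          _ = L * L * g := mul_one _
      · rw [map_mul, map_pow, hLβ, pow_two]
        calc v W.a₄ * (L * L) < g * (L * L) :=
              mul_lt_mul_of_pos_right hg (mul_pos hLpos hLpos)
          _ = L * L * g := by ac_rfl
    have := congrArg v hηprod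
    rw [map_mul, map_mul, map_mul, hηQ, ← hMeq, hvn, ← hA', hLL.symm] at this
    -- this : g * (L * (L * L)) * v η₃ = L * g * v (...)
    have h6 : (g * (L * (L * L))) * v η₃ < (g * (L * (L * L))) * g := by
      rw [this]
      calc L * g * v (n ^ 2 + W.a₄ * (ℓ - β) ^ 2) < L * g * (L * L * g) :=
            mul_lt_mul_of_pos_left h5 (mul_pos hLpos hgpos)
        _ = (g * (L * (L * L))) * g := by ac_rfl
    exact lt_of_mul_lt_mul_left h6 zero_le
  exact ⟨x₃, y₃, h₃, hsum, hvx₃, by rw [hy₃α, Valuation.map_neg]; exact hvη₃⟩
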