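import Fermat.Agent.S05.Defs
import Fermat.Agent.S05.Sep
import Fermat.Agent.S05.Kernel
import Fermat.Agent.S05.Integral
import Fermat.Agent.S05.Node
import Fermat.Agent.S05.Comp

/-!
# S05 helper library: the general multiplicative reduction theorem

Let `W : y² + a₁xy = x³ + a₂x² + a₄x` be a curve with a node at `(0,0)` modulo the maximal ideal
(`NodeData`), `σ` an inertia-like endomorphism of `K` inducing `f` on the points. If every
admissible level `g` on each branch contains an `f`-fixed point, then `f` fixes every `p`-torsion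
point, `p` a unit.
-/

set_option autoImplicit false

namespace Fermat.Agent.S05

open WeierstrassCurve WeierstrassCurve.Affine

variable {K : Type*} [Field K] [DecidableEq K] {Γ₀ : Type*} [LinearOrderedCommGroupWithZero Γ₀]
variable {v : Valuation K Γ₀} {W : WeierstrassCurve K} {α β : K}

/-- An inertia-like map moves every point of `E₀` by an element of the kernel of reduction. -/
theorem sub_inKer_of_inE0 {σ : K →+* K} {f : W.toAffine.Point →+ W.toAffine.Point}
    (hN : NodeData v W α β) (hf : InertiaLike v W σ f) {Q : W.toAffine.Point}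
    (hQ : InE0 v W Q) : InKer v W (f Q - Q) := by
  have hW : IntegralCoeffs v W := NodeData.integralCoeffs hN
  rcases hQ with rfl | ⟨x, y, h, rfl, hx⟩
  · left; simp
  · obtain ⟨h', hfQ⟩ := hf.map_some x y h
    rw [hfQ]
    rcases hx.lt_or_eq with hlt | heq
    · -- both points lie in the kernel
      rw [sub_eq_add_neg]
      apply inKer_add hW
      · right; exact ⟨_, _, h', rfl, by rw [hf.val_eq]; exact hlt⟩
      · apply inKer_neg
        right; exact ⟨_, _, h, rfl, hlt⟩
    · -- `x` is a unit: the reduction is nonsingular at `(x, y)`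
      have hx1 : v x = 1 := heq.symm
      have hy : v y ≤ 1 := y_integral hW h.1 hx1.le
      exact sub_inKer_of_congr hW h h' hx1.le hy (hf.sub_lt x hx1.le) (hf.sub_lt y hy)
        (partial_unit_of_unit_x hN h.1 hx1)

/-- The `2`-torsion point `(0,0)` is fixed by any inertia-like map. -/
theorem map_T0 {σ : K →+* K} {f : W.toAffine.Point →+ W.toAffine.Point}
    (hN : NodeData v W α β) (hf : InertiaLike v W σ f) : f (T0 hN) = T0 hN := by
  obtain ⟨h', hfQ⟩ := hf.map_some 0 0 (NodeData.nonsingular_zero hN)
  unfold T0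
  rw [hfQ, Point.some.injEq]
  exact ⟨map_zero σ, map_zero σ⟩

/-- **The general multiplicative reduction theorem.** -/
theorem fix_torsion_of_node {σ : K →+* K} {f : W.toAffine.Point →+ W.toAffine.Point}
    (hN : NodeData v W α β) (hf : InertiaLike v W σ f) {p : ℕ} (hp : v (p : K) = 1)
    (hRα : ∀ g : Γ₀, v W.a₄ < g → g < 1 → (∃ k : ℕ, g ^ p = v W.a₄ ^ (2 * k)) →
      ∃ R : W.toAffine.Point, OnBranch v W α g R ∧ f R = R)
    (hRβ : ∀ g : Γ₀, v W.a₄ < g → g < 1 → (∃ k : ℕ, g ^ p = v W.a₄ ^ (2 * k)) →
      ∃ R : W.toAffine.Point, OnBranch v W β g R ∧ f R = R)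
    {T : W.toAffine.Point} (hT : p • T = 0) : f T = T := by
  have hW : IntegralCoeffs v W := NodeData.integralCoeffs hN
  have hp0 : 0 < p := by
    rcases Nat.eq_zero_or_pos p with h0 | h0
    · subst h0; simp at hp
    · exact h0
  -- it suffices to show that `f T - T` lies in the kernel of reduction
  suffices hker : InKer v W (f T - T) by
    have htors : p • (f T - T) = 0 := by
      rw [smul_sub, ← map_nsmul, hT, map_zero, sub_zero]
    exact sub_eq_zero.mp (eq_zero_of_inKer_of_nsmul_eq_zero hW hker hp htors)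
  -- the branch case, stated for both orderings of the tangent directions
  have branch : ∀ {α' β' : K}, NodeData v W α' β' →
      (∀ g : Γ₀, v W.a₄ < g → g < 1 → (∃ k : ℕ, g ^ p = v W.a₄ ^ (2 * k)) →
        ∃ R : W.toAffine.Point, OnBranch v W α' g R ∧ f R = R) →
      ∀ g : Γ₀, v W.a₄ < g → g < 1 → OnBranch v W α' g T → InKer v W (f T - T) := by
    intro α' β' hN' hR g hg hg1 hTg
    obtain ⟨k, hk⟩ := level_pow_of_torsion hN' hp0 hT hg hg1 hTg
    obtain ⟨R, hRg, hfR⟩ := hR g hg hg1 ⟨k, hk⟩
    have hE0 : InE0 v W (T - R) := inE0_sub_of_onBranch hN' hg hg1 hRg hTg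
    have := sub_inKer_of_inE0 hN' hf hE0
    rwa [map_sub, hfR, sub_sub_sub_cancel_right] at this
  rcases classify hN T with hE0 | hA | ⟨g, hg, hg1, hTα | hTβ⟩
  · exact sub_inKer_of_inE0 hN hf hE0
  · have hE0 : InE0 v W (T + T0 hN) := inE0_add_T0 hN hA
    have := sub_inKer_of_inE0 hN hf hE0
    rwa [map_add, map_T0 hN hf, add_sub_add_right_eq_sub] at this
  · exact branch hN hRα g hg hg1 hTα
  · exact branch (NodeData.symm hN) hRβ g hg hg1 hTβ

end Fermat.Agent.S05
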