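import Mathlib
import Fermat.Prelude.Def_FLTPrelim_GaloisRep
import Fermat.Agent.S05.Defs

/-!
# Translation of a Weierstrass curve as an isomorphism of point groups

For a Weierstrass curve `W` over a field `F` and `r t : F`, the admissible change of variables
`(x, y) ↦ (x - r, y - t)` gives an additive equivalence between the groups of nonsingular points
of `W` and of `shiftCurve W r t = VariableChange.mk 1 r 0 t • W`.
-/

set_option autoImplicit false

namespace Fermat.Agent.S05

open WeierstrassCurve WeierstrassCurve.Affine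

section Defs

variable {F : Type*} [CommRing F] (W : WeierstrassCurve F) (r t : F)

/-- The Weierstrass curve obtained from `W` by the translation `(x, y) ↦ (x - r, y - t)`,
i.e. by the substitution `x = x' + r`, `y = y' + t`. -/
def shiftCurve : WeierstrassCurve F :=
  ⟨W.a₁, W.a₂ + 3 * r, W.a₃ + r * W.a₁ + 2 * t,
    W.a₄ + 2 * r * W.a₂ - t * W.a₁ + 3 * r ^ 2,
    W.a₆ + r * W.a₄ + r ^ 2 * W.a₂ + r ^ 3 - t * W.a₃ - t ^ 2 - r * t * W.a₁⟩

@[simp] theorem shiftCurve_a₁ : (shiftCurve W r t).a₁ = W.a₁ := rfl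

@[simp] theorem shiftCurve_a₂ : (shiftCurve W r t).a₂ = W.a₂ + 3 * r := rfl

@[simp] theorem shiftCurve_a₃ : (shiftCurve W r t).a₃ = W.a₃ + r * W.a₁ + 2 * t := rfl

@[simp] theorem shiftCurve_a₄ :
    (shiftCurve W r t).a₄ = W.a₄ + 2 * r * W.a₂ - t * W.a₁ + 3 * r ^ 2 := rfl

@[simp] theorem shiftCurve_a₆ :
    (shiftCurve W r t).a₆ =
      W.a₆ + r * W.a₄ + r ^ 2 * W.a₂ + r ^ 3 - t * W.a₃ - t ^ 2 - r * t * W.a₁ := rfl

/-- `shiftCurve` is Mathlib's change of variables with `u = 1`, `s = 0`. -/
theorem shiftCurve_eq_variableChange :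
    shiftCurve W r t = (VariableChange.mk 1 r 0 t) • W := by
  ext <;> simp [variableChange_a₁, variableChange_a₂, variableChange_a₃, variableChange_a₄,
    variableChange_a₆]

theorem shiftCurve_b₂ : (shiftCurve W r t).b₂ = W.b₂ + 12 * r := by
  simp only [b₂, shiftCurve_a₁, shiftCurve_a₂]; ring

theorem shiftCurve_c₄ : (shiftCurve W r t).c₄ = W.c₄ := by
  rw [shiftCurve_eq_variableChange, variableChange_c₄]; simp

theorem shiftCurve_Δ : (shiftCurve W r t).Δ = W.Δ := by
  rw [shiftCurve_eq_variableChange, variableChange_Δ]; simp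

theorem shiftCurve_equation (x y : F) :
    (shiftCurve W r t).toAffine.Equation (x - r) (y - t) ↔ W.toAffine.Equation x y := by
  rw [equation_iff', equation_iff']
  simp only [shiftCurve_a₁, shiftCurve_a₂, shiftCurve_a₃, shiftCurve_a₄, shiftCurve_a₆]
  constructor <;> intro h <;> linear_combination h

theorem shiftCurve_nonsingular (x y : F) :
    (shiftCurve W r t).toAffine.Nonsingular (x - r) (y - t) ↔ W.toAffine.Nonsingular x y := by
  rw [nonsingular_iff', nonsingular_iff', shiftCurve_equation]
  simp only [shiftCurve_a₁, shiftCurve_a₂, shiftCurve_a₃, shiftCurve_a₄]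
  have h1 : W.a₁ * (y - t) - (3 * (x - r) ^ 2 + 2 * (W.a₂ + 3 * r) * (x - r) +
      (W.a₄ + 2 * r * W.a₂ - t * W.a₁ + 3 * r ^ 2)) =
      W.a₁ * y - (3 * x ^ 2 + 2 * W.a₂ * x + W.a₄) := by ring
  have h2 : 2 * (y - t) + W.a₁ * (x - r) + (W.a₃ + r * W.a₁ + 2 * t) =
      2 * y + W.a₁ * x + W.a₃ := by ring
  rw [h1, h2]

theorem shiftCurve_negY (x y : F) :
    (shiftCurve W r t).toAffine.negY (x - r) (y - t) = W.toAffine.negY x y - t := by
  simp only [negY, shiftCurve_a₁, shiftCurve_a₃]
  ring

theorem shiftCurve_addX (x₁ x₂ ℓ : F) :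
    (shiftCurve W r t).toAffine.addX (x₁ - r) (x₂ - r) ℓ = W.toAffine.addX x₁ x₂ ℓ - r := by
  simp only [addX, shiftCurve_a₁, shiftCurve_a₂]
  ring

theorem shiftCurve_negAddY (x₁ x₂ y₁ ℓ : F) :
    (shiftCurve W r t).toAffine.negAddY (x₁ - r) (x₂ - r) (y₁ - t) ℓ =
      W.toAffine.negAddY x₁ x₂ y₁ ℓ - t := by
  simp only [negAddY, shiftCurve_addX]
  ring

theorem shiftCurve_addY (x₁ x₂ y₁ ℓ : F) :
    (shiftCurve W r t).toAffine.addY (x₁ - r) (x₂ - r) (y₁ - t) ℓ =
      W.toAffine.addY x₁ x₂ y₁ ℓ - t := by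
  simp only [addY, shiftCurve_negAddY, shiftCurve_addX, shiftCurve_negY]

end Defs

section Field

variable {F : Type*} [Field F] [DecidableEq F] (W : WeierstrassCurve F) (r t : F)

theorem shiftCurve_slope (x₁ x₂ y₁ y₂ : F) :
    (shiftCurve W r t).toAffine.slope (x₁ - r) (x₂ - r) (y₁ - t) (y₂ - t) =
      W.toAffine.slope x₁ x₂ y₁ y₂ := by
  by_cases hx : x₁ = x₂
  · by_cases hy : y₁ = W.toAffine.negY x₂ y₂
    · rw [slope_of_Y_eq hx hy, slope_of_Y_eq (by rw [hx]) (by rw [shiftCurve_negY, hy])]
    · have hy' : y₁ - t ≠ (shiftCurve W r t).toAffine.negY (x₂ - r) (y₂ - t) := by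
        rw [shiftCurve_negY]
        intro h
        exact hy (sub_left_injective h)
      rw [slope_of_Y_ne hx hy, slope_of_Y_ne (by rw [hx]) hy']
      simp only [shiftCurve_a₁, shiftCurve_a₂, shiftCurve_a₄, shiftCurve_negY]
      congr 1 <;> ring
  · have hx' : x₁ - r ≠ x₂ - r := fun h => hx (sub_left_injective h)
    rw [slope_of_X_ne hx, slope_of_X_ne hx']
    congr 1 <;> ring

/-- The translation map on points. -/
def shiftFun : W.toAffine.Point → (shiftCurve W r t).toAffine.Point
  | .zero => .zero
  | .some x y h => .some (x - r) (y - t) ((shiftCurve_nonsingular W r t x y).mpr h)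

omit [DecidableEq F] in
@[simp] theorem shiftFun_zero : shiftFun W r t 0 = 0 := rfl

omit [DecidableEq F] in
@[simp] theorem shiftFun_some {x y : F} (h : W.toAffine.Nonsingular x y) :
    shiftFun W r t (.some x y h) =
      .some (x - r) (y - t) ((shiftCurve_nonsingular W r t x y).mpr h) := rfl

theorem shiftFun_add (P Q : W.toAffine.Point) :
    shiftFun W r t (P + Q) = shiftFun W r t P + shiftFun W r t Q := by
  rcases P with _ | ⟨x₁, y₁, h₁⟩ <;> rcases Q with _ | ⟨x₂, y₂, h₂⟩
  any_goals rfl
  by_cases hxy : x₁ = x₂ ∧ y₁ = W.toAffine.negY x₂ y₂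
  · rw [Point.add_of_Y_eq hxy.left hxy.right]
    simp only [shiftFun_some]
    rw [Point.add_of_Y_eq (by rw [hxy.left]) (by rw [shiftCurve_negY, hxy.right])]
    rfl
  · have hxy' : ¬((x₁ - r) = (x₂ - r) ∧
        (y₁ - t) = (shiftCurve W r t).toAffine.negY (x₂ - r) (y₂ - t)) := by
      rintro ⟨h1, h2⟩
      rw [shiftCurve_negY] at h2
      exact hxy ⟨sub_left_injective h1, sub_left_injective h2⟩
    rw [Point.add_some hxy]
    simp only [shiftFun_some]
    rw [Point.add_some hxy']
    simp only [shiftCurve_slope, shiftCurve_addX, shiftCurve_addY]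

/-- The translation `(x, y) ↦ (x - r, y - t)` as an additive equivalence of point groups. -/
def shiftEquiv : W.toAffine.Point ≃+ (shiftCurve W r t).toAffine.Point where
  toFun := shiftFun W r t
  invFun P := match P with
    | .zero => .zero
    | .some x y h => .some (x + r) (y + t) (by
        have := (shiftCurve_nonsingular W r t (x + r) (y + t))
        rw [add_sub_cancel_right, add_sub_cancel_right] at this
        exact this.mp h)
  left_inv P := by
    rcases P with _ | ⟨x, y, h⟩
    · rfl
    · simp only [shiftFun_some, Point.some.injEq]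
      exact ⟨sub_add_cancel x r, sub_add_cancel y t⟩
  right_inv P := by
    rcases P with _ | ⟨x, y, h⟩
    · rfl
    · simp only [shiftFun_some, Point.some.injEq]
      exact ⟨add_sub_cancel_right x r, add_sub_cancel_right y t⟩
  map_add' := shiftFun_add W r t

@[simp] theorem shiftEquiv_zero : shiftEquiv W r t 0 = 0 := rfl

@[simp] theorem shiftEquiv_some {x y : F} (h : W.toAffine.Nonsingular x y) :
    shiftEquiv W r t (.some x y h) =
      .some (x - r) (y - t) ((shiftCurve_nonsingular W r t x y).mpr h) := rfl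

omit [DecidableEq F] in
theorem shiftCurve_nonsingular_add (x y : F) :
    W.toAffine.Nonsingular (x + r) (y + t) ↔ (shiftCurve W r t).toAffine.Nonsingular x y := by
  have := shiftCurve_nonsingular W r t (x + r) (y + t)
  rw [add_sub_cancel_right, add_sub_cancel_right] at this
  exact this.symm

@[simp] theorem shiftEquiv_symm_zero : (shiftEquiv W r t).symm 0 = 0 := rfl

theorem shiftEquiv_symm_some {x y : F} (h : (shiftCurve W r t).toAffine.Nonsingular x y) :
    (shiftEquiv W r t).symm (.some x y h) =
      .some (x + r) (y + t) ((shiftCurve_nonsingular_add W r t x y).mpr h) := rfl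

/-! ### Names used in the S05 skeleton -/

omit [DecidableEq F] in
theorem shift_nonsingular (x y : F) :
    (shiftCurve W r t).toAffine.Nonsingular (x - r) (y - t) ↔ W.toAffine.Nonsingular x y :=
  shiftCurve_nonsingular W r t x y

/-- the induced isomorphism of groups of points `(x, y) ↦ (x - r, y - t)` -/
noncomputable abbrev shiftPoint : W.toAffine.Point ≃+ (shiftCurve W r t).toAffine.Point :=
  shiftEquiv W r t

theorem shiftPoint_some {x y : F} (h : W.toAffine.Nonsingular x y) :
    shiftPoint W r t (Point.some x y h) =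
      Point.some (x - r) (y - t) ((shift_nonsingular W r t x y).mpr h) := rfl

/-- transport of an `InertiaLike` structure along the shift, when `σ` fixes `r` and `t` -/
theorem InertiaLike.shift {Γ₀ : Type*} [LinearOrderedCommGroupWithZero Γ₀] {v : Valuation F Γ₀}
    {W : WeierstrassCurve F} {σ : F →+* F} {f : W.toAffine.Point →+ W.toAffine.Point}
    (hf : InertiaLike v W σ f) {r t : F} (hr : σ r = r) (ht : σ t = t) :
    InertiaLike v (shiftCurve W r t) σ
      (((shiftPoint W r t).toAddMonoidHom.comp f).comp (shiftPoint W r t).symm.toAddMonoidHom) := by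
  refine ⟨hf.val_eq, hf.sub_lt, fun x y h => ?_⟩
  have h1 : W.toAffine.Nonsingular (x + r) (y + t) := (shiftCurve_nonsingular_add W r t x y).mpr h
  obtain ⟨h2, hf2⟩ := hf.map_some (x + r) (y + t) h1
  have hx : σ (x + r) - r = σ x := by rw [map_add, hr, add_sub_cancel_right]
  have hy : σ (y + t) - t = σ y := by rw [map_add, ht, add_sub_cancel_right]
  have h3 : (shiftCurve W r t).toAffine.Nonsingular (σ x) (σ y) := by
    have := (shift_nonsingular W r t (σ (x + r)) (σ (y + t))).mpr h2
    rwa [hx, hy] at this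
  refine ⟨h3, ?_⟩
  simp only [AddMonoidHom.coe_comp, AddEquiv.coe_toAddMonoidHom, Function.comp_apply]
  rw [shiftEquiv_symm_some, hf2, shiftEquiv_some]
  simp only [hx, hy]

end Field

section BaseChange

open scoped WeierstrassCurve.Affine

theorem shiftCurve_map {R S : Type*} [CommRing R] [CommRing S] (W : WeierstrassCurve R) (r t : R)
    (f : R →+* S) : (shiftCurve W r t).map f = shiftCurve (W.map f) (f r) (f t) := by
  ext <;> simp [map_ofNat]

/-- Transport of points along an equality of curves. -/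
def pointCongr {F : Type*} [Field F] [DecidableEq F] {W₁ W₂ : WeierstrassCurve F} (h : W₁ = W₂) :
    W₁.toAffine.Point ≃+ W₂.toAffine.Point := by
  subst h
  exact AddEquiv.refl _

theorem pointCongr_zero {F : Type*} [Field F] [DecidableEq F] {W₁ W₂ : WeierstrassCurve F}
    (h : W₁ = W₂) : pointCongr h 0 = 0 := by
  subst h; rfl

theorem pointCongr_some {F : Type*} [Field F] [DecidableEq F] {W₁ W₂ : WeierstrassCurve F}
    (h : W₁ = W₂) {x y : F} (hxy : W₁.toAffine.Nonsingular x y) :
    pointCongr h (.some x y hxy) = .some x y (h ▸ hxy) := by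
  subst h; rfl

universe r s v

variable {R : Type r} {S : Type s} {K : Type v} [CommRing R] [CommRing S] [Field K]
  [DecidableEq K] (W : Affine R) (r t : R) [Algebra R S] [Algebra R K] [Algebra S K]
  [IsScalarTower R S K]

/-- The translation by a point defined over the base ring, on `K`-points. -/
noncomputable def shiftEquivBC : (W⁄K).Point ≃+ ((shiftCurve W r t)⁄K).Point :=
  (shiftEquiv (W.baseChange K) (algebraMap R K r) (algebraMap R K t)).trans
    (pointCongr (shiftCurve_map W r t (algebraMap R K)).symm)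

@[simp] theorem shiftEquivBC_zero : shiftEquivBC (K := K) W r t 0 = 0 := by
  simp [shiftEquivBC]

theorem shiftEquivBC_some {x y : K} (h : (W⁄K).Nonsingular x y) :
    ∃ h', shiftEquivBC (K := K) W r t (.some x y h) =
      .some (x - algebraMap R K r) (y - algebraMap R K t) h' := by
  have h1 := (shiftCurve_nonsingular (W.baseChange K) (algebraMap R K r)
    (algebraMap R K t) x y).mpr h
  have h2 : ((shiftCurve W r t)⁄K).Nonsingular (x - algebraMap R K r) (y - algebraMap R K t) := by
    show ((shiftCurve W r t).map (algebraMap R K)).toAffine.Nonsingular _ _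
    rw [shiftCurve_map]
    exact h1
  refine ⟨h2, ?_⟩
  simp only [shiftEquivBC, AddEquiv.trans_apply, shiftEquiv_some]
  exact pointCongr_some _ _

open WeierstrassCurve.Affine.Point in
/-- Translation by a rational point commutes with the Galois action. -/
theorem shiftEquivBC_smul (σ : K ≃ₐ[S] K) (P : (W⁄K).Point) :
    shiftEquivBC (K := K) W r t (σ • P) = σ • shiftEquivBC (K := K) W r t P := by
  rcases P with _ | ⟨x, y, h⟩
  · have h0 : σ • (0 : (W⁄K).Point) = 0 := smul_zero σ
    have h0' : σ • (0 : ((shiftCurve W r t)⁄K).Point) = 0 := smul_zero σ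
    change shiftEquivBC (K := K) W r t (σ • (0 : (W⁄K).Point)) =
      σ • shiftEquivBC (K := K) W r t (0 : (W⁄K).Point)
    rw [h0, shiftEquivBC_zero, h0']
  · obtain ⟨h', he⟩ := shiftEquivBC_some (K := K) W r t h
    rw [he, algEquiv_smul_def, algEquiv_smul_def, Point.map_some, Point.map_some]
    obtain ⟨h'', he'⟩ := shiftEquivBC_some (K := K) W r t
      ((W.baseChange_nonsingular σ.toAlgHom.injective ..).mpr h)
    rw [he']
    have hr : σ.toAlgHom (algebraMap R K r) = algebraMap R K r := by
      rw [IsScalarTower.algebraMap_apply R S K]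
      exact σ.commutes _
    have ht : σ.toAlgHom (algebraMap R K t) = algebraMap R K t := by
      rw [IsScalarTower.algebraMap_apply R S K]
      exact σ.commutes _
    simp only [map_sub, hr, ht]

theorem shiftEquivBC_mem_torsionBy {n : ℕ} {P : (W⁄K).Point}
    (hP : P ∈ Submodule.torsionBy ℤ (W⁄K).Point n) :
    shiftEquivBC (K := K) W r t P ∈ Submodule.torsionBy ℤ ((shiftCurve W r t)⁄K).Point n := by
  rw [Submodule.mem_torsionBy_iff] at hP ⊢
  rw [← map_zsmul, hP, map_zero]

theorem shiftEquivBC_symm_mem_torsionBy {n : ℕ} {P : ((shiftCurve W r t)⁄K).Point}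
    (hP : P ∈ Submodule.torsionBy ℤ ((shiftCurve W r t)⁄K).Point n) :
    (shiftEquivBC (K := K) W r t).symm P ∈ Submodule.torsionBy ℤ (W⁄K).Point n := by
  rw [Submodule.mem_torsionBy_iff] at hP ⊢
  rw [← map_zsmul, hP, map_zero]

/-- The translation on `n`-torsion points. -/
noncomputable def shiftTorsionEquiv (n : ℕ) :
    Submodule.torsionBy ℤ (W⁄K).Point n ≃+
      Submodule.torsionBy ℤ ((shiftCurve W r t)⁄K).Point n where
  toFun P := ⟨shiftEquivBC (K := K) W r t P.1, shiftEquivBC_mem_torsionBy W r t P.2⟩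
  invFun P := ⟨(shiftEquivBC (K := K) W r t).symm P.1, shiftEquivBC_symm_mem_torsionBy W r t P.2⟩
  left_inv P := Subtype.ext ((shiftEquivBC (K := K) W r t).symm_apply_apply P.1)
  right_inv P := Subtype.ext ((shiftEquivBC (K := K) W r t).apply_symm_apply P.1)
  map_add' P Q := Subtype.ext (map_add (shiftEquivBC (K := K) W r t) P.1 Q.1)

@[simp] theorem coe_shiftTorsionEquiv (n : ℕ) (P : Submodule.torsionBy ℤ (W⁄K).Point n) :
    ((shiftTorsionEquiv (K := K) W r t n P : Submodule.torsionBy ℤ
      ((shiftCurve W r t)⁄K).Point n) : ((shiftCurve W r t)⁄K).Point) =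
      shiftEquivBC (K := K) W r t P.1 := rfl

/-- Translation by a rational point commutes with the Galois action on torsion points. -/
theorem shiftTorsionEquiv_smul (n : ℕ) (σ : K ≃ₐ[S] K)
    (P : Submodule.torsionBy ℤ (W⁄K).Point n) :
    shiftTorsionEquiv (K := K) W r t n (σ • P) = σ • shiftTorsionEquiv (K := K) W r t n P :=
  Subtype.ext (shiftEquivBC_smul W r t σ P.1)

/-- To show that `σ` fixes all `n`-torsion points of `W`, it suffices to do so on the translated
curve. -/
theorem smul_eq_self_of_shift (n : ℕ) (σ : K ≃ₐ[S] K)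
    (h : ∀ Q : Submodule.torsionBy ℤ ((shiftCurve W r t)⁄K).Point n, σ • Q = Q)
    (P : Submodule.torsionBy ℤ (W⁄K).Point n) : σ • P = P := by
  apply (shiftTorsionEquiv (K := K) W r t n).injective
  rw [shiftTorsionEquiv_smul, h]

end BaseChange

end Fermat.Agent.S05
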