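import Mathlib
import Fermat.Prelude.Def_FLTPrelim_Ramification
import Fermat.Agent.S05.Defs
import Fermat.Agent.S05.Val
import Fermat.Agent.S05.FixedPoint
import Fermat.Agent.S05.Shift
import Fermat.Agent.S05.H23Frey
import Fermat.Agent.S05.Good
import Fermat.Agent.S05.Kernel
import Fermat.Agent.S05.Mult

/-!
# S05 assembly, part 1: inertia acts trivially on torsion of rational curves with good or nodal
reduction; application to the Frey curve.
-/

set_option autoImplicit false

namespace Fermat.Agent.S05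

open WeierstrassCurve WeierstrassCurve.Affine
open scoped WeierstrassCurve.Affine

local notation "Qbar" => AlgebraicClosure ℚ

section General

variable (W : Affine ℚ) (A : ValuationSubring Qbar) {σ : Qbar ≃ₐ[ℚ] Qbar}

/-- The Galois action of an inertia element is inertia-like. -/
theorem inertiaLike_galois (hσ : σ ∈ A.inertiaSubgroupIn ℚ) :
    InertiaLike A.valuation (W⁄Qbar) (σ : Qbar →+* Qbar) (Point.map σ.toAlgHom) where
  val_eq x := valuation_apply_eq_of_mem_inertia A hσ x
  sub_lt x hx := inertia_sub_lt_one A hσ hx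
  map_some x y h := ⟨_, Point.map_some σ.toAlgHom h⟩

/-- Good reduction: inertia fixes the `n`-torsion, `n` a unit. -/
theorem galois_fix_torsion_of_good (hσ : σ ∈ A.inertiaSubgroupIn ℚ)
    (hW : IntegralCoeffs A.valuation (W⁄Qbar)) (hΔ : A.valuation (W⁄Qbar).Δ = 1) {n : ℕ}
    (hn : A.valuation (n : Qbar) = 1) {T : (W⁄Qbar).Point} (hT : n • T = 0) :
    Point.map σ.toAlgHom T = T :=
  fix_torsion_of_good_aux hW hΔ (inertiaLike_galois W A hσ)
    (fun _ hP hnP => eq_zero_of_inKer_of_nsmul_eq_zero hW hP hn hnP) hT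

/-- `p`-th powers are injective on the value group. -/
theorem val_pow_injective {Γ₀ : Type*} [LinearOrderedCommGroupWithZero Γ₀] {p : ℕ} (hp : p ≠ 0)
    {g h : Γ₀} (hgh : g ^ p = h ^ p) : g = h :=
  (pow_left_inj₀ zero_le' zero_le' hp).mp hgh

/-- Nodal reduction: inertia fixes the `p`-torsion, provided `p` is a unit and the valuation of
`a₄` is a `p`-th power of the valuation of a rational number. -/
theorem galois_fix_torsion_of_node (hσ : σ ∈ A.inertiaSubgroupIn ℚ)
    (h3 : W.a₃ = 0) (h6 : W.a₆ = 0)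
    (h1 : A.valuation (algebraMap ℚ Qbar W.a₁) ≤ 1)
    (h2 : A.valuation (algebraMap ℚ Qbar W.a₂) ≤ 1)
    (h4lt : A.valuation (algebraMap ℚ Qbar W.a₄) < 1) (h4ne : W.a₄ ≠ 0)
    (hdisc : A.valuation (algebraMap ℚ Qbar (W.a₁ ^ 2 + 4 * W.a₂)) = 1)
    {p : ℕ} (hp0 : p ≠ 0) (hp : A.valuation (p : Qbar) = 1) (m : ℚ)
    (hm : A.valuation (algebraMap ℚ Qbar W.a₄) = A.valuation (algebraMap ℚ Qbar m) ^ p)
    {T : (W⁄Qbar).Point} (hT : p • T = 0) :
    Point.map σ.toAlgHom T = T := by
  set v := A.valuation with hv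
  -- the tangent directions at the node
  obtain ⟨α, hα⟩ : ∃ α : Qbar, α * α + algebraMap ℚ Qbar W.a₁ * α - algebraMap ℚ Qbar W.a₂ = 0 := by
    have hdeg : (Polynomial.X ^ 2 + Polynomial.C (algebraMap ℚ Qbar W.a₁) * Polynomial.X -
        Polynomial.C (algebraMap ℚ Qbar W.a₂) : Polynomial Qbar).degree ≠ 0 := by
      have : (Polynomial.X ^ 2 + Polynomial.C (algebraMap ℚ Qbar W.a₁) * Polynomial.X -
          Polynomial.C (algebraMap ℚ Qbar W.a₂) : Polynomial Qbar).degree = 2 := by
        compute_degree!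
      rw [this]; norm_num
    obtain ⟨α, hα⟩ := IsAlgClosed.exists_root _ hdeg
    refine ⟨α, ?_⟩
    simpa [Polynomial.IsRoot, pow_two] using hα
  set β : Qbar := -algebraMap ℚ Qbar W.a₁ - α with hβ
  have hsum : α + β = -algebraMap ℚ Qbar W.a₁ := by rw [hβ]; ring
  have hprod : α * β = -algebraMap ℚ Qbar W.a₂ := by rw [hβ]; linear_combination -hα
  have hsq : (α - β) ^ 2 = algebraMap ℚ Qbar (W.a₁ ^ 2 + 4 * W.a₂) := by
    rw [map_add, map_pow, map_mul, map_ofNat]
    linear_combination (α + β - algebraMap ℚ Qbar W.a₁) * hsum - 4 * hprod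
  have hsep : v (α - β) = 1 := by
    have : v (α - β) ^ 2 = 1 ^ 2 := by rw [← map_pow, hsq, hdisc, one_pow]
    exact val_pow_injective two_ne_zero this
  have hN : NodeData v (W⁄Qbar) α β :=
    { a₃ := by simp [h3]
      a₆ := by simp [h6]
      a₁ := h1
      a₂ := h2
      a₄_lt := h4lt
      a₄_ne := by
        simpa using h4ne
      sum := hsum
      prod := hprod
      sep := hsep }
  have hf := inertiaLike_galois W A hσ
  have hfix : ∀ x : ℚ, (σ : Qbar →+* Qbar) (algebraMap ℚ Qbar x) = algebraMap ℚ Qbar x :=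
    fun x => σ.commutes x
  -- fixed points on each branch at the relevant levels
  have key : ∀ α' β' : Qbar, NodeData v (W⁄Qbar) α' β' → ∀ g : A.ValueGroup,
      v (W⁄Qbar).a₄ < g → g < 1 → (∃ k : ℕ, g ^ p = v (W⁄Qbar).a₄ ^ (2 * k)) →
      ∃ R : (W⁄Qbar).Point, OnBranch v (W⁄Qbar) α' g R ∧ Point.map σ.toAlgHom R = R := by
    intro α' β' hN' g hlo hhi ⟨k, hk⟩
    have hg : g = v (algebraMap ℚ Qbar (m ^ (2 * k))) := by
      apply val_pow_injective hp0
      rw [hk, map_pow, map_pow]
      show v (algebraMap ℚ Qbar W.a₄) ^ (2 * k) = _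
      rw [hm, ← pow_mul, ← pow_mul, mul_comm]
    have := exists_fixed_onBranch hN' hf (hfix _) (hfix _) (hfix _) (hfix (m ^ (2 * k)))
      (by rw [← hg]; exact hlo) (by rw [← hg]; exact hhi)
    rwa [← hg] at this
  exact fix_torsion_of_node hN hf hp (key α β hN) (key β α (fp_swap hN)) hT

end General

end Fermat.Agent.S05
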