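import Fermat.Agent.S05.Defs

/-!
# S05 helper library: small valuation facts
-/

set_option autoImplicit false

namespace Fermat.Agent.S05

open WeierstrassCurve WeierstrassCurve.Affine

variable {K : Type*} [Field K] {Γ₀ : Type*} [LinearOrderedCommGroupWithZero Γ₀]
variable {v : Valuation K Γ₀} {W : WeierstrassCurve K}

theorem lt_of_mul_self_lt {a b : Γ₀} (h : a * a < b * b) : a < b := by
  by_contra hle
  push Not at hle
  exact absurd (mul_le_mul' hle hle) (not_le.mpr h)

theorem val_two_le_one : v (2 : K) ≤ 1 := by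
  have : (2 : K) = 1 + 1 := by norm_num
  rw [this]; exact Valuation.map_add_le v (by simp) (by simp)

theorem val_three_le_one : v (3 : K) ≤ 1 := by
  have : (3 : K) = 2 + 1 := by norm_num
  rw [this]; exact Valuation.map_add_le v val_two_le_one (by simp)

theorem val_mul_le_one {a b : K} (ha : v a ≤ 1) (hb : v b ≤ 1) : v (a * b) ≤ 1 := by
  rw [map_mul]
  calc v a * v b ≤ 1 * 1 := by gcongr
    _ = 1 := one_mul _

theorem val_pow_le_one {a : K} (ha : v a ≤ 1) (n : ℕ) : v (a ^ n) ≤ 1 := by
  rw [map_pow]; exact pow_le_one' ha n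

theorem val_mul_lt_one_left {a b : K} (ha : v a < 1) (hb : v b ≤ 1) : v (a * b) < 1 := by
  rw [map_mul]
  calc v a * v b ≤ v a * 1 := by gcongr
    _ = v a := mul_one _
    _ < 1 := ha

theorem val_mul_lt_one_right {a b : K} (ha : v a ≤ 1) (hb : v b < 1) : v (a * b) < 1 := by
  rw [mul_comm]; exact val_mul_lt_one_left hb ha

/-- a root of a monic quadratic with integral coefficients is integral -/
theorem val_le_one_of_root {a b t : K} (ha : v a ≤ 1) (hb : v b ≤ 1)
    (ht : t ^ 2 + a * t + b = 0) : v t ≤ 1 := by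
  by_contra hlt
  push Not at hlt
  have ht0 : v t ≠ 0 := fun h => by simp [h] at hlt
  have h1 : v (a * t) < v (t ^ 2) := by
    rw [map_mul, map_pow, pow_two]
    calc v a * v t ≤ 1 * v t := by gcongr
      _ < v t * v t := by
        exact mul_lt_mul_of_pos_right hlt (zero_lt_iff.mpr ht0)
  have h2 : v b < v (t ^ 2) := by
    rw [map_pow, pow_two]
    calc v b ≤ 1 := hb
      _ < v t := hlt
      _ = v t * 1 := (mul_one _).symm
      _ < v t * v t := by
        exact mul_lt_mul_of_pos_left hlt (zero_lt_iff.mpr ht0)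
  have e1 : v (t ^ 2 + a * t) = v (t ^ 2) := Valuation.map_add_eq_of_lt_left v h1
  have e2 : v (t ^ 2 + a * t + b) = v (t ^ 2) := by
    rw [← e1]; apply Valuation.map_add_eq_of_lt_left; rw [e1]; exact h2
  rw [ht, map_zero, map_pow] at e2
  exact ht0 ((pow_eq_zero_iff (two_ne_zero)).mp e2.symm)

end Fermat.Agent.S05
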