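import Mathlib
import Fermat.Agent.S05.Defs
import Fermat.Agent.S05.Val
import Fermat.Agent.S05.Shift
import Fermat.Prelude.Def_FLTPrelim_FreyPackage

/-!
# S05 helper library: arithmetic of the Frey curve at an odd prime `q ≠ p`

`freyLike A B : y² + xy = x³ + (B - 1 - A)/4 x² - AB/16 x` over `ℚ` for integers `A, B`.
The Frey curve is `freyLike (aᵖ) (bᵖ)`; its translate by `(r, t) = (A/4, -A/8)` is
`freyLike (-A) (A + B)`.

For a valuation `v` on a field `L ⊇ ℚ` which is "`q`-adic on integers" (`IsQAdic v q`), `q` odd: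
* the coefficients of `freyLike A B` are `v`-integral;
* if `q ∤ AB(A+B)` the discriminant is a `v`-unit (good reduction);
* if `q ∣ AB`, `AB ≠ 0` and `q ∤ B - A` we get `NodeData` (multiplicative reduction);
* if `AB = mᵖ` every level `g` with `gᵖ = v(a₄)^(2k)` is the valuation of an integer.
-/

set_option autoImplicit false

namespace Fermat.Agent.S05.FreyArith

open WeierstrassCurve Fermat.Agent.S05

variable {L : Type*} [Field L] [Algebra ℚ L] {Γ₀ : Type*} [LinearOrderedCommGroupWithZero Γ₀]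

/-- A valuation that restricts to (something equivalent to) the `q`-adic valuation on `ℤ`. -/
structure IsQAdic (v : Valuation L Γ₀) (q : ℕ) : Prop where
  int_le : ∀ n : ℤ, v (n : L) ≤ 1
  unit : ∀ n : ℤ, ¬ (q : ℤ) ∣ n → v (n : L) = 1
  lt : ∀ n : ℤ, (q : ℤ) ∣ n → v (n : L) < 1

omit [Algebra ℚ L] in
theorem isQAdic_of_liesOverPrime (A : ValuationSubring L) {q : ℕ} (hq : q.Prime)
    (hA : A.LiesOverPrime q) : IsQAdic A.valuation q where
  int_le := val_intCast_le_one A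
  unit := fun _ hn => val_intCast_eq_one A hq hA hn
  lt := fun _ hn => val_intCast_lt_one A hA hn

/-- The curve `y² + xy = x³ + (B - 1 - A)/4 x² - AB/16 x` over `ℚ`. -/
def freyLike (A B : ℤ) : WeierstrassCurve ℚ :=
  ⟨1, ((B : ℚ) - 1 - A) / 4, 0, -(A : ℚ) * B / 16, 0⟩

@[simp] theorem freyLike_a₁ (A B : ℤ) : (freyLike A B).a₁ = 1 := rfl
@[simp] theorem freyLike_a₂ (A B : ℤ) : (freyLike A B).a₂ = ((B : ℚ) - 1 - A) / 4 := rfl
@[simp] theorem freyLike_a₃ (A B : ℤ) : (freyLike A B).a₃ = 0 := rfl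
@[simp] theorem freyLike_a₄ (A B : ℤ) : (freyLike A B).a₄ = -(A : ℚ) * B / 16 := rfl
@[simp] theorem freyLike_a₆ (A B : ℤ) : (freyLike A B).a₆ = 0 := rfl

theorem freyCurve_eq (P : FreyPackage) : P.freyCurve = freyLike (P.a ^ P.p) (P.b ^ P.p) := by
  ext <;> simp [FreyPackage.freyCurve]

theorem shiftCurve_freyLike (A B : ℤ) :
    shiftCurve (freyLike A B) ((A : ℚ) / 4) (-(A : ℚ) / 8) = freyLike (-A) (A + B) := by
  ext
  · simp
  · simp only [shiftCurve_a₂, freyLike_a₂]; push_cast; ring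
  · simp only [shiftCurve_a₃, freyLike_a₃, freyLike_a₁]; ring
  · simp only [shiftCurve_a₄, freyLike_a₄, freyLike_a₂, freyLike_a₁]; push_cast; ring
  · simp only [shiftCurve_a₆, freyLike_a₆, freyLike_a₄, freyLike_a₃, freyLike_a₂, freyLike_a₁]
    ring

section General

variable {v : Valuation L Γ₀} {q : ℕ}

omit [Algebra ℚ L] in
theorem IsQAdic.two (hv : IsQAdic v q) (hq : q.Prime) (hq2 : q ≠ 2) : v (2 : L) = 1 := by
  have h : ¬ (q : ℤ) ∣ (2 : ℤ) := by
    intro h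
    have h' : q ∣ 2 := by exact_mod_cast h
    exact hq2 ((Nat.prime_dvd_prime_iff_eq hq Nat.prime_two).mp h')
  simpa using hv.unit 2 h

omit [Algebra ℚ L] in
theorem IsQAdic.four (hv : IsQAdic v q) (hq : q.Prime) (hq2 : q ≠ 2) : v (4 : L) = 1 := by
  have : (4 : L) = 2 * 2 := by norm_num
  rw [this, map_mul, hv.two hq hq2, one_mul]

omit [Algebra ℚ L] in
theorem IsQAdic.sixteen (hv : IsQAdic v q) (hq : q.Prime) (hq2 : q ≠ 2) : v (16 : L) = 1 := by
  have : (16 : L) = 4 * 4 := by norm_num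
  rw [this, map_mul, hv.four hq hq2, one_mul]

theorem map_freyLike_a₂ (A B : ℤ) :
    ((freyLike A B).map (algebraMap ℚ L)).a₂ = (((B - 1 - A : ℤ) : L)) / 4 := by
  simp only [WeierstrassCurve.map_a₂, freyLike_a₂, map_div₀, map_sub, map_one, map_intCast,
    map_ofNat]
  push_cast
  rfl

theorem map_freyLike_a₄ (A B : ℤ) :
    ((freyLike A B).map (algebraMap ℚ L)).a₄ = (((-(A * B) : ℤ) : L)) / 16 := by
  simp only [WeierstrassCurve.map_a₄, freyLike_a₄, map_div₀, map_mul, map_neg, map_intCast,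
    map_ofNat]
  push_cast
  ring

theorem val_map_freyLike_a₂ (hv : IsQAdic v q) (hq : q.Prime) (hq2 : q ≠ 2) (A B : ℤ) :
    v ((freyLike A B).map (algebraMap ℚ L)).a₂ = v ((B - 1 - A : ℤ) : L) := by
  rw [map_freyLike_a₂, map_div₀, hv.four hq hq2, div_one]

theorem val_map_freyLike_a₄ (hv : IsQAdic v q) (hq : q.Prime) (hq2 : q ≠ 2) (A B : ℤ) :
    v ((freyLike A B).map (algebraMap ℚ L)).a₄ = v ((A * B : ℤ) : L) := by
  rw [map_freyLike_a₄, map_div₀, hv.sixteen hq hq2, div_one, Int.cast_neg, Valuation.map_neg]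

theorem integralCoeffs_freyLike (hv : IsQAdic v q) (hq : q.Prime) (hq2 : q ≠ 2) (A B : ℤ) :
    IntegralCoeffs v ((freyLike A B).map (algebraMap ℚ L)) where
  a₁ := by simp
  a₂ := by rw [val_map_freyLike_a₂ hv hq hq2]; exact hv.int_le _
  a₃ := by simp
  a₄ := by rw [val_map_freyLike_a₄ hv hq hq2]; exact hv.int_le _
  a₆ := by simp

theorem freyLike_Δ (A B : ℤ) :
    (freyLike A B).Δ = (((A * B * (A + B) : ℤ) : ℚ)) ^ 2 / 2 ^ 8 := by
  simp only [WeierstrassCurve.Δ, WeierstrassCurve.b₂, WeierstrassCurve.b₄, WeierstrassCurve.b₆,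
    WeierstrassCurve.b₈, freyLike_a₁, freyLike_a₂, freyLike_a₃, freyLike_a₄, freyLike_a₆]
  push_cast
  ring

theorem val_Δ_freyLike (hv : IsQAdic v q) (hq : q.Prime) (hq2 : q ≠ 2) {A B : ℤ}
    (h : ¬ (q : ℤ) ∣ A * B * (A + B)) : v ((freyLike A B).map (algebraMap ℚ L)).Δ = 1 := by
  rw [WeierstrassCurve.map_Δ, freyLike_Δ]
  simp only [map_div₀, map_pow, map_intCast, map_ofNat, hv.two hq hq2, one_pow, div_one]
  rw [hv.unit _ h, one_pow]

theorem nodeData_freyLike (hv : IsQAdic v q) (hq : q.Prime) (hq2 : q ≠ 2) {A B : ℤ}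
    (hdvd : (q : ℤ) ∣ A * B) (hne : A * B ≠ 0) (hsep : ¬ (q : ℤ) ∣ B - A) {α β : L}
    (hsum : α + β = -((freyLike A B).map (algebraMap ℚ L)).a₁)
    (hprod : α * β = -((freyLike A B).map (algebraMap ℚ L)).a₂) :
    NodeData v ((freyLike A B).map (algebraMap ℚ L)) α β where
  a₃ := by simp
  a₆ := by simp
  a₁ := by simp
  a₂ := by rw [val_map_freyLike_a₂ hv hq hq2]; exact hv.int_le _
  a₄_lt := by rw [val_map_freyLike_a₄ hv hq hq2]; exact hv.lt _ hdvd
  a₄_ne := by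
    have hc : ((A * B : ℤ) : L) ≠ 0 := by
      have : ((A * B : ℤ) : ℚ) ≠ 0 := by exact_mod_cast hne
      have h2 : algebraMap ℚ L ((A * B : ℤ) : ℚ) ≠ 0 := by
        rwa [Ne, map_eq_zero]
      rwa [map_intCast] at h2
    have h16 : (16 : L) ≠ 0 := by
      intro h
      have := hv.sixteen hq hq2
      rw [h, map_zero] at this
      exact zero_ne_one this
    rw [map_freyLike_a₄]
    refine div_ne_zero ?_ h16
    rw [Int.cast_neg]
    exact neg_ne_zero.mpr hc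
  sum := hsum
  prod := hprod
  sep := by
    -- `(α - β)² = (α + β)² - 4αβ = 1 + 4 a₂ = B - A`
    have h4 : (4 : L) ≠ 0 := by
      intro h
      have := hv.four hq hq2
      rw [h, map_zero] at this
      exact zero_ne_one this
    have hsq : (α - β) ^ 2 = ((B - A : ℤ) : L) := by
      have e : (α - β) ^ 2 = (α + β) ^ 2 - 4 * (α * β) := by ring
      rw [e, hsum, hprod, map_freyLike_a₂]
      simp only [WeierstrassCurve.map_a₁, freyLike_a₁, map_one]
      push_cast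
      field_simp
      ring
    have hval : v (α - β) ^ 2 = 1 := by
      rw [← map_pow, hsq]; exact hv.unit _ hsep
    exact (pow_left_inj (two_ne_zero)).mp (by rw [hval, one_pow])

omit [Algebra ℚ L] in
theorem exists_tangent_roots [IsAlgClosed L] (W : WeierstrassCurve L) :
    ∃ α β : L, α + β = -W.a₁ ∧ α * β = -W.a₂ := by
  obtain ⟨α, hα⟩ : ∃ α : L, α * α + W.a₁ * α - W.a₂ = 0 := by
    have hdeg : (Polynomial.X ^ 2 + Polynomial.C W.a₁ * Polynomial.X - Polynomial.C W.a₂ :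
        Polynomial L).degree ≠ 0 := by
      have : (Polynomial.X ^ 2 + Polynomial.C W.a₁ * Polynomial.X - Polynomial.C W.a₂ :
          Polynomial L).degree = 2 := by
        compute_degree!
      rw [this]; norm_num
    obtain ⟨ξ, hξ⟩ := IsAlgClosed.exists_root _ hdeg
    refine ⟨ξ, ?_⟩
    simpa [Polynomial.IsRoot, pow_two] using hξ
  refine ⟨α, -W.a₁ - α, by ring, ?_⟩
  linear_combination -hα

theorem exists_int_val_eq_of_level (hv : IsQAdic v q) (hq : q.Prime) (hq2 : q ≠ 2) {A B m : ℤ}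
    {p : ℕ} (hp : 0 < p) (hAB : A * B = m ^ p) {g : Γ₀}
    (hg : ∃ k : ℕ, g ^ p = v ((freyLike A B).map (algebraMap ℚ L)).a₄ ^ (2 * k)) :
    ∃ n : ℤ, v (n : L) = g := by
  obtain ⟨k, hk⟩ := hg
  refine ⟨m ^ (2 * k), ?_⟩
  rw [val_map_freyLike_a₄ hv hq hq2, hAB] at hk
  have e : g ^ p = (v ((m ^ (2 * k) : ℤ) : L)) ^ p := by
    rw [hk]
    push_cast
    rw [map_pow, map_pow, ← pow_mul, ← pow_mul, mul_comm]
  exact ((pow_left_inj hp.ne').mp e).symm

end General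

section Frey

variable (P : FreyPackage) {v : Valuation L Γ₀} {q : ℕ}

theorem frey_trichotomy (hq : q.Prime) :
    ¬ (q : ℤ) ∣ P.a * P.b * P.c ∨ (q : ℤ) ∣ P.a * P.b ∨ (q : ℤ) ∣ P.c := by
  by_cases h : (q : ℤ) ∣ P.a * P.b * P.c
  · right
    exact (Nat.prime_iff_prime_int.mp hq).dvd_or_dvd h
  · exact Or.inl h

theorem not_dvd_of_gcd_eq_one {a b : ℤ} (h : gcd a b = 1) (hq : q.Prime)
    (ha : (q : ℤ) ∣ a) : ¬ (q : ℤ) ∣ b := by
  intro hb
  have h1 : (q : ℤ) ∣ gcd a b := dvd_gcd ha hb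
  rw [h] at h1
  have hq' := Nat.prime_iff_prime_int.mp hq
  exact hq'.not_dvd_one h1

theorem frey_good (hv : IsQAdic v q) (hq : q.Prime) (hq2 : q ≠ 2)
    (h : ¬ (q : ℤ) ∣ P.a * P.b * P.c) :
    IntegralCoeffs v (P.freyCurve.map (algebraMap ℚ L)) ∧
      v (P.freyCurve.map (algebraMap ℚ L)).Δ = 1 := by
  rw [freyCurve_eq]
  refine ⟨integralCoeffs_freyLike hv hq hq2 _ _, val_Δ_freyLike hv hq hq2 ?_⟩
  rw [P.hFLT, ← mul_pow, ← mul_pow]
  intro hd
  exact h ((Nat.prime_iff_prime_int.mp hq).dvd_of_dvd_pow hd)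

theorem frey_nodeData_ab (hv : IsQAdic v q) (hq : q.Prime) (hq2 : q ≠ 2)
    (h : (q : ℤ) ∣ P.a * P.b) {α β : L}
    (hsum : α + β = -(P.freyCurve.map (algebraMap ℚ L)).a₁)
    (hprod : α * β = -(P.freyCurve.map (algebraMap ℚ L)).a₂) :
    NodeData v (P.freyCurve.map (algebraMap ℚ L)) α β := by
  rw [freyCurve_eq] at hsum hprod ⊢
  have hq' := Nat.prime_iff_prime_int.mp hq
  refine nodeData_freyLike hv hq hq2 ?_ ?_ ?_ hsum hprod
  · rw [← mul_pow]
    exact dvd_pow h P.hp0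
  · rw [← mul_pow]
    exact pow_ne_zero _ (mul_ne_zero P.ha0 P.hb0)
  · intro hd
    rcases hq'.dvd_or_dvd h with ha | hb
    · have hb : (q : ℤ) ∣ P.b ^ P.p := by
        have := dvd_add hd (dvd_pow ha P.hp0 : (q : ℤ) ∣ P.a ^ P.p)
        simpa using this
      exact not_dvd_of_gcd_eq_one P.hgcdab hq ha (hq'.dvd_of_dvd_pow hb)
    · have ha : (q : ℤ) ∣ P.a ^ P.p := by
        have := dvd_sub (dvd_pow hb P.hp0 : (q : ℤ) ∣ P.b ^ P.p) hd
        simpa using this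
      exact not_dvd_of_gcd_eq_one P.hgcdab hq (hq'.dvd_of_dvd_pow ha) hb

theorem frey_level_ab (hv : IsQAdic v q) (hq : q.Prime) (hq2 : q ≠ 2) {g : Γ₀}
    (hg : ∃ k : ℕ, g ^ P.p = v (P.freyCurve.map (algebraMap ℚ L)).a₄ ^ (2 * k)) :
    ∃ n : ℤ, v (n : L) = g := by
  rw [freyCurve_eq] at hg
  exact exists_int_val_eq_of_level hv hq hq2 P.hppos (mul_pow P.a P.b P.p).symm hg

/-- the translated Frey curve used at the primes dividing `c` -/
theorem frey_shift_eq :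
    shiftCurve P.freyCurve (((P.a ^ P.p : ℤ) : ℚ) / 4) (-((P.a ^ P.p : ℤ) : ℚ) / 8) =
      freyLike (-(P.a ^ P.p)) (P.c ^ P.p) := by
  rw [freyCurve_eq, shiftCurve_freyLike, P.hFLT]

theorem frey_nodeData_c (hv : IsQAdic v q) (hq : q.Prime) (hq2 : q ≠ 2)
    (h : (q : ℤ) ∣ P.c) {α β : L}
    (hsum : α + β = -((shiftCurve P.freyCurve (((P.a ^ P.p : ℤ) : ℚ) / 4)
      (-((P.a ^ P.p : ℤ) : ℚ) / 8)).map (algebraMap ℚ L)).a₁)
    (hprod : α * β = -((shiftCurve P.freyCurve (((P.a ^ P.p : ℤ) : ℚ) / 4)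
      (-((P.a ^ P.p : ℤ) : ℚ) / 8)).map (algebraMap ℚ L)).a₂) :
    NodeData v ((shiftCurve P.freyCurve (((P.a ^ P.p : ℤ) : ℚ) / 4)
      (-((P.a ^ P.p : ℤ) : ℚ) / 8)).map (algebraMap ℚ L)) α β := by
  rw [frey_shift_eq] at hsum hprod ⊢
  have hq' := Nat.prime_iff_prime_int.mp hq
  refine nodeData_freyLike hv hq hq2 ?_ ?_ ?_ hsum hprod
  · exact dvd_mul_of_dvd_right (dvd_pow h P.hp0) _
  · exact mul_ne_zero (neg_ne_zero.mpr (pow_ne_zero _ P.ha0)) (pow_ne_zero _ P.hc0)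
  · intro hd
    have ha : (q : ℤ) ∣ P.a ^ P.p := by
      have := dvd_sub hd (dvd_pow h P.hp0 : (q : ℤ) ∣ P.c ^ P.p)
      simpa using this
    have hgcd : gcd P.c P.a = 1 := by rw [gcd_comm]; exact P.hgcdac
    exact not_dvd_of_gcd_eq_one hgcd hq h (hq'.dvd_of_dvd_pow ha)

theorem frey_level_c (hv : IsQAdic v q) (hq : q.Prime) (hq2 : q ≠ 2) {g : Γ₀}
    (hg : ∃ k : ℕ, g ^ P.p = v ((shiftCurve P.freyCurve (((P.a ^ P.p : ℤ) : ℚ) / 4)
      (-((P.a ^ P.p : ℤ) : ℚ) / 8)).map (algebraMap ℚ L)).a₄ ^ (2 * k)) :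
    ∃ n : ℤ, v (n : L) = g := by
  rw [frey_shift_eq] at hg
  refine exists_int_val_eq_of_level (m := -(P.a * P.c)) hv hq hq2 P.hppos ?_ hg
  rw [P.hp_odd.neg_pow, mul_pow]
  ring

end Frey

end Fermat.Agent.S05.FreyArith
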