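import Fermat.Agent.S05.Frey

/-!
# S05 assembly, part 2: the Frey curve at an odd prime `q ≠ p`.
-/

set_option autoImplicit false

namespace Fermat.Agent.S05

open WeierstrassCurve WeierstrassCurve.Affine
open scoped WeierstrassCurve.Affine

local notation "Qbar" => AlgebraicClosure ℚ

section Arith

variable {q : ℕ} (hq : q.Prime) (hq2 : q ≠ 2)
include hq hq2

theorem not_dvd_two_pow (k : ℕ) : ¬ (q : ℤ) ∣ 2 ^ k := by
  intro h
  have h1 : q ∣ 2 ^ k := by exact_mod_cast h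
  have h2 : q ∣ 2 := hq.dvd_of_dvd_pow h1
  exact hq2 ((Nat.prime_dvd_prime_iff_eq hq Nat.prime_two).mp h2)

theorem not_dvd_four : ¬ (q : ℤ) ∣ 4 := by
  have := not_dvd_two_pow hq hq2 2
  norm_num at this
  exact this

theorem not_dvd_sixteen : ¬ (q : ℤ) ∣ 16 := by
  have := not_dvd_two_pow hq hq2 4
  norm_num at this
  exact this

end Arith

section Val

variable (A : ValuationSubring Qbar) {q : ℕ} (hq : q.Prime) (hA : A.LiesOverPrime q)
include hq hA

/-- Valuation of a rational number whose denominator is prime to `q`. -/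
theorem val_algebraMap_div (z d : ℤ) (hd : ¬ (q : ℤ) ∣ d) :
    A.valuation (algebraMap ℚ Qbar ((z : ℚ) / (d : ℚ))) = A.valuation ((z : ℤ) : Qbar) := by
  rw [map_div₀, map_intCast, map_intCast, map_div₀, val_intCast_eq_one A hq hA hd, div_one]

end Val

theorem val_algebraMap_int (A : ValuationSubring Qbar) (z : ℤ) :
    A.valuation (algebraMap ℚ Qbar (z : ℚ)) = A.valuation ((z : ℤ) : Qbar) := by
  rw [map_intCast]

section Coeffs

variable (P : FreyPackage)

theorem frey_a₂_eq :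
    P.freyCurve.a₂ = ((P.b ^ P.p - 1 - P.a ^ P.p : ℤ) : ℚ) / ((4 : ℤ) : ℚ) := by
  simp only [freyCurve_a₂]; push_cast; ring

theorem frey_a₄_eq :
    P.freyCurve.a₄ = ((-(P.a ^ P.p * P.b ^ P.p) : ℤ) : ℚ) / ((16 : ℤ) : ℚ) := by
  simp only [freyCurve_a₄]; push_cast; ring

theorem frey_disc_eq :
    P.freyCurve.a₁ ^ 2 + 4 * P.freyCurve.a₂ = ((P.b ^ P.p - P.a ^ P.p : ℤ) : ℚ) := by
  simp only [freyCurve_a₁, freyCurve_a₂]; push_cast; ring

theorem frey_Δ_eq :
    P.freyCurve.Δ = (((P.a * P.b * P.c) ^ (2 * P.p) : ℤ) : ℚ) / ((2 ^ 8 : ℤ) : ℚ) := by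
  rw [freyCurve_Δ']; push_cast; ring

/-- The Frey curve translated so that the node modulo primes dividing `c` sits at the origin. -/
noncomputable def freyShift : WeierstrassCurve ℚ :=
  shiftCurve P.freyCurve (freyA P / 4) (-(freyA P) / 8)

theorem freyShift_a₁ : (freyShift P).a₁ = 1 := rfl

theorem freyShift_a₂ :
    (freyShift P).a₂ = ((P.c ^ P.p + P.a ^ P.p - 1 : ℤ) : ℚ) / ((4 : ℤ) : ℚ) := by
  have h := freyA_add_freyB P
  simp only [freyShift, shiftCurve_a₂, freyCurve_a₂]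
  push_cast
  linear_combination (1 / 4 : ℚ) * h

theorem freyShift_a₃ : (freyShift P).a₃ = 0 := by
  simp only [freyShift, shiftCurve_a₃, freyCurve_a₁, freyCurve_a₃]
  ring

theorem freyShift_a₄ :
    (freyShift P).a₄ = ((P.a ^ P.p * P.c ^ P.p : ℤ) : ℚ) / ((16 : ℤ) : ℚ) := by
  have h := freyA_add_freyB P
  simp only [freyShift, shiftCurve_a₄, freyCurve_a₁, freyCurve_a₂, freyCurve_a₄]
  push_cast
  linear_combination ((P.a : ℚ) ^ P.p / 16) * h

theorem freyShift_a₆ : (freyShift P).a₆ = 0 := by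
  simp only [freyShift, shiftCurve_a₆, freyCurve_a₁, freyCurve_a₂, freyCurve_a₃, freyCurve_a₄,
    freyCurve_a₆]
  ring

theorem freyShift_disc_eq :
    (freyShift P).a₁ ^ 2 + 4 * (freyShift P).a₂ = ((P.c ^ P.p + P.a ^ P.p : ℤ) : ℚ) := by
  rw [freyShift_a₁, freyShift_a₂]; push_cast; ring

end Coeffs

section Dvd

variable {q : ℕ} (hq : q.Prime)
include hq

theorem not_dvd_of_gcd_eq_one {x y : ℤ} (h : gcd x y = 1) (hx : (q : ℤ) ∣ x) : ¬ (q : ℤ) ∣ y := by
  intro hy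
  have h1 := dvd_gcd hx hy
  rw [h] at h1
  have h2 : q ∣ 1 := by exact_mod_cast h1
  exact hq.one_lt.ne' (Nat.dvd_one.mp h2)

theorem dvd_pow_iff_int {x : ℤ} {n : ℕ} (hn : n ≠ 0) : (q : ℤ) ∣ x ^ n ↔ (q : ℤ) ∣ x :=
  ⟨fun h => Int.Prime.dvd_pow' hq h, fun h => dvd_pow h hn⟩

/-- If `q ∣ x` and `q ∤ y` then `q ∤ y ^ n - x ^ n` and `q ∤ y ^ n + x ^ n`. -/
theorem not_dvd_pow_sub_pow {x y : ℤ} {n : ℕ} (hn : n ≠ 0) (hx : (q : ℤ) ∣ x) (hy : ¬ (q : ℤ) ∣ y) :
    ¬ (q : ℤ) ∣ y ^ n - x ^ n := by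
  intro h
  apply hy
  rw [← dvd_pow_iff_int hq hn]
  have : y ^ n = (y ^ n - x ^ n) + x ^ n := by ring
  rw [this]
  exact dvd_add h (dvd_pow hx hn)

theorem not_dvd_pow_add_pow {x y : ℤ} {n : ℕ} (hn : n ≠ 0) (hx : (q : ℤ) ∣ x) (hy : ¬ (q : ℤ) ∣ y) :
    ¬ (q : ℤ) ∣ x ^ n + y ^ n := by
  intro h
  apply hy
  rw [← dvd_pow_iff_int hq hn]
  have : y ^ n = (x ^ n + y ^ n) - x ^ n := by ring
  rw [this]
  exact dvd_sub h (dvd_pow hx hn)

end Dvd

section Main

variable (P : FreyPackage) {q : ℕ} (hq : q.Prime) (hq2 : q ≠ 2) (hqp : q ≠ P.p)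
  (A : ValuationSubring Qbar) (hA : A.LiesOverPrime q) {σ : Qbar ≃ₐ[ℚ] Qbar}
  (hσ : σ ∈ A.inertiaSubgroupIn ℚ)
include hq hq2 hqp hA hσ

theorem frey_val_p : A.valuation ((P.p : ℕ) : Qbar) = 1 := by
  have h : ¬ (q : ℤ) ∣ ((P.p : ℕ) : ℤ) := by
    intro h
    have h1 : q ∣ P.p := by exact_mod_cast h
    exact hqp ((Nat.prime_dvd_prime_iff_eq hq P.pp).mp h1)
  have := val_intCast_eq_one A hq hA h
  simpa using this

/-- Case `q ∤ abc`: good reduction. -/
theorem frey_fix_good (habc : ¬ (q : ℤ) ∣ P.a * P.b * P.c) {T : (P.freyCurve⁄Qbar).Point}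
    (hT : P.p • T = 0) : Point.map σ.toAlgHom T = T := by
  have h4 := not_dvd_four hq hq2
  have h16 := not_dvd_sixteen hq hq2
  have hW : IntegralCoeffs A.valuation (P.freyCurve⁄Qbar) :=
    { a₁ := by simp
      a₂ := by
        show A.valuation (algebraMap ℚ Qbar P.freyCurve.a₂) ≤ 1
        rw [frey_a₂_eq, val_algebraMap_div A hq hA _ _ h4]
        exact val_intCast_le_one A _
      a₃ := by simp
      a₄ := by
        show A.valuation (algebraMap ℚ Qbar P.freyCurve.a₄) ≤ 1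
        rw [frey_a₄_eq, val_algebraMap_div A hq hA _ _ h16]
        exact val_intCast_le_one A _
      a₆ := by simp }
  have hΔ : A.valuation (P.freyCurve⁄Qbar).Δ = 1 := by
    show A.valuation (P.freyCurve.map (algebraMap ℚ Qbar)).Δ = 1
    rw [WeierstrassCurve.map_Δ]
    show A.valuation (algebraMap ℚ Qbar P.freyCurve.Δ) = 1
    rw [frey_Δ_eq, val_algebraMap_div A hq hA _ _ (not_dvd_two_pow hq hq2 8)]
    apply val_intCast_eq_one A hq hA
    rw [dvd_pow_iff_int hq (by have := P.hp0; omega)]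
    exact habc
  exact galois_fix_torsion_of_good P.freyCurve A hσ hW hΔ (frey_val_p P hq hq2 hqp A hA hσ) hT

/-- Case `q ∣ ab`: nodal reduction of the Frey model itself. -/
theorem frey_fix_node_ab (hab : (q : ℤ) ∣ P.a * P.b) {T : (P.freyCurve⁄Qbar).Point}
    (hT : P.p • T = 0) : Point.map σ.toAlgHom T = T := by
  have h4 := not_dvd_four hq hq2
  have h16 := not_dvd_sixteen hq hq2
  have hp0 := P.hp0
  have hqi : Prime (q : ℤ) := Nat.prime_iff_prime_int.mp hq
  refine galois_fix_torsion_of_node P.freyCurve A hσ rfl rfl ?_ ?_ ?_ ?_ ?_ hp0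
    (frey_val_p P hq hq2 hqp A hA hσ) ((P.a * P.b : ℤ) : ℚ) ?_ hT
  · simp
  · rw [frey_a₂_eq, val_algebraMap_div A hq hA _ _ h4]
    exact val_intCast_le_one A _
  · rw [frey_a₄_eq, val_algebraMap_div A hq hA _ _ h16]
    apply val_intCast_lt_one A hA
    rw [dvd_neg, ← mul_pow, dvd_pow_iff_int hq hp0]
    exact hab
  · rw [freyCurve_a₄]
    have ha : (P.a : ℚ) ≠ 0 := by exact_mod_cast P.ha0
    have hb : (P.b : ℚ) ≠ 0 := by exact_mod_cast P.hb0
    unfold freyA freyB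
    have : (P.a : ℚ) ^ P.p ≠ 0 := pow_ne_zero _ ha
    have : (P.b : ℚ) ^ P.p ≠ 0 := pow_ne_zero _ hb
    simp [*]
  · rw [frey_disc_eq, val_algebraMap_int]
    apply val_intCast_eq_one A hq hA
    rcases hqi.dvd_or_dvd hab with ha | hb
    · exact not_dvd_pow_sub_pow hq hp0 ha (not_dvd_of_gcd_eq_one hq P.hgcdab ha)
    · have hna : ¬ (q : ℤ) ∣ P.a :=
        not_dvd_of_gcd_eq_one hq (by rw [gcd_comm]; exact P.hgcdab) hb
      intro h
      exact not_dvd_pow_sub_pow hq hp0 hb hna (by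
        have : P.a ^ P.p - P.b ^ P.p = -(P.b ^ P.p - P.a ^ P.p) := by ring
        rw [this, dvd_neg]; exact h)
  · rw [frey_a₄_eq, val_algebraMap_div A hq hA _ _ h16, val_algebraMap_int, ← map_pow]
    have : ((-(P.a ^ P.p * P.b ^ P.p) : ℤ) : Qbar) = -(((P.a * P.b : ℤ) : Qbar) ^ P.p) := by
      push_cast; ring
    rw [this, Valuation.map_neg]

/-- Case `q ∣ c`: nodal reduction of the translated Frey model. -/
theorem frey_fix_node_c (hc : (q : ℤ) ∣ P.c) {T : ((freyShift P)⁄Qbar).Point}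
    (hT : P.p • T = 0) : Point.map σ.toAlgHom T = T := by
  have h4 := not_dvd_four hq hq2
  have h16 := not_dvd_sixteen hq hq2
  have hp0 := P.hp0
  have hna : ¬ (q : ℤ) ∣ P.a :=
    not_dvd_of_gcd_eq_one hq (by rw [gcd_comm]; exact P.hgcdac) hc
  refine galois_fix_torsion_of_node (freyShift P) A hσ (freyShift_a₃ P) (freyShift_a₆ P)
    ?_ ?_ ?_ ?_ ?_ hp0 (frey_val_p P hq hq2 hqp A hA hσ) ((P.a * P.c : ℤ) : ℚ) ?_ hT
  · rw [freyShift_a₁]; simp
  · rw [freyShift_a₂, val_algebraMap_div A hq hA _ _ h4]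
    exact val_intCast_le_one A _
  · rw [freyShift_a₄, val_algebraMap_div A hq hA _ _ h16]
    apply val_intCast_lt_one A hA
    exact dvd_mul_of_dvd_right (dvd_pow hc hp0) _
  · rw [freyShift_a₄]
    have ha : (P.a : ℚ) ≠ 0 := by exact_mod_cast P.ha0
    have hc' : (P.c : ℚ) ≠ 0 := by exact_mod_cast P.hc0
    have : (P.a : ℚ) ^ P.p ≠ 0 := pow_ne_zero _ ha
    have : (P.c : ℚ) ^ P.p ≠ 0 := pow_ne_zero _ hc'
    push_cast
    simp [*]
  · rw [freyShift_disc_eq, val_algebraMap_int]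
    apply val_intCast_eq_one A hq hA
    exact not_dvd_pow_add_pow hq hp0 hc hna
  · rw [freyShift_a₄, val_algebraMap_div A hq hA _ _ h16, val_algebraMap_int, ← map_pow]
    congr 1
    push_cast; ring

/-- **Inertia at an odd prime `q ≠ p` acts trivially on the `p`-torsion of the Frey curve.** -/
theorem frey_smul_eq_self
    (x : Submodule.torsionBy ℤ (P.freyCurve⁄Qbar).Point P.p) : σ • x = x := by
  have htors : ∀ {W : Affine ℚ} (y : Submodule.torsionBy ℤ (W⁄Qbar).Point P.p),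
      P.p • (y : (W⁄Qbar).Point) = 0 := by
    intro W y
    have := (Submodule.mem_torsionBy_iff _ _).mp y.2
    rwa [natCast_zsmul] at this
  by_cases hc : (q : ℤ) ∣ P.c
  · refine smul_eq_self_of_shift (K := Qbar) (S := ℚ) P.freyCurve (freyA P / 4) (-(freyA P) / 8)
      P.p σ (fun Q => ?_) x
    apply Subtype.ext
    exact frey_fix_node_c P hq hq2 hqp A hA hσ hc (htors Q)
  · apply Subtype.ext
    by_cases hab : (q : ℤ) ∣ P.a * P.b
    · exact frey_fix_node_ab P hq hq2 hqp A hA hσ hab (htors x)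
    · refine frey_fix_good P hq hq2 hqp A hA hσ ?_ (htors x)
      intro h
      rcases (Nat.prime_iff_prime_int.mp hq).dvd_or_dvd h with h | h
      · exact hab h
      · exact hc h

end Main

end Fermat.Agent.S05
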